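/-
S56, block (F), sub-block F-B "LOCAL FIELDS": DEFINITIONS.

`P : PT.Local.Plc` is a finite place of `Qb = AlgebraicClosure ℚ` (valuation ring `P.A`, residue
characteristic `P.ℓ`, multiplicative valuation `P.v`, decomposition group `P.dec`, inertia group `P.ine`).
No completions: the "local fields" are the fixed fields `fixedField Γ`, `Γ ≤ P.dec`.
 * `FF P`       : the residue field of `P.A` (an algebraic closure of `F_ℓ`);
 * `rs P x`     : the residue class of `x` (junk value `0` if `x ∉ P.A`);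
 * `theta P a s = rs (s a / a)` : the tame character attached to `v(a)`;
 * `IsTeich P t`: `t` is a root of unity of order prime to `ℓ`;
 * `IsLam P e lam` : `lam ^ e = -ℓ`, `ℓ ∤ e`;  `G0 P lam = Stab_I(lam)`;  `KK P lam = fixedField (G0 P lam)`
    (`= Qb^I(lam)`, totally tamely ramified of degree `e` over `Qb^I`);
 * `Fil P lam j u` : `u ∈ U^(j) K^{×ℓ}`;  `LC P lam j u a` : `u y^ℓ = 1 + t lam^j + o(lam^j)`, `rs t = a`;
 * `IsKum Γ ζ c u` : the cocycle `s ↦ ζ^(c s)` on `Γ` is the Kummer cocycle of `u`.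
"`a` divides `b` in `P.A`" is written `P.v b ≤ P.v a`.
-/
import Fermat.Agent.PT.Local.Hensel
import Fermat.Agent.PT.Local.Val

set_option autoImplicit false

open Fermat.Agent.PT.Local IntermediateField
open scoped Classical

noncomputable section

namespace Fermat.Agent.S56.F.LF

variable (P : Plc)

/-- the residue field of the place. -/
abbrev FF : Type := IsLocalRing.ResidueField P.A

/-- the residue class of `x` (`0` if `x` is not integral). -/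
def rs (x : Qb) : FF P := if h : x ∈ P.A then IsLocalRing.residue P.A ⟨x, h⟩ else 0

/-- the tame character: `theta a s = s(a)/a mod m`. -/
def theta (a : Qb) (s : GQ) : FF P := rs P (s a / a)

/-- roots of unity of order prime to `ℓ`. -/
def IsTeich (t : Qb) : Prop := ∃ n : ℕ, ¬ P.ℓ ∣ n ∧ t ^ n = 1

/-- `lam` is an `e`-th root of `-ℓ`, `ℓ ∤ e`. -/
structure IsLam (e : ℕ) (lam : Qb) : Prop where
  cop : ¬ P.ℓ ∣ e
  pow : lam ^ e = -(P.ℓ : Qb)

/-- the stabiliser of `x` in `Γ`. -/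
def stab (Γ : Subgroup GQ) (x : Qb) : Subgroup GQ where
  carrier := {s | s ∈ Γ ∧ s x = x}
  mul_mem' := by
    rintro s t ⟨hs, hs'⟩ ⟨ht, ht'⟩
    exact ⟨Γ.mul_mem hs ht, by rw [AlgEquiv.mul_apply, ht', hs']⟩
  one_mem' := ⟨Γ.one_mem, rfl⟩
  inv_mem' := by
    rintro s ⟨hs, hs'⟩
    refine ⟨Γ.inv_mem hs, ?_⟩
    conv_lhs => rw [← hs']
    exact s.symm_apply_apply x

lemma mem_stab {Γ : Subgroup GQ} {x : Qb} {s : GQ} : s ∈ stab Γ x ↔ s ∈ Γ ∧ s x = x := Iff.rfl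

lemma stab_le (Γ : Subgroup GQ) (x : Qb) : stab Γ x ≤ Γ := fun _ h => h.1

/-- `Γ₀ = Stab_I(lam)`. -/
abbrev G0 (lam : Qb) : Subgroup GQ := stab P.ine lam

/-- `K = Qb^{Γ₀} = Qb^I(lam)`. -/
abbrev KK (lam : Qb) : Fld := fixedField (G0 P lam)

/-- `u ∈ U^(j) · K^{×ℓ}`. -/
def Fil (lam : Qb) (j : ℕ) (u : Qb) : Prop :=
  ∃ y ∈ KK P lam, y ≠ 0 ∧ P.v (u * y ^ P.ℓ - 1) ≤ P.v lam ^ j

/-- `u y^ℓ = 1 + t lam^j + o(lam^j)` with `rs t = a`: "`a` is the leading coefficient of `u` at level `j`"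
(`a = 0` allowed). -/
def LC (lam : Qb) (j : ℕ) (u : Qb) (a : FF P) : Prop :=
  ∃ y ∈ KK P lam, y ≠ 0 ∧ ∃ t : Qb, P.v t ≤ 1 ∧ rs P t = a ∧
    P.v (u * y ^ P.ℓ - 1 - t * lam ^ j) < P.v lam ^ j

/-- `j` is a "level": `ℓ ∤ j`, `0 < j < ℓ e / (ℓ - 1)`. -/
def IsLevel (e j : ℕ) : Prop := 0 < j ∧ ¬ P.ℓ ∣ j ∧ j * (P.ℓ - 1) < P.ℓ * e

/-- the cocycle `s ↦ ζ^(c s)` on `Γ` is the Kummer cocycle `s ↦ s(β)/β` of `u = β^p`. -/
def IsKum {p : ℕ} (Γ : Subgroup GQ) (ζ : Qb) (c : GQ → ZMod p) (u : Qb) : Prop :=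
  ∃ β : Qb, β ≠ 0 ∧ β ^ p = u ∧ ∀ s ∈ Γ, s β = ζ ^ (c s).val * β

end Fermat.Agent.S56.F.LF

end
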