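/-
S56 F-B (B5): Hilbert 90 / Kummer theory for an arbitrary subgroup `Γ ≤ GQ`.
-/
import Fermat.Agent.S56.F.LF.Defs
import Fermat.Agent.PT.B.H90Field
import Fermat.Agent.PT.B.Galois

set_option autoImplicit false

open Fermat.Agent.PT.Local IntermediateField

namespace Fermat.Agent.S56.F.LF

variable {p : ℕ} [Fact p.Prime]

/-- `ζ ^ (n mod p) = ζ ^ n`. -/
theorem zeta_pow_val_natCast {ζ : Qb} (hζ : ζ ^ p = 1) (n : ℕ) :
    ζ ^ ((n : ZMod p).val) = ζ ^ n := by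
  rw [ZMod.val_natCast]
  conv_rhs => rw [← Nat.div_add_mod n p, pow_add, pow_mul, hζ, one_pow, one_mul]

theorem zeta_pow_val_add {ζ : Qb} (hζ : ζ ^ p = 1) (a b : ZMod p) :
    ζ ^ (a + b).val = ζ ^ a.val * ζ ^ b.val := by
  have h : a + b = ((a.val + b.val : ℕ) : ZMod p) := by
    rw [Nat.cast_add, ZMod.natCast_zmod_val, ZMod.natCast_zmod_val]
  rw [h, zeta_pow_val_natCast hζ, pow_add]

theorem zeta_pow_val_natCast_mul {ζ : Qb} (hζ : ζ ^ p = 1) (n : ℕ) (a : ZMod p) :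
    ζ ^ ((n : ZMod p) * a).val = (ζ ^ a.val) ^ n := by
  have h : (n : ZMod p) * a = ((n * a.val : ℕ) : ZMod p) := by
    rw [Nat.cast_mul, ZMod.natCast_zmod_val]
  rw [h, zeta_pow_val_natCast hζ, ← pow_mul, mul_comm]

theorem zeta_pow_val_eq_one_iff {ζ : Qb} (hζ : IsPrimitiveRoot ζ p) (a : ZMod p) :
    ζ ^ a.val = 1 ↔ a = 0 := by
  rw [hζ.pow_eq_one_iff_dvd]
  constructor
  · intro h
    have h1 : a.val = 0 := Nat.eq_zero_of_dvd_of_lt h (ZMod.val_lt a)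
    exact (ZMod.val_eq_zero a).1 h1
  · rintro rfl
    simp

/-- **(B5) existence.**  `c : Γ → ZMod p` smooth, `s ↦ ζ^(c s)` a 1-cocycle of `Γ` with values in `μ_p`.
(`PT.hilbert90_poincare` with `L = PT.Lall`, `V = Γ`; the hypothesis `hgal` for `Lall` is used in
`PT/B/Galois.lean`.) -/
theorem exists_isKum (Γ : Subgroup GQ) {ζ : Qb} (hζ : IsPrimitiveRoot ζ p) (c : GQ → ZMod p)
    (hsm : ∃ L : Fld, FiniteDimensional ℚ L ∧ ∀ s ∈ Γ, (∀ x ∈ L, s x = x) → c s = 0)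
    (hc : ∀ s ∈ Γ, ∀ t ∈ Γ, ζ ^ (c (s * t)).val = ζ ^ (c s).val * s (ζ ^ (c t).val)) :
    ∃ u ∈ fixedField Γ, u ≠ 0 ∧ IsKum Γ ζ c u := by
  obtain ⟨L, hL, hLc⟩ := hsm
  obtain ⟨L', hle, hfd, hn⟩ := Fermat.Agent.PT.exists_normal_level_all L hL
  have hζ0 : ζ ≠ 0 := hζ.ne_zero (Fact.out : p.Prime).ne_zero
  obtain ⟨β, hβ0, hβ⟩ := Fermat.Agent.PT.hilbert90_poincare (Ω := Qb) (G := GQ)
    Fermat.Agent.PT.Lall
    (fun U hU g hg => Fermat.Agent.PT.mem_level_of_fixes hU hg) Γ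
    (fun s => ζ ^ (c s).val)
    (fun v _ => pow_ne_zero _ hζ0)
    ⟨L'.fixingSubgroup, ⟨hn, L', hfd, rfl⟩, fun v hv u hu huΓ => by
      have h0 : c u = 0 := hLc u huΓ fun x hx =>
        (IntermediateField.mem_fixingSubgroup_iff L' u).mp hu x (hle hx)
      show ζ ^ (c (v * u)).val = ζ ^ (c v).val
      rw [hc v hv u huΓ, h0]
      simp⟩
    (fun v hv w hw => hc v hv w hw)
  have hβ' : ∀ s ∈ Γ, s β = ζ ^ (c s).val * β := fun s hs => by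
    rw [mul_comm]; exact hβ s hs
  refine ⟨β ^ p, ?_, pow_ne_zero _ hβ0, β, hβ0, rfl, hβ'⟩
  rw [IntermediateField.mem_fixedField_iff]
  intro s hs
  rw [map_pow, hβ' s hs, mul_pow, ← pow_mul, mul_comm _ p, pow_mul, hζ.pow_eq_one, one_pow, one_mul]

/-- uniqueness of `u` modulo `p`-th powers. -/
theorem IsKum.unique {Γ : Subgroup GQ} {ζ : Qb} {c : GQ → ZMod p} {u u' : Qb} (h : IsKum Γ ζ c u)
    (h' : IsKum Γ ζ c u') : ∃ y ∈ fixedField Γ, y ≠ 0 ∧ u' = u * y ^ p := by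
  obtain ⟨β, hβ0, hβu, hβ⟩ := h
  obtain ⟨β', hβ0', hβu', hβ'⟩ := h'
  refine ⟨β' / β, ?_, div_ne_zero hβ0' hβ0, ?_⟩
  · rw [IntermediateField.mem_fixedField_iff]
    intro s hs
    have h1 : ζ ^ (c s).val ≠ 0 := by
      intro h0
      have := hβ s hs
      rw [h0, zero_mul] at this
      exact hβ0 ((map_eq_zero s).1 this)
    rw [map_div₀, hβ s hs, hβ' s hs, mul_div_mul_left _ _ h1]
  · rw [div_pow, hβu, hβu']
    have : u ≠ 0 := hβu ▸ pow_ne_zero _ hβ0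
    field_simp

theorem IsKum.mul_pow {Γ : Subgroup GQ} {ζ : Qb} {c : GQ → ZMod p} {u y : Qb} (h : IsKum Γ ζ c u)
    (hy : y ∈ fixedField Γ) (hy0 : y ≠ 0) : IsKum Γ ζ c (u * y ^ p) := by
  obtain ⟨β, hβ0, hβu, hβ⟩ := h
  refine ⟨β * y, mul_ne_zero hβ0 hy0, by rw [_root_.mul_pow, hβu], fun s hs => ?_⟩
  rw [map_mul, hβ s hs, (IntermediateField.mem_fixedField_iff _ _).1 hy s hs, mul_assoc]

/-- additivity. -/
theorem IsKum.mul {Γ : Subgroup GQ} {ζ : Qb} (hζ : IsPrimitiveRoot ζ p) {c c' : GQ → ZMod p}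
    {u u' : Qb} (h : IsKum Γ ζ c u) (h' : IsKum Γ ζ c' u') : IsKum Γ ζ (c + c') (u * u') := by
  obtain ⟨β, hβ0, hβu, hβ⟩ := h
  obtain ⟨β', hβ0', hβu', hβ'⟩ := h'
  refine ⟨β * β', mul_ne_zero hβ0 hβ0', by rw [_root_.mul_pow, hβu, hβu'], fun s hs => ?_⟩
  rw [map_mul, hβ s hs, hβ' s hs, Pi.add_apply, zeta_pow_val_add hζ.pow_eq_one]
  ring

theorem IsKum.pow {Γ : Subgroup GQ} {ζ : Qb} (hζ : IsPrimitiveRoot ζ p) {c : GQ → ZMod p}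
    {u : Qb} (h : IsKum Γ ζ c u) (n : ℕ) : IsKum Γ ζ ((n : ZMod p) • c) (u ^ n) := by
  obtain ⟨β, hβ0, hβu, hβ⟩ := h
  refine ⟨β ^ n, pow_ne_zero _ hβ0, by rw [← hβu, ← pow_mul, ← pow_mul, mul_comm], fun s hs => ?_⟩
  rw [map_pow, hβ s hs, Pi.smul_apply, smul_eq_mul, zeta_pow_val_natCast_mul hζ.pow_eq_one, _root_.mul_pow]

/-- if `c = 0` on `Γ` then `u` is a `p`-th power in `Qb^Γ`. -/
theorem IsKum.exists_root_of_zero {Γ : Subgroup GQ} {ζ : Qb} {c : GQ → ZMod p}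
    {u : Qb} (h : IsKum Γ ζ c u) (h0 : ∀ s ∈ Γ, c s = 0) : ∃ y ∈ fixedField Γ, y ^ p = u := by
  obtain ⟨β, hβ0, hβu, hβ⟩ := h
  refine ⟨β, ?_, hβu⟩
  rw [IntermediateField.mem_fixedField_iff]
  intro s hs
  rw [hβ s hs, h0 s hs]
  simp

/-- `u` is a `p`-th power in `Qb^Γ` iff the cocycle is a coboundary. -/
theorem IsKum.isPow_iff {Γ : Subgroup GQ} {ζ : Qb} (hζ : IsPrimitiveRoot ζ p) {c : GQ → ZMod p}
    {u : Qb} (h : IsKum Γ ζ c u) :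
    (∃ y ∈ fixedField Γ, y ^ p = u) ↔ ∃ i : ℕ, ∀ s ∈ Γ, ζ ^ (c s).val * ζ ^ i = s (ζ ^ i) := by
  obtain ⟨β, hβ0, hβu, hβ⟩ := h
  have hp : p ≠ 0 := (Fact.out : p.Prime).ne_zero
  haveI : NeZero p := ⟨hp⟩
  have hζ0 : ζ ≠ 0 := hζ.ne_zero hp
  constructor
  · rintro ⟨y, hy, hyu⟩
    have hy0 : y ≠ 0 := by
      rintro rfl
      rw [zero_pow hp] at hyu
      exact pow_ne_zero p hβ0 (hβu.trans hyu.symm)
    have h1 : (β / y) ^ p = 1 := by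
      rw [div_pow, hβu, hyu]
      exact div_self (hyu ▸ pow_ne_zero p hy0)
    obtain ⟨i, -, hi⟩ := hζ.eq_pow_of_pow_eq_one h1
    refine ⟨i, fun s hs => ?_⟩
    have h2 : β = ζ ^ i * y := by rw [hi]; field_simp
    have h3 := hβ s hs
    rw [h2, map_mul, (IntermediateField.mem_fixedField_iff _ _).1 hy s hs, ← mul_assoc] at h3
    exact (mul_right_cancel₀ hy0 h3).symm
  · rintro ⟨i, hi⟩
    refine ⟨β / ζ ^ i, ?_, ?_⟩
    · rw [IntermediateField.mem_fixedField_iff]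
      intro s hs
      rw [map_div₀, hβ s hs, ← hi s hs, mul_comm (ζ ^ (c s).val) β,
        mul_comm (ζ ^ (c s).val) (ζ ^ i), mul_div_mul_right _ _ (pow_ne_zero _ hζ0)]
    · rw [div_pow, hβu, ← pow_mul, mul_comm, pow_mul, hζ.pow_eq_one, one_pow, div_one]

/-- If `Γ` fixes `ζ`: `c = 0` on `Γ` iff `u` is a `p`-th power in `Qb^Γ`.
(The hypothesis `hΓ` is necessary: see `IsKum.isPow_iff` for the general statement.) -/
theorem IsKum.eq_zero_iff {Γ : Subgroup GQ} {ζ : Qb} (hζ : IsPrimitiveRoot ζ p)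
    (hΓ : ∀ s ∈ Γ, s ζ = ζ) {c : GQ → ZMod p}
    {u : Qb} (h : IsKum Γ ζ c u) : (∀ s ∈ Γ, c s = 0) ↔ ∃ y ∈ fixedField Γ, y ^ p = u := by
  have hζ0 : ζ ≠ 0 := hζ.ne_zero (Fact.out : p.Prime).ne_zero
  constructor
  · exact IsKum.exists_root_of_zero h
  · intro hy s hs
    obtain ⟨i, hi⟩ := (IsKum.isPow_iff hζ h).1 hy
    have h1 := hi s hs
    rw [map_pow, hΓ s hs] at h1
    have h2 : ζ ^ (c s).val = 1 := mul_right_cancel₀ (pow_ne_zero i hζ0) (h1.trans (one_mul _).symm)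
    exact (zeta_pow_val_eq_one_iff hζ _).1 h2

/-- conjugation: if `d` normalises `Γ` and `d⁻¹ ζ = ζ^a` then `s ↦ a c(d s d⁻¹)` is the Kummer cocycle of `d⁻¹ u`
(root `d⁻¹ β`). -/
theorem IsKum.conj {Γ : Subgroup GQ} {ζ : Qb} (hζ : IsPrimitiveRoot ζ p) {c : GQ → ZMod p}
    {u : Qb} (h : IsKum Γ ζ c u) {d : GQ} (hd : ∀ s ∈ Γ, d * s * d⁻¹ ∈ Γ) {a : ℕ}
    (ha : d⁻¹ ζ = ζ ^ a) : IsKum Γ ζ (fun s => (a : ZMod p) * c (d * s * d⁻¹)) (d⁻¹ u) := by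
  obtain ⟨β, hβ0, hβu, hβ⟩ := h
  refine ⟨d⁻¹ β, (map_ne_zero _).2 hβ0, by rw [← map_pow, hβu], fun s hs => ?_⟩
  have h1 := hβ _ (hd s hs)
  have h2 : d⁻¹ ((d * s * d⁻¹) β) = s (d⁻¹ β) := by
    rw [AlgEquiv.mul_apply, AlgEquiv.mul_apply]
    exact d.symm_apply_apply _
  rw [← h2, h1, map_mul, map_pow, ha, zeta_pow_val_natCast_mul hζ.pow_eq_one, ← pow_mul, ← pow_mul,
    mul_comm a]

/-- the kernel of `c` in `Γ` is the stabiliser of `β`. -/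
theorem stab_eq_of_root {Γ : Subgroup GQ} {ζ : Qb} (hζ : IsPrimitiveRoot ζ p) {c : GQ → ZMod p}
    {β : Qb} (hβ : β ≠ 0) (h : ∀ s ∈ Γ, s β = ζ ^ (c s).val * β) {s : GQ} (hs : s ∈ Γ) :
    s ∈ stab Γ β ↔ c s = 0 := by
  rw [mem_stab, ← zeta_pow_val_eq_one_iff hζ, h s hs]
  constructor
  · rintro ⟨-, h1⟩
    exact mul_right_cancel₀ hβ (h1.trans (one_mul _).symm)
  · intro h1
    exact ⟨hs, by rw [h1, one_mul]⟩

end Fermat.Agent.S56.F.LF
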