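/-
S56 F-B (B0a): calculus of the residue map `rs`.
-/
import Fermat.Agent.S56.F.LF.Defs

set_option autoImplicit false

open Fermat.Agent.PT.Local IntermediateField

namespace Fermat.Agent.S56.F.LF

variable (P : Plc)

theorem mem_A_iff (x : Qb) : x ∈ P.A ↔ P.v x ≤ 1 := (P.A.valuation_le_one_iff x).symm

theorem rs_of_le {x : Qb} (hx : P.v x ≤ 1) :
    rs P x = IsLocalRing.residue P.A ⟨x, (mem_A_iff P x).2 hx⟩ := by
  unfold rs
  rw [dif_pos ((mem_A_iff P x).2 hx)]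

theorem rs_of_not_le {x : Qb} (hx : ¬ P.v x ≤ 1) : rs P x = 0 := by
  unfold rs
  rw [dif_neg (fun h => hx ((mem_A_iff P x).1 h))]

theorem rs_zero : rs P 0 = 0 := by
  rw [rs_of_le P (by simp)]
  exact map_zero (IsLocalRing.residue P.A)

theorem rs_one : rs P 1 = 1 := by
  rw [rs_of_le P (by simp)]
  exact map_one (IsLocalRing.residue P.A)

theorem rs_add {x y : Qb} (hx : P.v x ≤ 1) (hy : P.v y ≤ 1) : rs P (x + y) = rs P x + rs P y := by
  have hxy : P.v (x + y) ≤ 1 := (P.v.map_add x y).trans (max_le hx hy)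
  rw [rs_of_le P hx, rs_of_le P hy, rs_of_le P hxy, ← map_add]
  rfl

theorem rs_neg (x : Qb) : rs P (-x) = - rs P x := by
  by_cases hx : P.v x ≤ 1
  · have hx' : P.v (-x) ≤ 1 := by rwa [Valuation.map_neg]
    rw [rs_of_le P hx, rs_of_le P hx', ← map_neg]
    rfl
  · have hx' : ¬ P.v (-x) ≤ 1 := by rwa [Valuation.map_neg]
    rw [rs_of_not_le P hx, rs_of_not_le P hx', neg_zero]

theorem rs_sub {x y : Qb} (hx : P.v x ≤ 1) (hy : P.v y ≤ 1) : rs P (x - y) = rs P x - rs P y := by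
  rw [sub_eq_add_neg, rs_add P hx (by rwa [Valuation.map_neg]), rs_neg, sub_eq_add_neg]

theorem rs_mul {x y : Qb} (hx : P.v x ≤ 1) (hy : P.v y ≤ 1) : rs P (x * y) = rs P x * rs P y := by
  have hxy : P.v (x * y) ≤ 1 := by rw [map_mul]; exact mul_le_one₀ hx zero_le hy
  rw [rs_of_le P hx, rs_of_le P hy, rs_of_le P hxy, ← map_mul]
  rfl

theorem rs_pow {x : Qb} (hx : P.v x ≤ 1) (n : ℕ) : rs P (x ^ n) = rs P x ^ n := by
  induction n with
  | zero => simp [rs_one]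
  | succ n ih =>
    have hxn : P.v (x ^ n) ≤ 1 := by rw [map_pow]; exact pow_le_one₀ zero_le hx
    rw [pow_succ, rs_mul P hxn hx, ih, pow_succ]

theorem v_natCast_le_one (n : ℕ) : P.v (n : Qb) ≤ 1 := by
  have : ((n : ℕ) : Qb) ∈ P.A := natCast_mem P.A n
  exact (mem_A_iff P _).1 this

theorem rs_natCast (n : ℕ) : rs P (n : Qb) = (n : FF P) := by
  rw [rs_of_le P (v_natCast_le_one P n)]
  have : (⟨(n : Qb), (mem_A_iff P _).2 (v_natCast_le_one P n)⟩ : P.A) = (n : P.A) := by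
    apply Subtype.ext
    simp
  rw [this, map_natCast]

theorem rs_sum {ι : Type*} (s : Finset ι) (f : ι → Qb) (hf : ∀ i ∈ s, P.v (f i) ≤ 1) :
    rs P (∑ i ∈ s, f i) = ∑ i ∈ s, rs P (f i) := by
  classical
  induction s using Finset.induction_on with
  | empty => simp [rs_zero]
  | insert a s ha ih =>
    have h1 : P.v (∑ i ∈ s, f i) ≤ 1 :=
      Valuation.map_sum_le _ fun i hi => hf i (Finset.mem_insert_of_mem hi)
    rw [Finset.sum_insert ha, Finset.sum_insert ha, rs_add P (hf a (Finset.mem_insert_self a s)) h1,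
      ih fun i hi => hf i (Finset.mem_insert_of_mem hi)]

theorem rs_eq_zero_iff {x : Qb} (hx : P.v x ≤ 1) : rs P x = 0 ↔ P.v x < 1 := by
  rw [rs_of_le P hx, IsLocalRing.residue_eq_zero_iff]
  exact P.A.valuation_lt_one_iff ⟨x, (mem_A_iff P x).2 hx⟩

theorem rs_eq_iff {x y : Qb} (hx : P.v x ≤ 1) (hy : P.v y ≤ 1) :
    rs P x = rs P y ↔ P.v (x - y) < 1 := by
  have hxy : P.v (x - y) ≤ 1 := (P.v.map_sub x y).trans (max_le hx hy)
  rw [← rs_eq_zero_iff P hxy, rs_sub P hx hy, sub_eq_zero]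

theorem rs_inv {x : Qb} (hx : P.v x = 1) : rs P x⁻¹ = (rs P x)⁻¹ := by
  have hx0 : x ≠ 0 := by
    rintro rfl
    simp at hx
  have hxi : P.v x⁻¹ = 1 := by rw [map_inv₀, hx, inv_one]
  have h := rs_mul P hx.le hxi.le
  rw [mul_inv_cancel₀ hx0, rs_one] at h
  exact (eq_inv_of_mul_eq_one_right h.symm)

theorem rs_surjective (y : FF P) : ∃ x : Qb, P.v x ≤ 1 ∧ rs P x = y := by
  obtain ⟨a, rfl⟩ := IsLocalRing.residue_surjective y
  exact ⟨a, (mem_A_iff P _).1 a.2, by rw [rs_of_le P ((mem_A_iff P _).1 a.2)]⟩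

/-- a nonzero class has a unit representative. -/
theorem exists_unit_rep {y : FF P} (hy : y ≠ 0) : ∃ x : Qb, P.v x = 1 ∧ rs P x = y := by
  obtain ⟨x, hx, rfl⟩ := rs_surjective P y
  refine ⟨x, le_antisymm hx (not_lt.1 fun h => hy ((rs_eq_zero_iff P hx).2 h)), rfl⟩

instance charP_FF : CharP (FF P) P.ℓ := by
  haveI : Fact P.ℓ.Prime := ⟨P.prime⟩
  have h0 : ((P.ℓ : ℕ) : FF P) = 0 := by
    rw [← rs_natCast, rs_eq_zero_iff P (v_natCast_le_one P _)]
    exact v_ell_lt_one P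
  exact (CharP.charP_iff_prime_eq_zero P.prime).2 h0

theorem rs_map_ine {s : GQ} (hs : s ∈ P.ine) {x : Qb} (hx : P.v x ≤ 1) : rs P (s x) = rs P x := by
  have hsx : P.v (s x) ≤ 1 := by rw [v_map P (ine_le_dec P hs)]; exact hx
  rw [rs_eq_iff P hsx hx]
  exact ((mem_ine_iff P s).mp hs).2 x ((mem_A_iff P x).2 hx)

theorem rs_map_frob {q : ℕ} {φ : GQ} (hφ : IsFrob P q φ) {x : Qb} (hx : P.v x ≤ 1) :
    rs P (φ x) = rs P x ^ q := by
  have hsx : P.v (φ x) ≤ 1 := by rw [v_map P hφ.1]; exact hx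
  have hxq : P.v (x ^ q) ≤ 1 := by rw [map_pow]; exact pow_le_one₀ zero_le hx
  rw [← rs_pow P hx, rs_eq_iff P hsx hxq]
  exact hφ.2 x ((mem_A_iff P x).2 hx)

/-- elements of the decomposition group act on the residue field. -/
theorem rs_map_dec_congr {d : GQ} (hd : d ∈ P.dec) {x y : Qb} (hx : P.v x ≤ 1) (hy : P.v y ≤ 1)
    (h : rs P x = rs P y) : rs P (d x) = rs P (d y) := by
  have hdx : P.v (d x) ≤ 1 := by rw [v_map P hd]; exact hx
  have hdy : P.v (d y) ≤ 1 := by rw [v_map P hd]; exact hy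
  rw [rs_eq_iff P hdx hdy, ← map_sub, v_map P hd]
  exact (rs_eq_iff P hx hy).1 h

end Fermat.Agent.S56.F.LF
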