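/-
S56 F-B (B0b): the residue field is an algebraic closure of `F_ℓ`; Teichmueller representatives.
-/
import Fermat.Agent.S56.F.LF.Rs
import Fermat.Agent.PT.Local.Unif
import Fermat.Agent.PT.Local.VOrd
import Fermat.Agent.GAL.INJ.ResAlgClosed

set_option autoImplicit false

open Fermat.Agent.PT.Local IntermediateField

namespace Fermat.Agent.S56.F.LF

variable (P : Plc)

/-- lift a monic polynomial to `P.A`, take a root in `Qb`: it is integral over `P.A`, hence in `P.A`. -/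
instance isAlgClosed_FF : IsAlgClosed (FF P) :=
  Fermat.Agent.GAL.INJ.isAlgClosed_residueField P.A

/-- `FF` is algebraic over `F_ℓ` (`x ∈ K = ℚ(x)`, `PT.Local.v_pow_rq_sub`, `exists_rq_eq`). -/
theorem exists_pow_eq_one {y : FF P} (hy : y ≠ 0) : ∃ n : ℕ, ¬ P.ℓ ∣ n ∧ y ^ n = 1 := by
  obtain ⟨x, hx, rfl⟩ := exists_unit_rep P hy
  set K : Fld := ℚ⟮x⟯ with hK
  haveI : FiniteDimensional ℚ K :=
    IntermediateField.adjoin.finiteDimensional (Algebra.IsIntegral.isIntegral x)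
  have hxK : x ∈ lf P K := le_lf P K (IntermediateField.mem_adjoin_simple_self ℚ x)
  have h1 := v_pow_rq_sub P K hxK hx.le
  obtain ⟨f, hf, hq⟩ := exists_rq_eq P K
  have hxq : P.v (x ^ rq P K) ≤ 1 := by rw [map_pow, hx, one_pow]
  have h2 : rs P x ^ rq P K = rs P x := by
    rw [← rs_pow P hx.le]
    exact (rs_eq_iff P hxq hx.le).2 h1
  have hpos : 0 < rq P K := by rw [hq]; exact pow_pos P.prime.pos f
  refine ⟨rq P K - 1, ?_, ?_⟩
  · intro hd
    have h3 : P.ℓ ∣ rq P K := by rw [hq]; exact dvd_pow_self _ hf.ne'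
    have h4 : P.ℓ ∣ 1 := by
      have := (Nat.dvd_sub h3 hd)
      rwa [Nat.sub_sub_self hpos] at this
    exact P.prime.one_lt.ne' (Nat.dvd_one.mp h4)
  · have h5 : rs P x ^ (rq P K - 1) * rs P x = 1 * rs P x := by
      rw [← pow_succ, Nat.sub_add_cancel hpos, h2, one_mul]
    exact mul_right_cancel₀ hy h5

theorem IsTeich.v_eq_one {t : Qb} (ht : IsTeich P t) : P.v t = 1 := by
  obtain ⟨n, hn, h⟩ := ht
  exact hensel_v_eq_one_of_pow_eq_one P (by rintro rfl; exact hn (dvd_zero _)) h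

theorem IsTeich.ne_zero {t : Qb} (ht : IsTeich P t) : t ≠ 0 := by
  rintro rfl
  have := IsTeich.v_eq_one P ht
  simp at this

theorem IsTeich.one : IsTeich P 1 := ⟨1, fun h => P.prime.one_lt.ne' (Nat.dvd_one.mp h), one_pow 1⟩

theorem IsTeich.mul {t t' : Qb} (ht : IsTeich P t) (ht' : IsTeich P t') : IsTeich P (t * t') := by
  obtain ⟨n, hn, h⟩ := ht
  obtain ⟨n', hn', h'⟩ := ht'
  refine ⟨n * n', fun hd => ?_, ?_⟩
  · rcases (Nat.Prime.dvd_mul P.prime).1 hd with h1 | h1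
    · exact hn h1
    · exact hn' h1
  · rw [mul_pow, pow_mul, h, one_pow, mul_comm n n', pow_mul, h', one_pow, one_mul]

theorem IsTeich.inv {t : Qb} (ht : IsTeich P t) : IsTeich P t⁻¹ := by
  obtain ⟨n, hn, h⟩ := ht
  exact ⟨n, hn, by rw [inv_pow, h, inv_one]⟩

theorem IsTeich.pow {t : Qb} (ht : IsTeich P t) (n : ℕ) : IsTeich P (t ^ n) := by
  obtain ⟨m, hm, h⟩ := ht
  exact ⟨m, hm, by rw [← pow_mul, mul_comm, pow_mul, h, one_pow]⟩

theorem IsTeich.map {t : Qb} (ht : IsTeich P t) (s : GQ) : IsTeich P (s t) := by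
  obtain ⟨m, hm, h⟩ := ht
  exact ⟨m, hm, by rw [← map_pow, h, map_one]⟩

/-- ... and are unique (`PT.Local.eq_of_v_sub_lt_one`). -/
theorem IsTeich.eq_of_rs_eq {t t' : Qb} (ht : IsTeich P t) (ht' : IsTeich P t')
    (h : rs P t = rs P t') : t = t' := by
  have hv := IsTeich.v_eq_one P ht
  have hv' := IsTeich.v_eq_one P ht'
  obtain ⟨n, hn, h1⟩ := ht
  obtain ⟨n', hn', h1'⟩ := ht'
  have hnn : ¬ P.ℓ ∣ n * n' := by
    intro hd
    rcases (Nat.Prime.dvd_mul P.prime).1 hd with h1 | h1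
    · exact hn h1
    · exact hn' h1
  apply eq_of_v_sub_lt_one P hnn (by rw [pow_mul, h1, one_pow])
    (by rw [mul_comm, pow_mul, h1', one_pow])
  exact (rs_eq_iff P hv.le hv'.le).1 h

/-- Teichmueller representatives exist (`PT.Local.hensel` with `E = ⊥`, `f = X^n - 1`). -/
theorem exists_teich {y : FF P} (hy : y ≠ 0) : ∃ t : Qb, IsTeich P t ∧ rs P t = y := by
  obtain ⟨n, hn, hyn⟩ := exists_pow_eq_one P hy
  obtain ⟨x, hx, rfl⟩ := exists_unit_rep P hy
  have hn0 : n ≠ 0 := by rintro rfl; exact hn (dvd_zero _)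
  have hmon : (Polynomial.X ^ n - 1 : Polynomial Qb).Monic := by
    have := Polynomial.monic_X_pow_sub_C (1 : Qb) hn0
    simpa using this
  have hcoeff : ∀ i, (Polynomial.X ^ n - 1 : Polynomial Qb).coeff i = 0 ∨
      (Polynomial.X ^ n - 1 : Polynomial Qb).coeff i = 1 ∨
      (Polynomial.X ^ n - 1 : Polynomial Qb).coeff i = -1 := by
    intro i
    rw [Polynomial.coeff_sub, Polynomial.coeff_X_pow, Polynomial.coeff_one]
    by_cases h1 : i = n <;> by_cases h2 : i = 0
    · exact absurd (h1.symm.trans h2) hn0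
    · right; left; simp [h1, hn0]
    · right; right; simp [h2, hn0.symm]
    · left; simp [h1, h2]
  have hxn : P.v (x ^ n) ≤ 1 := by rw [map_pow, hx, one_pow]
  obtain ⟨b, -, hb0, hb1⟩ := hensel P (E := ⊥) bot_le hmon
    (fun i => by
      rw [IntermediateField.mem_fixedField_iff]
      intro s hs
      rw [Subgroup.mem_bot.1 hs]; rfl)
    (fun i => by
      rcases hcoeff i with h | h | h <;> rw [h] <;> simp)
    (a := x)
    (by
      rw [IntermediateField.mem_fixedField_iff]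
      intro s hs
      rw [Subgroup.mem_bot.1 hs]; rfl)
    hx.le
    (by
      simp only [Polynomial.eval_sub, Polynomial.eval_pow, Polynomial.eval_X, Polynomial.eval_one]
      rw [← rs_eq_iff P hxn (by simp), rs_pow P hx.le, hyn, rs_one])
    (by
      simp only [Polynomial.derivative_sub, Polynomial.derivative_X_pow, Polynomial.derivative_one,
        sub_zero, Polynomial.eval_mul, Polynomial.eval_pow, Polynomial.eval_X, Polynomial.eval_C,
        map_mul, map_pow, hx, one_pow, mul_one]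
      exact v_natCast_eq_one P hn)
  have hbn : b ^ n = 1 := by
    simp only [Polynomial.eval_sub, Polynomial.eval_pow, Polynomial.eval_X, Polynomial.eval_one]
      at hb0
    exact sub_eq_zero.1 hb0
  have hvb : P.v b = 1 := hensel_v_eq_one_of_pow_eq_one P hn0 hbn
  exact ⟨b, ⟨n, hn, hbn⟩, (rs_eq_iff P hvb.le hx.le).2 hb1⟩

/-- they are fixed by inertia. -/
theorem IsTeich.map_ine {t : Qb} (ht : IsTeich P t) {s : GQ} (hs : s ∈ P.ine) : s t = t :=
  IsTeich.eq_of_rs_eq P (IsTeich.map P ht s) ht (rs_map_ine P hs (IsTeich.v_eq_one P ht).le)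

theorem IsTeich.mem_fixedField {t : Qb} (ht : IsTeich P t) {Γ : Subgroup GQ} (hΓ : Γ ≤ P.ine) :
    t ∈ fixedField Γ := by
  rw [IntermediateField.mem_fixedField_iff]
  exact fun s hs => IsTeich.map_ine P ht (hΓ hs)

/-- Frobenius raises them to the `q`-th power. -/
theorem IsTeich.map_frob {t : Qb} (ht : IsTeich P t) {q : ℕ} {φ : GQ} (hφ : IsFrob P q φ)
    (hq : 0 < q) : φ t = t ^ q := by
  apply IsTeich.eq_of_rs_eq P (IsTeich.map P ht φ) (IsTeich.pow P ht q)
  rw [rs_map_frob P hφ (IsTeich.v_eq_one P ht).le, rs_pow P (IsTeich.v_eq_one P ht).le]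

/-- they are `ℓ`-th powers of Teichmueller elements. -/
theorem IsTeich.exists_root {t : Qb} (ht : IsTeich P t) : ∃ t' : Qb, IsTeich P t' ∧ t' ^ P.ℓ = t := by
  obtain ⟨n, hn, h⟩ := ht
  have hcop : Nat.Coprime P.ℓ n := (Nat.Prime.coprime_iff_not_dvd P.prime).2 hn
  by_cases hn1 : n = 1
  · subst hn1
    rw [pow_one] at h
    subst h
    exact ⟨1, IsTeich.one P, one_pow _⟩
  have hn0 : n ≠ 0 := by rintro rfl; exact hn (dvd_zero _)
  obtain ⟨m, -, hm⟩ := Nat.exists_mul_mod_eq_one_of_coprime hcop (by omega)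
  refine ⟨t ^ m, IsTeich.pow P ⟨n, hn, h⟩ m, ?_⟩
  rw [← pow_mul, mul_comm m, ← Nat.div_add_mod (P.ℓ * m) n, hm, pow_add, pow_mul, h, one_pow,
    one_mul, pow_one]

/-- a Teichmueller element which is an `ℓ`-power root of unity is `1`. -/
theorem IsTeich.eq_one_of_pow {t : Qb} (ht : IsTeich P t) {m : ℕ} (h : t ^ (P.ℓ ^ m) = 1) : t = 1 := by
  obtain ⟨n, hn, h1⟩ := ht
  have hcop : Nat.Coprime (P.ℓ ^ m) n :=
    Nat.Coprime.pow_left m ((Nat.Prime.coprime_iff_not_dvd P.prime).2 hn)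
  have h2 := pow_gcd_eq_one.2 ⟨h, h1⟩
  rwa [hcop.gcd_eq_one, pow_one] at h2

/-- every integral element is congruent to `0` or to a Teichmueller element. -/
theorem exists_teich_close {x : Qb} (hx : P.v x = 1) : ∃ t : Qb, IsTeich P t ∧ P.v (x - t) < 1 := by
  have hy : rs P x ≠ 0 := by
    intro h
    have := (rs_eq_zero_iff P hx.le).1 h
    rw [hx] at this
    exact lt_irrefl _ this
  obtain ⟨t, ht, h⟩ := exists_teich P hy
  exact ⟨t, ht, (rs_eq_iff P hx.le (IsTeich.v_eq_one P ht).le).1 h.symm⟩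

end Fermat.Agent.S56.F.LF
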