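/-
S56 F-B (B3): the tame characters `theta P a s = s(a)/a mod m`.
-/
import Fermat.Agent.S56.F.LF.Resid

set_option autoImplicit false

open Fermat.Agent.PT.Local IntermediateField

namespace Fermat.Agent.S56.F.LF

variable (P : Plc)

theorem v_map_div {a : Qb} (ha : a ≠ 0) {s : GQ} (hs : s ∈ P.dec) : P.v (s a / a) = 1 := by
  rw [map_div₀, v_map P hs]
  exact div_self ((Valuation.ne_zero_iff _).2 ha)

theorem theta_ne_zero {a : Qb} (ha : a ≠ 0) {s : GQ} (hs : s ∈ P.dec) : theta P a s ≠ 0 := by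
  unfold theta
  have h := v_map_div P ha hs
  rw [Ne, rs_eq_zero_iff P h.le, h]
  exact lt_irrefl _

theorem theta_mul_left {a b : Qb} (ha : a ≠ 0) (hb : b ≠ 0) {s : GQ} (hs : s ∈ P.dec) :
    theta P (a * b) s = theta P a s * theta P b s := by
  unfold theta
  rw [← rs_mul P (v_map_div P ha hs).le (v_map_div P hb hs).le, map_mul]
  congr 1
  field_simp

theorem theta_of_fixed {a : Qb} (ha : a ≠ 0) {s : GQ} (h : s a = a) : theta P a s = 1 := by
  unfold theta
  rw [h, div_self ha, rs_one]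

/-- a unit has trivial `theta` on inertia. -/
theorem theta_unit {u : Qb} (hu : P.v u = 1) {s : GQ} (hs : s ∈ P.ine) : theta P u s = 1 := by
  have hu0 : u ≠ 0 := by
    rintro rfl
    simp at hu
  unfold theta
  have h1 : P.v (s u) = 1 := by rw [v_map P (ine_le_dec P hs), hu]
  have hui : P.v u⁻¹ = 1 := by rw [map_inv₀, hu, inv_one]
  rw [div_eq_mul_inv, rs_mul P h1.le hui.le, rs_map_ine P hs hu.le, rs_inv P hu]
  exact mul_inv_cancel₀ (fun h0 => by
    rw [rs_eq_zero_iff P hu.le, hu] at h0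
    exact lt_irrefl _ h0)

/-- `theta a s` only depends on `v a` (`a' = a u`, `s u ≡ u`). -/
theorem theta_congr {a a' : Qb} (ha : a ≠ 0) (h : P.v a = P.v a') {s : GQ} (hs : s ∈ P.ine) :
    theta P a s = theta P a' s := by
  have hva : P.v a ≠ 0 := (Valuation.ne_zero_iff _).2 ha
  have ha' : a' ≠ 0 := (Valuation.ne_zero_iff _).1 (h ▸ hva)
  have hu : P.v (a' / a) = 1 := by rw [map_div₀, ← h]; exact div_self hva
  have hu0 : a' / a ≠ 0 := div_ne_zero ha' ha
  have e : a' = a * (a' / a) := by field_simp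
  rw [e, theta_mul_left P ha hu0 (ine_le_dec P hs), theta_unit P hu hs, mul_one]

theorem theta_pow_left {a : Qb} (ha : a ≠ 0) {s : GQ} (hs : s ∈ P.dec) (n : ℕ) :
    theta P (a ^ n) s = theta P a s ^ n := by
  induction n with
  | zero => simp [theta_of_fixed P one_ne_zero (map_one s)]
  | succ n ih => rw [pow_succ, theta_mul_left P (pow_ne_zero n ha) ha hs, ih, pow_succ]

theorem theta_inv_left {a : Qb} (ha : a ≠ 0) {s : GQ} (hs : s ∈ P.dec) :
    theta P a⁻¹ s = (theta P a s)⁻¹ := by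
  have h := theta_mul_left P ha (inv_ne_zero ha) hs
  rw [mul_inv_cancel₀ ha, theta_of_fixed P one_ne_zero (map_one s)] at h
  exact eq_inv_of_mul_eq_one_right h.symm

theorem theta_zpow_left {a : Qb} (ha : a ≠ 0) {s : GQ} (hs : s ∈ P.dec) (n : ℤ) :
    theta P (a ^ n) s = theta P a s ^ n := by
  cases n with
  | ofNat n => simpa using theta_pow_left P ha hs n
  | negSucc n =>
    rw [zpow_negSucc, zpow_negSucc, theta_inv_left P (pow_ne_zero _ ha) hs, theta_pow_left P ha hs]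

theorem theta_one_right (a : Qb) (ha : a ≠ 0) : theta P a 1 = 1 := theta_of_fixed P ha rfl

/-- multiplicativity in `s ∈ I`: `st(a)/a = (s(ta)/ta) (ta/a)` and `v(ta) = v(a)`. -/
theorem theta_mul_right {a : Qb} (ha : a ≠ 0) {s t : GQ} (hs : s ∈ P.ine) (ht : t ∈ P.ine) :
    theta P a (s * t) = theta P a s * theta P a t := by
  have hta : t a ≠ 0 := (map_ne_zero t).2 ha
  have hv : P.v a = P.v (t a) := (v_map P (ine_le_dec P ht) a).symm
  rw [theta_congr P ha hv hs]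
  unfold theta
  rw [← rs_mul P (v_map_div P hta (ine_le_dec P hs)).le (v_map_div P ha (ine_le_dec P ht)).le,
    AlgEquiv.mul_apply]
  congr 1
  field_simp

theorem theta_pow_right {a : Qb} (ha : a ≠ 0) {s : GQ} (hs : s ∈ P.ine) (n : ℕ) :
    theta P a (s ^ n) = theta P a s ^ n := by
  induction n with
  | zero => simp [theta_one_right P a ha]
  | succ n ih => rw [pow_succ, theta_mul_right P ha (P.ine.pow_mem hs n) hs, ih, pow_succ]

/-- conjugation by Frobenius. -/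
theorem theta_conj_frob {a : Qb} (ha : a ≠ 0) {q : ℕ} {φ : GQ} (hφ : IsFrob P q φ) {s : GQ}
    (hs : s ∈ P.ine) : theta P a (φ * s * φ⁻¹) = theta P a s ^ q := by
  have hφi : φ⁻¹ ∈ P.dec := P.dec.inv_mem hφ.1
  have ha' : φ⁻¹ a ≠ 0 := (map_ne_zero _).2 ha
  have hv : P.v a = P.v (φ⁻¹ a) := (v_map P hφi a).symm
  rw [theta_congr P ha hv hs]
  unfold theta
  rw [← rs_map_frob P hφ (v_map_div P ha' (ine_le_dec P hs)).le, map_div₀]
  congr 1
  have h1 : φ (φ⁻¹ a) = a := by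
    rw [← AlgEquiv.mul_apply, mul_inv_cancel]; rfl
  rw [h1]
  rfl

/-- conjugation by inertia is trivial. -/
theorem theta_conj_ine {a : Qb} (ha : a ≠ 0) {d s : GQ} (hd : d ∈ P.ine) (hs : s ∈ P.ine) :
    theta P a (d * s * d⁻¹) = theta P a s := by
  have hdi : d⁻¹ ∈ P.ine := P.ine.inv_mem hd
  rw [theta_mul_right P ha (P.ine.mul_mem hd hs) hdi, theta_mul_right P ha hd hs, mul_comm (theta P a d),
    mul_assoc, ← theta_mul_right P ha hd hdi, mul_inv_cancel, theta_one_right P a ha, mul_one]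

/-- if `s a = ξ a` then `theta a s = rs ξ`. -/
theorem theta_eq_rs {a ξ : Qb} (ha : a ≠ 0) {s : GQ} (h : s a = ξ * a) : theta P a s = rs P ξ := by
  unfold theta
  rw [h, mul_div_assoc, div_self ha, mul_one]

/-- `theta (ζ - 1) = ω`: `(ζ^a - 1)/(ζ - 1) = 1 + ζ + .. + ζ^(a-1) ≡ a`. -/
theorem theta_zeta_sub_one {ζ : Qb} (hζ : IsPrimitiveRoot ζ P.ℓ) {s : GQ} {a : ℕ} (h : s ζ = ζ ^ a) :
    theta P (ζ - 1) s = (a : FF P) := by
  have hζ1 : ζ - 1 ≠ 0 := sub_ne_zero.2 (hζ.ne_one P.prime.one_lt)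
  have hvζ : P.v ζ = 1 := hensel_v_eq_one_of_pow_eq_one P P.prime.ne_zero hζ.pow_eq_one
  have hrs : rs P ζ = 1 := by
    have h1 : rs P ζ ^ P.ℓ = 1 := by rw [← rs_pow P hvζ.le, hζ.pow_eq_one, rs_one]
    have h2 : (rs P ζ - 1) ^ P.ℓ = 0 := by
      haveI : Fact P.ℓ.Prime := ⟨P.prime⟩
      rw [sub_pow_char, h1, one_pow, sub_self]
    exact sub_eq_zero.1 (pow_eq_zero_iff P.prime.ne_zero |>.1 h2)
  have e : s (ζ - 1) = (∑ i ∈ Finset.range a, ζ ^ i) * (ζ - 1) := by
    rw [map_sub, map_one, h, geom_sum_mul]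
  rw [theta_eq_rs P hζ1 e, rs_sum P _ _ (fun i _ => by rw [map_pow, hvζ, one_pow])]
  simp [rs_pow P hvζ.le, hrs]

/-- the values of `theta a` on `I` are roots of unity of order dividing `d` as soon as `v(a)^d ∈ v(ℓ)^ℤ`. -/
theorem theta_pow_eq_one {a : Qb} (ha : a ≠ 0) {d : ℕ} {n : ℤ} (h : P.v a ^ d = P.v (P.ℓ : Qb) ^ n)
    {s : GQ} (hs : s ∈ P.ine) : theta P a s ^ d = 1 := by
  have hl : (P.ℓ : Qb) ≠ 0 := Nat.cast_ne_zero.2 P.prime.ne_zero
  have hv : P.v (a ^ d) = P.v ((P.ℓ : Qb) ^ n) := by rw [map_pow, map_zpow₀, h]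
  rw [← theta_pow_left P ha (ine_le_dec P hs), theta_congr P (pow_ne_zero d ha) hv hs]
  exact theta_of_fixed P (zpow_ne_zero n hl) (by rw [map_zpow₀, map_natCast])

end Fermat.Agent.S56.F.LF
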