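/-
S56 F-B (B3, last part): Frobenius elements over `ℚ_ℓ`; `D = ⟨φ⟩ I` modulo open subgroups.
-/
import Fermat.Agent.S56.F.LF.Defs
import Fermat.Agent.PT.Local.Frob

set_option autoImplicit false

open Fermat.Agent.PT.Local IntermediateField

namespace Fermat.Agent.S56.F.LF

variable (P : Plc)

/-- an (arithmetic) Frobenius element over `ℚ_ℓ` (`PT.Local.exists_frob` for `K = ⊥`, `rq = ℓ`). -/
theorem exists_frob_ell : ∃ φ : GQ, IsFrob P P.ℓ φ := by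
  obtain ⟨σ, hσ⟩ := Fermat.Agent.Lib.Frobenius.exists_frobenius_on_integers P.A P.prime P.liesOver
  exact ⟨σ, Frob_isFrob_of_integers P P.prime.ne_zero σ hσ⟩

open NumberField in
/-- the residue field of `ℚ` at `ℓ` has `ℓ` elements. -/
theorem FrobEll_rq_bot : rq P ⊥ = P.ℓ := by
  have h0 : rq P ⊥ = Nat.card (𝓞 (⊥ : Fld) ⧸ plIdeal P ⊥) := by
    rw [rq, Ideal.absNorm_apply, Submodule.cardQuot_apply]
    rfl
  let f : ℤ →+* 𝓞 (⊥ : Fld) ⧸ plIdeal P ⊥ := Int.castRingHom _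
  have hsurj : Function.Surjective f := by
    intro y
    obtain ⟨x, rfl⟩ := Ideal.Quotient.mk_surjective y
    obtain ⟨q, hq⟩ := IntermediateField.mem_bot.1 (x : (⊥ : Fld)).2
    have hint : IsIntegral ℤ q := by
      have h1 : IsIntegral ℤ ((x : (⊥ : Fld)) : Qb) :=
        map_isIntegral_int (algebraMap (⊥ : Fld) Qb) (RingOfIntegers.isIntegral_coe x)
      rw [← hq] at h1
      exact (isIntegral_algebraMap_iff (algebraMap ℚ Qb).injective).1 h1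
    obtain ⟨n, hn⟩ := IsIntegrallyClosed.isIntegral_iff.1 hint
    refine ⟨n, ?_⟩
    have hx : x = (n : 𝓞 (⊥ : Fld)) := by
      apply RingOfIntegers.ext
      apply Subtype.ext
      rw [← hq, ← hn]
      simp
    rw [hx]
    simp [f]
  have hker : RingHom.ker f = Ideal.span {(P.ℓ : ℤ)} := by
    ext n
    rw [RingHom.mem_ker, Ideal.mem_span_singleton]
    have e1 : f n = Ideal.Quotient.mk (plIdeal P ⊥) (n : 𝓞 (⊥ : Fld)) := by
      simp [f]
    rw [e1, Ideal.Quotient.eq_zero_iff_mem, mem_plIdeal]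
    have e2 : ((((n : 𝓞 (⊥ : Fld)) : (⊥ : Fld))) : Qb) = (n : Qb) := by simp
    rw [e2]
    constructor
    · intro h
      exact Fermat.Agent.Lib.Frobenius.int_dvd_of_mem_nonunits P.A P.prime P.liesOver
        ((P.A.mem_nonunits_iff).2 h)
    · rintro ⟨m, rfl⟩
      push_cast
      rw [map_mul]
      have h1 : P.v (m : Qb) ≤ 1 := (P.A.valuation_le_one_iff _).2 (intCast_mem P.A m)
      exact mul_lt_one_of_lt_of_le (v_ell_lt_one P) h1
  have hcard : Nat.card (𝓞 (⊥ : Fld) ⧸ plIdeal P ⊥) = Nat.card (ZMod P.ℓ) := by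
    refine Nat.card_congr ?_
    have e1 := (RingHom.quotientKerEquivOfSurjective hsurj).symm.toEquiv
    have e2 := (Ideal.quotEquivOfEq hker).toEquiv
    have e3 := (Int.quotientSpanNatEquivZMod P.ℓ).toEquiv
    exact e1.trans (e2.trans e3)
  rw [h0, hcard, Nat.card_zmod]

/-- `D = ⟨φ⟩ I` modulo any open subgroup (`PT.Local.frob_gen` for `K = ⊥`). -/
theorem dec_gen {φ : GQ} (hφ : IsFrob P P.ℓ φ) (N : Fld) [FiniteDimensional ℚ N] {σ : GQ}
    (hσ : σ ∈ P.dec) :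
    ∃ j : ℕ, ∃ τ ∈ P.ine, ∃ u ∈ P.dec, (∀ x ∈ N, u x = x) ∧ σ = φ ^ j * τ * u := by
  have hbot : ∀ (s : GQ), ∀ x ∈ (⊥ : Fld), s x = x := by
    intro s x hx
    obtain ⟨q, rfl⟩ := IntermediateField.mem_bot.1 hx
    exact s.commutes q
  have hF : IsFrob P (rq P ⊥) φ := by rw [FrobEll_rq_bot]; exact hφ
  obtain ⟨j, τ, hτ, u, hu, h⟩ := frob_gen P ⊥ ((mem_lg_iff P ⊥ φ).2 ⟨hφ.1, hbot φ⟩) hF N
    ((mem_lg_iff P ⊥ σ).2 ⟨hσ, hbot σ⟩)
  rw [mem_lg_iff] at hu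
  exact ⟨j, τ, ((mem_li_iff P ⊥ τ).1 hτ).1, u, hu.1, fun x hx => hu.2 x ((le_sup_right : N ≤ (⊥ : Fld) ⊔ N) hx), h⟩

end Fermat.Agent.S56.F.LF
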