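/-
S56 F-B (B3, B6 first part): the tame extension `K = Qb^I(lam)`, `lam^e = -ℓ`, `ℓ ∤ e`.  Basic facts.
-/
import Fermat.Agent.S56.F.LF.Theta

set_option autoImplicit false

open Fermat.Agent.PT.Local IntermediateField

namespace Fermat.Agent.S56.F.LF

variable (P : Plc) {e : ℕ} {lam : Qb}

theorem IsLam.pos (h : IsLam P e lam) : 0 < e :=
  Nat.pos_of_ne_zero fun h0 => h.cop (h0 ▸ dvd_zero _)

theorem ell_ne_zero : (P.ℓ : Qb) ≠ 0 := Nat.cast_ne_zero.2 P.prime.ne_zero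

theorem IsLam.ne_zero (h : IsLam P e lam) : lam ≠ 0 := by
  rintro rfl
  have h1 := h.pow
  rw [zero_pow (IsLam.pos P h).ne'] at h1
  exact ell_ne_zero P (neg_eq_zero.1 h1.symm)

theorem IsLam.v_pow (h : IsLam P e lam) : P.v lam ^ e = P.v (P.ℓ : Qb) := by
  rw [← map_pow, h.pow, Valuation.map_neg]

theorem IsLam.v_lt_one (h : IsLam P e lam) : P.v lam < 1 := by
  by_contra hcon
  have h1 : 1 ≤ P.v lam := not_lt.1 hcon
  have h2 : 1 ≤ P.v lam ^ e := one_le_pow₀ h1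
  rw [IsLam.v_pow P h] at h2
  exact absurd (v_ell_lt_one P) (not_lt.2 h2)

theorem IsLam.v_ne_zero (h : IsLam P e lam) : P.v lam ≠ 0 :=
  (Valuation.ne_zero_iff _).2 (IsLam.ne_zero P h)

/-- existence of `lam`. -/
theorem exists_isLam {e : ℕ} (he : ¬ P.ℓ ∣ e) : ∃ lam : Qb, IsLam P e lam := by
  have he0 : 0 < e := Nat.pos_of_ne_zero fun h0 => he (h0 ▸ dvd_zero _)
  obtain ⟨lam, hlam⟩ := IsAlgClosed.exists_pow_nat_eq (-(P.ℓ : Qb)) he0
  exact ⟨lam, he, hlam⟩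

theorem isLam_one : IsLam P 1 (-(P.ℓ : Qb)) :=
  ⟨fun h => P.prime.one_lt.ne' (Nat.dvd_one.mp h), pow_one _⟩

/-- powers: `lam^(e/e')` is an `e'`-th root of `-ℓ`. -/
theorem IsLam.pow_of_mul {e' m : ℕ} (h : IsLam P (e' * m) lam) : IsLam P e' (lam ^ m) := by
  refine ⟨fun hd => h.cop (Dvd.dvd.mul_right hd m), ?_⟩
  rw [← pow_mul, mul_comm m e']
  exact h.pow

/-- every `s ∈ GQ` multiplies `lam` by an `e`-th root of unity. -/
theorem IsLam.exists_map (h : IsLam P e lam) (s : GQ) : ∃ ξ : Qb, ξ ^ e = 1 ∧ s lam = ξ * lam := by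
  have h0 := IsLam.ne_zero P h
  refine ⟨s lam / lam, ?_, by field_simp⟩
  rw [div_pow, ← map_pow, h.pow, map_neg, map_natCast]
  exact div_self (neg_ne_zero.2 (ell_ne_zero P))

/-- roots of unity of order prime to `ℓ` are fixed by inertia. -/
theorem map_ine_of_pow_eq_one {n : ℕ} (hn : ¬ P.ℓ ∣ n) {ξ : Qb} (hξ : ξ ^ n = 1) {s : GQ}
    (hs : s ∈ P.ine) : s ξ = ξ := by
  have hn0 : n ≠ 0 := by rintro rfl; exact hn (dvd_zero _)
  have hv : P.v ξ = 1 := hensel_v_eq_one_of_pow_eq_one P hn0 hξ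
  apply eq_of_v_sub_lt_one P hn (by rw [← map_pow, hξ, map_one]) hξ
  exact ((mem_ine_iff P s).mp hs).2 ξ ((mem_A_iff P ξ).2 hv.le)

/-- `Γ₀` is normal in `D`. -/
theorem IsLam.G0_normal (h : IsLam P e lam) {d s : GQ} (hd : d ∈ P.dec) (hs : s ∈ G0 P lam) :
    d * s * d⁻¹ ∈ G0 P lam := by
  refine ⟨ine_normal P hd hs.1, ?_⟩
  obtain ⟨ξ, hξ, hξl⟩ := IsLam.exists_map P h d⁻¹
  have h1 : s ξ = ξ := map_ine_of_pow_eq_one P h.cop hξ hs.1
  rw [AlgEquiv.mul_apply, AlgEquiv.mul_apply, hξl, map_mul, h1, hs.2, ← hξl]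
  exact d.apply_symm_apply lam

/-- so `D` preserves `K`. -/
theorem IsLam.map_mem_KK (h : IsLam P e lam) {d : GQ} (hd : d ∈ P.dec) {x : Qb} (hx : x ∈ KK P lam) :
    d x ∈ KK P lam := by
  rw [IntermediateField.mem_fixedField_iff] at hx ⊢
  intro s hs
  have h1 : d⁻¹ * s * d⁻¹⁻¹ ∈ G0 P lam := IsLam.G0_normal P h (P.dec.inv_mem hd) hs
  have h2 := hx _ h1
  rw [inv_inv, AlgEquiv.mul_apply, AlgEquiv.mul_apply] at h2
  have h3 := congrArg d h2
  rw [show d (d⁻¹ (s (d x))) = s (d x) from d.apply_symm_apply _] at h3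
  exact h3

theorem lam_mem_KK : lam ∈ KK P lam := by
  rw [IntermediateField.mem_fixedField_iff]
  exact fun s hs => hs.2

theorem fixedField_ine_le_KK : fixedField P.ine ≤ KK P lam := by
  intro x hx
  rw [IntermediateField.mem_fixedField_iff] at hx ⊢
  exact fun s hs => hx s hs.1

/-- for `s ∈ I`: `theta lam s = 1 ↔ s ∈ Γ₀`. -/
theorem IsLam.theta_eq_one_iff (h : IsLam P e lam) {s : GQ} (hs : s ∈ P.ine) :
    theta P lam s = 1 ↔ s lam = lam := by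
  have h0 := IsLam.ne_zero P h
  constructor
  · intro h1
    obtain ⟨ξ, hξ, hξl⟩ := IsLam.exists_map P h s
    rw [theta_eq_rs P h0 hξl, ← rs_one P] at h1
    have hv : P.v ξ = 1 := hensel_v_eq_one_of_pow_eq_one P (IsLam.pos P h).ne' hξ
    have h2 := (rs_eq_iff P hv.le (by simp)).1 h1
    have h3 : ξ = 1 := eq_of_v_sub_lt_one P h.cop hξ (one_pow e) h2
    rw [hξl, h3, one_mul]
  · intro h1
    exact theta_of_fixed P h0 h1

/-- for `lam ∈ ℚ` (`e = 1`): `Γ₀ = I`. -/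
theorem G0_neg_ell : G0 P (-(P.ℓ : Qb)) = P.ine := by
  ext s
  rw [mem_stab]
  constructor
  · exact fun h => h.1
  · intro h
    exact ⟨h, by rw [map_neg, map_natCast]⟩

end Fermat.Agent.S56.F.LF
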