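/-
S56 F-B (B1), (B2): the value group of `Qb^I` is `v(ℓ)^ℤ`.
-/
import Fermat.Agent.S56.F.LF.Defs
import Fermat.Agent.PT.Hens.RestrictIne
import Fermat.Agent.PT.Local.HensGlue
import Fermat.Agent.PT.Local.VOrd
import Fermat.Agent.PT.Local.Norm
import Fermat.Agent.S36R.K0.BlockL

set_option autoImplicit false

open Fermat.Agent.PT.Local IntermediateField

namespace Fermat.Agent.S56.F.LF

variable (P : Plc)

/-- **(B1)**  `K = ℚ(x)` is unramified at `P` over `ℚ` because `I` fixes `x`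
(`PT.unram_plOf_iff : Unram N (plOf N' 𝒜 h) ↔ Vof N ⊓ Ine 𝒜 ≤ Vof N'` with `N = ℚ`), so `ord_P(ℓ) = 1`
and `v x = v ℓ ^ ord x` (`PT.Local.v_eq_zpow_ord`); compare `PT/R/Unram.lean`
(`exists_valuation_eq_zpow_of_unram`). -/
theorem v_of_fixed_ine {x : Qb} (hx : x ∈ fixedField P.ine) (hx0 : x ≠ 0) :
    ∃ n : ℤ, P.v x = P.v (P.ℓ : Qb) ^ n :=
  Fermat.Agent.S36R.K0L.exists_zpow P hx hx0

/-- **(B2)**  product over the cosets `I / Γ'` (`PT.Local.relNorm`), `v_map`, (B1). -/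
theorem v_pow_of_fixed {Γ' : Subgroup GQ} (hΓ : Γ' ≤ P.ine) (hd : Γ'.relIndex P.ine ≠ 0) {x : Qb}
    (hx : x ∈ fixedField Γ') (hx0 : x ≠ 0) :
    ∃ n : ℤ, P.v x ^ (Γ'.relIndex P.ine) = P.v (P.ℓ : Qb) ^ n := by
  have hle : P.ine ≤ P.dec := fun σ hσ => ((mem_ine_iff P σ).1 hσ).1
  obtain ⟨n, hn⟩ := v_of_fixed_ine P (relNorm_mem hΓ hd hx) (relNorm_ne_zero hx0)
  exact ⟨n, by rw [← hn, v_relNorm P hle hd]⟩

/-- the value group is torsion free. -/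
theorem v_eq_of_pow_eq {x y : Qb} {n : ℕ} (hn : n ≠ 0) (h : P.v x ^ n = P.v y ^ n) : P.v x = P.v y :=
  (pow_left_inj₀ zero_le zero_le hn).mp h

end Fermat.Agent.S56.F.LF
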