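/-
S56 F-B (B3): `X^e + ℓ` is irreducible over `Qb^I`; `I / Γ₀` is cyclic of order `e`.
-/
import Fermat.Agent.S56.F.LF.LamBasic
import Fermat.Agent.S56.F.LF.Unram
import Fermat.Agent.S36.StepA.InertiaTrans

set_option autoImplicit false

open Fermat.Agent.PT.Local IntermediateField

namespace Fermat.Agent.S56.F.LF

variable (P : Plc) {e : ℕ} {lam : Qb}

/-- **`X^e + ℓ` is irreducible over `Qb^I`**: the `I`-orbit of `lam` consists of all `ξ lam`, `ξ^e = 1`.
Proof: `d = [I : Γ₀] ≤ e` (orbit inside `{ξ lam}`); the product of the orbit is fixed by `I` and has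
valuation `v(lam)^d ∈ v(ℓ)^ℤ = v(lam)^(eℤ)` by (B1), so `e ∣ d`. -/
theorem IsLam.exists_ine (h : IsLam P e lam) {ξ : Qb} (hξ : ξ ^ e = 1) :
    ∃ s ∈ P.ine, s lam = ξ * lam := by
  classical
  have hv : P.A.valuation lam ^ e = P.A.valuation ((P.ℓ : ℕ) : Qb) := by
    rw [← map_pow, h.pow, Valuation.map_neg]
  refine S36.StepA.InertiaTrans_orbit_eq P.A P.prime P.liesOver (h.pos P) hv
    (Polynomial.nthRoots e (-(P.ℓ : Qb))).toFinset
    ((Multiset.toFinset_card_le _).trans (Polynomial.card_nthRoots e _)) ?_ ?_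
  · intro τ _
    rw [Multiset.mem_toFinset, Polynomial.mem_nthRoots (h.pos P), ← map_pow, h.pow, map_neg,
      map_natCast]
  · rw [Multiset.mem_toFinset, Polynomial.mem_nthRoots (h.pos P), mul_pow, hξ, one_mul, h.pow]

theorem IsLam.relIndex_G0 (h : IsLam P e lam) : (G0 P lam).relIndex P.ine = e := by
  classical
  have hlam0 : lam ≠ 0 := by
    intro h0
    have h1 := h.pow
    rw [h0, zero_pow (h.pos P).ne'] at h1
    have h2 : (P.ℓ : Qb) = 0 := by rw [← neg_eq_zero, ← h1]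
    exact P.prime.ne_zero (by exact_mod_cast h2)
  have hstab : (G0 P lam).subgroupOf P.ine = MulAction.stabilizer (↥P.ine) lam := by
    ext ⟨s, hs⟩
    rw [Subgroup.mem_subgroupOf, MulAction.mem_stabilizer_iff]
    exact ⟨fun h => h.2, fun h => ⟨hs, h⟩⟩
  rw [Subgroup.relIndex, hstab, MulAction.index_stabilizer]
  obtain ⟨ξ, hξ⟩ := Unram_exists_prim (h.pos P)
  have horb : MulAction.orbit (↥P.ine) lam
      = ((Polynomial.nthRoots e (-(P.ℓ : Qb))).toFinset : Set Qb) := by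
    ext y
    rw [Finset.mem_coe, Multiset.mem_toFinset, Polynomial.mem_nthRoots (h.pos P),
      MulAction.mem_orbit_iff]
    constructor
    · rintro ⟨⟨s, hs⟩, rfl⟩
      change (s lam) ^ e = _
      rw [← map_pow, h.pow, map_neg, map_natCast]
    · intro hy
      have h1 : (y / lam) ^ e = 1 := by
        rw [div_pow, hy, h.pow, div_self]
        rw [← h.pow]
        exact pow_ne_zero _ hlam0
      obtain ⟨s, hs, hs'⟩ := h.exists_ine P h1
      refine ⟨⟨s, hs⟩, ?_⟩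
      change s lam = y
      rw [hs', div_mul_cancel₀ _ hlam0]
  have hne : -(P.ℓ : Qb) ≠ 0 := by
    rw [← h.pow]
    exact pow_ne_zero _ hlam0
  rw [horb, Set.ncard_coe_finset, Multiset.toFinset_card_of_nodup (hξ.nthRoots_nodup hne),
    hξ.card_nthRoots, if_pos ⟨lam, h.pow⟩]

/-- a generator of `I / Γ₀`. -/
theorem IsLam.exists_gen (h : IsLam P e lam) :
    ∃ s₀ ∈ P.ine, ∃ ξ : Qb, IsPrimitiveRoot ξ e ∧ s₀ lam = ξ * lam ∧
      ∀ s ∈ P.ine, ∃ i : ℕ, i < e ∧ (s₀ ^ i)⁻¹ * s ∈ G0 P lam := by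
  classical
  have : NeZero e := ⟨(h.pos P).ne'⟩
  obtain ⟨ξ, hξ⟩ := Unram_exists_prim (h.pos P)
  obtain ⟨s₀, hs₀, hs₀'⟩ := h.exists_ine P hξ.pow_eq_one
  have hfix : s₀ ξ = ξ :=
    (S36R.K0L.mem_K0_iff P ξ).1 (S36R.K0L.root_mem_K0 P h.cop hξ.pow_eq_one) s₀ hs₀
  have hpow : ∀ i : ℕ, (s₀ ^ i) lam = ξ ^ i * lam := by
    intro i
    induction i with
    | zero => simp
    | succ i ih =>
      rw [pow_succ', AlgEquiv.mul_apply, ih, map_mul, map_pow, hfix, hs₀']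
      ring
  refine ⟨s₀, hs₀, ξ, hξ, hs₀', ?_⟩
  intro s hs
  have hmap : ∃ η : Qb, η ^ e = 1 ∧ s lam = η * lam := by
    have hlam0 : lam ≠ 0 := by
      intro h0
      have h1 := h.pow
      rw [h0, zero_pow (h.pos P).ne'] at h1
      have h2 : (P.ℓ : Qb) = 0 := by rw [← neg_eq_zero, ← h1]
      exact P.prime.ne_zero (by exact_mod_cast h2)
    refine ⟨s lam / lam, ?_, (div_mul_cancel₀ _ hlam0).symm⟩
    rw [div_pow, ← map_pow, h.pow, map_neg, map_natCast, div_self]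
    rw [← h.pow]
    exact pow_ne_zero _ hlam0
  obtain ⟨η, hη, hsη⟩ := hmap
  obtain ⟨i, hi, rfl⟩ := hξ.eq_pow_of_pow_eq_one hη
  refine ⟨i, hi, mul_mem (inv_mem (pow_mem hs₀ i)) hs, ?_⟩
  rw [AlgEquiv.mul_apply, hsη, ← hpow i, ← AlgEquiv.mul_apply, inv_mul_cancel]
  rfl

end Fermat.Agent.S56.F.LF
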