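/-
S56 F-B (B6 first part): value group, leading terms and integral basis of `K = Qb^I(lam)`.
-/
import Fermat.Agent.S56.F.LF.LamOrbit
import Fermat.Agent.S56.F.LF.Resid

set_option autoImplicit false

open Fermat.Agent.PT.Local IntermediateField

namespace Fermat.Agent.S56.F.LF

variable (P : Plc) {e : ℕ} {lam : Qb}

/-- the value group of `K` is `v(lam)^ℤ`  ((B2) + torsion freeness). -/
theorem IsLam.v_KK (h : IsLam P e lam) {x : Qb} (hx : x ∈ KK P lam) (hx0 : x ≠ 0) :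
    ∃ n : ℤ, P.v x = P.v lam ^ n := by
  have he : (G0 P lam).relIndex P.ine = e := IsLam.relIndex_G0 P h
  have he0 : e ≠ 0 := (IsLam.pos P h).ne'
  obtain ⟨n, hn⟩ := v_pow_of_fixed P (stab_le P.ine lam) (by rw [he]; exact he0) hx hx0
  rw [he] at hn
  refine ⟨n, ?_⟩
  rw [← map_zpow₀]
  apply v_eq_of_pow_eq P he0
  rw [hn, map_zpow₀, ← IsLam.v_pow P h, ← zpow_natCast, ← zpow_natCast, ← zpow_mul, ← zpow_mul,
    mul_comm]

/-- leading terms in `K`. -/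
theorem IsLam.lead (h : IsLam P e lam) {x : Qb} (hx : x ∈ KK P lam) (hx0 : x ≠ 0) :
    ∃ (n : ℤ) (t : Qb), IsTeich P t ∧ P.v x = P.v lam ^ n ∧ P.v (x - t * lam ^ n) < P.v lam ^ n := by
  obtain ⟨n, hn⟩ := IsLam.v_KK P h hx hx0
  have hl0 : lam ^ n ≠ 0 := zpow_ne_zero _ (IsLam.ne_zero P h)
  have hvl0 : P.v lam ^ n ≠ 0 := zpow_ne_zero _ (IsLam.v_ne_zero P h)
  have hu : P.v (x / lam ^ n) = 1 := by
    rw [map_div₀, map_zpow₀, hn, div_self hvl0]
  obtain ⟨t, ht, hlt⟩ := exists_teich_close P hu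
  refine ⟨n, t, ht, hn, ?_⟩
  have h1 : x - t * lam ^ n = (x / lam ^ n - t) * lam ^ n := by
    field_simp
  rw [h1, map_mul, map_zpow₀]
  calc P.v (x / lam ^ n - t) * P.v lam ^ n < 1 * P.v lam ^ n :=
        mul_lt_mul_of_pos_right hlt (zero_lt_iff.2 hvl0)
    _ = _ := one_mul _

private theorem LamVal_sum_shift {M : Type*} [AddCommGroup M] (f : ℕ → M) (n : ℕ) (hf : f n = f 0) :
    ∑ t ∈ Finset.range n, f (t + 1) = ∑ t ∈ Finset.range n, f t := by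
  have h1 := Finset.sum_range_succ' f n
  have h2 := Finset.sum_range_succ f n
  rw [h1, hf] at h2
  exact add_right_cancel h2

private theorem LamVal_geom {ζ : Qb} {n : ℕ} (h1 : ζ ^ n = 1) (h2 : ζ ≠ 1) :
    ∑ i ∈ Finset.range n, ζ ^ i = 0 := by
  have h3 := geom_sum_mul ζ n
  rw [h1, sub_self] at h3
  exact (mul_eq_zero.1 h3).resolve_right (sub_ne_zero.2 h2)

private theorem LamVal_pow_apply {s : GQ} {c : Qb} (h : s c = c) (i : ℕ) : (s ^ i) c = c := by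
  induction i with
  | zero => simp
  | succ i ih => rw [pow_succ, AlgEquiv.mul_apply, h, ih]

/-- `O_K = ⊕_{i<e} O_{Qb^I} lam^i`, with `v(x) = max v(c_i lam^i)`
(`c_i lam^i = (1/e) ∑_t ξ^(-it) s₀^t x`). -/
theorem IsLam.expand (h : IsLam P e lam) {x : Qb} (hx : x ∈ KK P lam) :
    ∃ c : ℕ → Qb, (∀ i, c i ∈ fixedField P.ine) ∧ x = ∑ i ∈ Finset.range e, c i * lam ^ i ∧
      ∀ i < e, P.v (c i * lam ^ i) ≤ P.v x := by
  obtain ⟨s₀, hs₀, ξ, hξ, hs₀l, hgen⟩ := IsLam.exists_gen P h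
  have he0 : 0 < e := IsLam.pos P h
  have hl0 : lam ≠ 0 := IsLam.ne_zero P h
  have heQ : (e : Qb) ≠ 0 := Nat.cast_ne_zero.2 he0.ne'
  have hξe : ξ ^ e = 1 := hξ.pow_eq_one
  have hξ0 : ξ ≠ 0 := hξ.ne_zero he0.ne'
  have hη : (ξ⁻¹) ^ e = 1 := by rw [inv_pow, hξe, inv_one]
  have hs₀d : s₀ ∈ P.dec := ine_le_dec P hs₀
  have hfixξ : ∀ s ∈ P.ine, s ξ = ξ := fun s hs => map_ine_of_pow_eq_one P h.cop hξe hs
  have hfixη : ∀ s ∈ P.ine, s ξ⁻¹ = ξ⁻¹ := fun s hs => by rw [map_inv₀, hfixξ s hs]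
  -- `s₀ ^ e` fixes `x`
  have hpowl : ∀ t : ℕ, (s₀ ^ t) lam = ξ ^ t * lam := by
    intro t
    induction t with
    | zero => simp
    | succ t ih =>
      rw [pow_succ', AlgEquiv.mul_apply, ih, map_mul, map_pow, hfixξ s₀ hs₀, hs₀l, pow_succ]
      ring
  have hse : (s₀ ^ e) x = x := by
    have h1 : s₀ ^ e ∈ G0 P lam :=
      ⟨P.ine.pow_mem hs₀ e, by rw [hpowl, hξe, one_mul]⟩
    exact (IntermediateField.mem_fixedField_iff _ _).1 hx _ h1
  -- the components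
  let y : ℕ → Qb := fun i => (e : Qb)⁻¹ * ∑ t ∈ Finset.range e, (ξ⁻¹) ^ (i * t) * (s₀ ^ t) x
  have hys₀ : ∀ i, s₀ (y i) = ξ ^ i * y i := by
    intro i
    show s₀ ((e : Qb)⁻¹ * ∑ t ∈ Finset.range e, (ξ⁻¹) ^ (i * t) * (s₀ ^ t) x) = _
    rw [map_mul, map_inv₀, map_natCast, map_sum]
    have h1 : ∀ t ∈ Finset.range e, s₀ ((ξ⁻¹) ^ (i * t) * (s₀ ^ t) x)
        = ξ ^ i * ((ξ⁻¹) ^ (i * (t + 1)) * (s₀ ^ (t + 1)) x) := by
      intro t _
      rw [map_mul, map_pow, hfixη s₀ hs₀, pow_succ' s₀ t, AlgEquiv.mul_apply, ← mul_assoc]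
      congr 1
      rw [mul_add, mul_one, pow_add, inv_pow ξ i]
      field_simp
    rw [Finset.sum_congr rfl h1, ← Finset.mul_sum,
      LamVal_sum_shift (fun t => (ξ⁻¹) ^ (i * t) * (s₀ ^ t) x) e (by
        show (ξ⁻¹) ^ (i * e) * (s₀ ^ e) x = (ξ⁻¹) ^ (i * 0) * (s₀ ^ 0) x
        rw [hse, mul_comm i e, pow_mul, hη, one_pow, mul_zero, pow_zero, pow_zero]
        rfl)]
    ring
  have hyg : ∀ i, ∀ g ∈ G0 P lam, g (y i) = y i := by
    intro i g hg
    show g ((e : Qb)⁻¹ * ∑ t ∈ Finset.range e, (ξ⁻¹) ^ (i * t) * (s₀ ^ t) x) = _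
    rw [map_mul, map_inv₀, map_natCast, map_sum]
    congr 1
    refine Finset.sum_congr rfl fun t _ => ?_
    rw [map_mul, map_pow, hfixη g hg.1]
    congr 1
    exact (IntermediateField.mem_fixedField_iff _ _).1
      (IsLam.map_mem_KK P h (P.dec.pow_mem hs₀d t) hx) g hg
  refine ⟨fun i => y i / lam ^ i, fun i => ?_, ?_, fun i _ => ?_⟩
  · rw [IntermediateField.mem_fixedField_iff]
    intro s hs
    obtain ⟨j, -, hj⟩ := hgen s hs
    have h1 : s₀ (y i / lam ^ i) = y i / lam ^ i := by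
      rw [map_div₀, map_pow, hys₀, hs₀l, mul_pow]
      have : ξ ^ i ≠ 0 := pow_ne_zero _ hξ0
      have : lam ^ i ≠ 0 := pow_ne_zero _ hl0
      field_simp
    have h2 : ((s₀ ^ j)⁻¹ * s) (y i / lam ^ i) = y i / lam ^ i := by
      rw [map_div₀, map_pow, hyg i _ hj, hj.2]
    have h3 : s = s₀ ^ j * ((s₀ ^ j)⁻¹ * s) := by group
    rw [h3, AlgEquiv.mul_apply, h2, LamVal_pow_apply h1]
  · have h1 : ∀ i ∈ Finset.range e, y i / lam ^ i * lam ^ i = y i := by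
      intro i _
      exact div_mul_cancel₀ _ (pow_ne_zero _ hl0)
    rw [Finset.sum_congr rfl h1]
    show x = ∑ i ∈ Finset.range e, (e : Qb)⁻¹ * ∑ t ∈ Finset.range e, (ξ⁻¹) ^ (i * t) * (s₀ ^ t) x
    rw [← Finset.mul_sum, Finset.sum_comm]
    have h2 : ∀ t ∈ Finset.range e, ∑ i ∈ Finset.range e, (ξ⁻¹) ^ (i * t) * (s₀ ^ t) x
        = if t = 0 then (e : Qb) * x else 0 := by
      intro t ht
      rw [← Finset.sum_mul]
      split_ifs with h0
      · subst h0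
        simp
      · have h3 : ∑ i ∈ Finset.range e, (ξ⁻¹) ^ (i * t) = 0 := by
          have h4 : ∀ i ∈ Finset.range e, (ξ⁻¹) ^ (i * t) = ((ξ⁻¹) ^ t) ^ i := by
            intro i _
            rw [← pow_mul, mul_comm]
          rw [Finset.sum_congr rfl h4]
          apply LamVal_geom
          · rw [← pow_mul, mul_comm, pow_mul, hη, one_pow]
          · rw [inv_pow]
            intro h5
            exact hξ.pow_ne_one_of_pos_of_lt h0 (Finset.mem_range.1 ht) (inv_eq_one.1 h5)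
        rw [h3, zero_mul]
    rw [Finset.sum_congr rfl h2, Finset.sum_ite_eq' (Finset.range e) 0,
      if_pos (Finset.mem_range.2 he0), ← mul_assoc, inv_mul_cancel₀ heQ, one_mul]
  · show P.v (y i / lam ^ i * lam ^ i) ≤ P.v x
    rw [div_mul_cancel₀ _ (pow_ne_zero _ hl0)]
    show P.v ((e : Qb)⁻¹ * ∑ t ∈ Finset.range e, (ξ⁻¹) ^ (i * t) * (s₀ ^ t) x) ≤ P.v x
    rw [map_mul, map_inv₀, v_natCast_eq_one P h.cop, inv_one, one_mul]
    apply Valuation.map_sum_le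
    intro t _
    rw [map_mul, map_pow, map_inv₀, hensel_v_eq_one_of_pow_eq_one P he0.ne' hξe, inv_one, one_pow,
      one_mul, v_map P (P.dec.pow_mem hs₀d t)]

end Fermat.Agent.S56.F.LF
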