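/-
S56 F-B (B3): `ζ ∈ K` when `(ℓ-1) ∣ e`; `theta lam ^ (e/(ℓ-1)) = ω`; a Frobenius fixing `lam`.
-/
import Fermat.Agent.S56.F.LF.LamOrbit
import Fermat.Agent.S56.F.LF.FrobEll

set_option autoImplicit false

open Fermat.Agent.PT.Local IntermediateField

namespace Fermat.Agent.S56.F.LF

variable (P : Plc) {e : ℕ} {lam : Qb}

/-- `v(ζ - 1)^(ℓ-1) = v(ℓ)`, so `v(ζ-1) = v(lam)^(e/(ℓ-1))`. -/
theorem IsLam.v_zeta_sub_one {m : ℕ} (h : IsLam P ((P.ℓ - 1) * m) lam) {ζ : Qb}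
    (hζ : IsPrimitiveRoot ζ P.ℓ) : P.v (ζ - 1) = P.v lam ^ m := by
  have h1 : P.v lam ^ ((P.ℓ - 1) * m) = P.v (P.ℓ : Qb) := IsLam.v_pow P h
  have h2 : P.v (P.ℓ : Qb) = P.v (1 - ζ) ^ (P.ℓ - 1) := v_p_eq P P.prime hζ
  have h3 : P.v (1 - ζ) = P.v (ζ - 1) := Valuation.map_sub_swap _ _ _
  have h4 : P.v (ζ - 1) ^ (P.ℓ - 1) = (P.v lam ^ m) ^ (P.ℓ - 1) := by
    rw [← h3, ← h2, ← h1, ← pow_mul, mul_comm]
  have hl : P.ℓ - 1 ≠ 0 := by have := P.prime.two_le; omega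
  exact (pow_left_inj₀ zero_le zero_le hl).1 h4

/-- `ζ ∈ K` if `(ℓ - 1) ∣ e`: for `s ∈ Γ₀`, `ω(s) = theta (ζ-1) s = theta (lam^m) s = 1`. -/
theorem IsLam.zeta_mem {m : ℕ} (h : IsLam P ((P.ℓ - 1) * m) lam) {ζ : Qb}
    (hζ : IsPrimitiveRoot ζ P.ℓ) : ζ ∈ KK P lam := by
  rw [IntermediateField.mem_fixedField_iff]
  intro s hs
  have : NeZero P.ℓ := ⟨P.prime.ne_zero⟩
  have hlam0 : lam ≠ 0 := IsLam.ne_zero P h
  have hζ1 : ζ - 1 ≠ 0 := sub_ne_zero.2 (hζ.ne_one P.prime.one_lt)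
  obtain ⟨a, -, ha⟩ := hζ.eq_pow_of_pow_eq_one (ξ := s ζ) (by rw [← map_pow, hζ.pow_eq_one, map_one])
  have e1 : theta P (ζ - 1) s = (a : FF P) := theta_zeta_sub_one P hζ ha.symm
  have e2 : theta P (ζ - 1) s = theta P (lam ^ m) s :=
    theta_congr P hζ1 (by rw [h.v_zeta_sub_one P hζ, map_pow]) hs.1
  have e3 : theta P (lam ^ m) s = 1 := theta_of_fixed P (pow_ne_zero _ hlam0) (by rw [map_pow, hs.2])
  have e4 : ((a : ℕ) : FF P) = ((1 : ℕ) : FF P) := by rw [← e1, e2, e3, Nat.cast_one]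
  rw [CharP.natCast_eq_natCast (FF P) P.ℓ] at e4
  rw [← ha]
  conv_rhs => rw [← pow_one ζ]
  rw [← pow_mod_orderOf ζ a, ← pow_mod_orderOf ζ 1, ← hζ.eq_orderOf]
  exact congrArg (fun n => ζ ^ n) e4

/-- `theta lam ^ (e/(ℓ-1)) = ω`. -/
theorem IsLam.theta_pow_eq {m : ℕ} (h : IsLam P ((P.ℓ - 1) * m) lam) {ζ : Qb}
    (hζ : IsPrimitiveRoot ζ P.ℓ) {s : GQ} (hs : s ∈ P.ine) {a : ℕ} (ha : s ζ = ζ ^ a) :
    theta P lam s ^ m = (a : FF P) := by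
  have hlam0 : lam ≠ 0 := IsLam.ne_zero P h
  have hζ1 : ζ - 1 ≠ 0 := sub_ne_zero.2 (hζ.ne_one P.prime.one_lt)
  rw [← theta_pow_left P hlam0 (ine_le_dec P hs), ← theta_zeta_sub_one P hζ ha]
  exact (theta_congr P hζ1 (by rw [h.v_zeta_sub_one P hζ, map_pow]) hs).symm

/-- a Frobenius element fixing `lam` (correct any Frobenius by an element of `I`, `IsLam.exists_ine`). -/
theorem IsLam.exists_frob (h : IsLam P e lam) : ∃ φ : GQ, IsFrob P P.ℓ φ ∧ φ lam = lam := by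
  obtain ⟨φ, hφ⟩ := exists_frob_ell P
  obtain ⟨ξ, hξ, hφl⟩ := h.exists_map P φ
  have hξ0 : ξ ≠ 0 := by
    rintro rfl
    rw [zero_pow (h.pos P).ne'] at hξ
    exact zero_ne_one hξ
  obtain ⟨τ, hτ, hτl⟩ := h.exists_ine P (ξ := ξ⁻¹) (by rw [inv_pow, hξ, inv_one])
  refine ⟨τ * φ, ⟨mul_mem (ine_le_dec P hτ) hφ.1, fun x hx => ?_⟩, ?_⟩
  · have h1 : φ x ∈ P.A := ((mem_dec_iff P φ).1 hφ.1 x).2 hx
    have h2 := ((mem_ine_iff P τ).1 hτ).2 (φ x) h1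
    have h3 := hφ.2 x hx
    have h4 : (τ * φ) x - x ^ P.ℓ = (τ (φ x) - φ x) + (φ x - x ^ P.ℓ) := by
      rw [AlgEquiv.mul_apply]; ring
    rw [h4]
    exact Valuation.map_add_lt _ h2 h3
  · rw [AlgEquiv.mul_apply, hφl, map_mul, map_ine_of_pow_eq_one P h.cop hξ hτ, hτl,
      mul_inv_cancel_left₀ hξ0]

end Fermat.Agent.S56.F.LF
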