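-- S56 F-B: aggregator for the tame extension `K = Qb^I(lam)` (helper55's API, ns `Fermat.Agent.S56.F.LF`).
import Fermat.Agent.S56.F.LF.LamBasic
import Fermat.Agent.S56.F.LF.LamOrbit
import Fermat.Agent.S56.F.LF.LamVal
import Fermat.Agent.S56.F.LF.LamZeta
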