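/-
S56 F-B (B7, tools): Kummer expansion in `L = K(β)`.  `K = KK P lam ∋ ζ`, `β^ℓ ∈ K^×`, `L = Qb^{Stab_{Γ₀} β}`.
-/
import Fermat.Agent.S56.F.LF.LamAll

set_option autoImplicit false

open Fermat.Agent.PT.Local IntermediateField

namespace Fermat.Agent.S56.F.LF

variable (P : Plc) {e : ℕ} {lam : Qb}

private theorem DepthExp_sum_shift {M : Type*} [AddCommGroup M] (f : ℕ → M) (n : ℕ)
    (hf : f n = f 0) : ∑ t ∈ Finset.range n, f (t + 1) = ∑ t ∈ Finset.range n, f t := by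
  have h1 := Finset.sum_range_succ' f n
  have h2 := Finset.sum_range_succ f n
  rw [h1, hf] at h2
  exact add_right_cancel h2

private theorem DepthExp_geom {ζ : Qb} {n : ℕ} (h1 : ζ ^ n = 1) (h2 : ζ ≠ 1) :
    ∑ i ∈ Finset.range n, ζ ^ i = 0 := by
  have h3 := geom_sum_mul ζ n
  rw [h1, sub_self] at h3
  exact (mul_eq_zero.1 h3).resolve_right (sub_ne_zero.2 h2)

private theorem DepthExp_pow_apply {s : GQ} {c : Qb} (h : s c = c) (i : ℕ) : (s ^ i) c = c := by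
  induction i with
  | zero => simp
  | succ i ih => rw [pow_succ, AlgEquiv.mul_apply, h, ih]

/-- discrete Fourier transform over `⟨s₀⟩`. -/
theorem DepthExp_fourier {Γ : Subgroup GQ} {n : ℕ} (hn : 0 < n) {ξ b : Qb}
    (hξ : IsPrimitiveRoot ξ n) (hb0 : b ≠ 0) (hfixξ : ∀ s ∈ Γ, s ξ = ξ) {s₀ : GQ} (hs₀ : s₀ ∈ Γ)
    (hs₀b : s₀ b = ξ * b) (hgen : ∀ s ∈ Γ, ∃ j : ℕ, (s₀ ^ j)⁻¹ * s ∈ stab Γ b) {x : Qb}
    (hx : x ∈ fixedField (stab Γ b)) :
    ∃ c : ℕ → Qb, (∀ i, c i ∈ fixedField Γ) ∧ x = ∑ i ∈ Finset.range n, c i * b ^ i := by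
  have heQ : (n : Qb) ≠ 0 := Nat.cast_ne_zero.2 hn.ne'
  have hξe : ξ ^ n = 1 := hξ.pow_eq_one
  have hξ0 : ξ ≠ 0 := hξ.ne_zero hn.ne'
  have hη : (ξ⁻¹) ^ n = 1 := by rw [inv_pow, hξe, inv_one]
  have hfixη : ∀ s ∈ Γ, s ξ⁻¹ = ξ⁻¹ := fun s hs => by rw [map_inv₀, hfixξ s hs]
  have hpowl : ∀ t : ℕ, (s₀ ^ t) b = ξ ^ t * b := by
    intro t
    induction t with
    | zero => simp
    | succ t ih =>
      rw [pow_succ', AlgEquiv.mul_apply, ih, map_mul, map_pow, hfixξ s₀ hs₀, hs₀b, pow_succ]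
      ring
  have hse : (s₀ ^ n) x = x := by
    have h1 : s₀ ^ n ∈ stab Γ b := ⟨Γ.pow_mem hs₀ n, by rw [hpowl, hξe, one_mul]⟩
    exact (IntermediateField.mem_fixedField_iff _ _).1 hx _ h1
  -- normality
  have hnorm : ∀ g ∈ stab Γ b, ∀ t : ℕ, g ((s₀ ^ t) x) = (s₀ ^ t) x := by
    intro g hg t
    have h1 : (s₀ ^ t)⁻¹ * g * s₀ ^ t ∈ stab Γ b := by
      refine ⟨Γ.mul_mem (Γ.mul_mem (Γ.inv_mem (Γ.pow_mem hs₀ t)) hg.1) (Γ.pow_mem hs₀ t), ?_⟩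
      rw [AlgEquiv.mul_apply, AlgEquiv.mul_apply, hpowl, map_mul, map_pow, hfixξ g hg.1, hg.2,
        ← hpowl]
      exact (s₀ ^ t).symm_apply_apply b
    have h2 := (IntermediateField.mem_fixedField_iff _ _).1 hx _ h1
    rw [AlgEquiv.mul_apply, AlgEquiv.mul_apply] at h2
    have h3 := congrArg (s₀ ^ t) h2
    rwa [show (s₀ ^ t) ((s₀ ^ t)⁻¹ (g ((s₀ ^ t) x))) = g ((s₀ ^ t) x) from
      (s₀ ^ t).apply_symm_apply _] at h3
  let y : ℕ → Qb := fun i => (n : Qb)⁻¹ * ∑ t ∈ Finset.range n, (ξ⁻¹) ^ (i * t) * (s₀ ^ t) x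
  have hys₀ : ∀ i, s₀ (y i) = ξ ^ i * y i := by
    intro i
    show s₀ ((n : Qb)⁻¹ * ∑ t ∈ Finset.range n, (ξ⁻¹) ^ (i * t) * (s₀ ^ t) x) = _
    rw [map_mul, map_inv₀, map_natCast, map_sum]
    have h1 : ∀ t ∈ Finset.range n, s₀ ((ξ⁻¹) ^ (i * t) * (s₀ ^ t) x)
        = ξ ^ i * ((ξ⁻¹) ^ (i * (t + 1)) * (s₀ ^ (t + 1)) x) := by
      intro t _
      rw [map_mul, map_pow, hfixη s₀ hs₀, pow_succ' s₀ t, AlgEquiv.mul_apply, ← mul_assoc]
      congr 1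
      rw [mul_add, mul_one, pow_add, inv_pow ξ i]
      field_simp
    rw [Finset.sum_congr rfl h1, ← Finset.mul_sum,
      DepthExp_sum_shift (fun t => (ξ⁻¹) ^ (i * t) * (s₀ ^ t) x) n (by
        show (ξ⁻¹) ^ (i * n) * (s₀ ^ n) x = (ξ⁻¹) ^ (i * 0) * (s₀ ^ 0) x
        rw [hse, mul_comm i n, pow_mul, hη, one_pow, mul_zero, pow_zero, pow_zero]
        rfl)]
    ring
  have hyg : ∀ i, ∀ g ∈ stab Γ b, g (y i) = y i := by
    intro i g hg
    show g ((n : Qb)⁻¹ * ∑ t ∈ Finset.range n, (ξ⁻¹) ^ (i * t) * (s₀ ^ t) x) = _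
    rw [map_mul, map_inv₀, map_natCast, map_sum]
    congr 1
    refine Finset.sum_congr rfl fun t _ => ?_
    rw [map_mul, map_pow, hfixη g hg.1, hnorm g hg t]
  refine ⟨fun i => y i / b ^ i, fun i => ?_, ?_⟩
  · rw [IntermediateField.mem_fixedField_iff]
    intro s hs
    obtain ⟨j, hj⟩ := hgen s hs
    have h1 : s₀ (y i / b ^ i) = y i / b ^ i := by
      rw [map_div₀, map_pow, hys₀, hs₀b, mul_pow]
      have : ξ ^ i ≠ 0 := pow_ne_zero _ hξ0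
      have : b ^ i ≠ 0 := pow_ne_zero _ hb0
      field_simp
    have h2 : ((s₀ ^ j)⁻¹ * s) (y i / b ^ i) = y i / b ^ i := by
      rw [map_div₀, map_pow, hyg i _ hj, hj.2]
    have h3 : s = s₀ ^ j * ((s₀ ^ j)⁻¹ * s) := by group
    rw [h3, AlgEquiv.mul_apply, h2, DepthExp_pow_apply h1]
  · have h1 : ∀ i ∈ Finset.range n, y i / b ^ i * b ^ i = y i := by
      intro i _
      exact div_mul_cancel₀ _ (pow_ne_zero _ hb0)
    rw [Finset.sum_congr rfl h1]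
    show x = ∑ i ∈ Finset.range n, (n : Qb)⁻¹ * ∑ t ∈ Finset.range n, (ξ⁻¹) ^ (i * t) * (s₀ ^ t) x
    rw [← Finset.mul_sum, Finset.sum_comm]
    have h2 : ∀ t ∈ Finset.range n, ∑ i ∈ Finset.range n, (ξ⁻¹) ^ (i * t) * (s₀ ^ t) x
        = if t = 0 then (n : Qb) * x else 0 := by
      intro t ht
      rw [← Finset.sum_mul]
      split_ifs with h0
      · subst h0
        simp
      · have h3 : ∑ i ∈ Finset.range n, (ξ⁻¹) ^ (i * t) = 0 := by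
          have h4 : ∀ i ∈ Finset.range n, (ξ⁻¹) ^ (i * t) = ((ξ⁻¹) ^ t) ^ i := by
            intro i _
            rw [← pow_mul, mul_comm]
          rw [Finset.sum_congr rfl h4]
          apply DepthExp_geom
          · rw [← pow_mul, mul_comm, pow_mul, hη, one_pow]
          · rw [inv_pow]
            intro h5
            exact hξ.pow_ne_one_of_pos_of_lt h0 (Finset.mem_range.1 ht) (inv_eq_one.1 h5)
        rw [h3, zero_mul]
    rw [Finset.sum_congr rfl h2, Finset.sum_ite_eq' (Finset.range n) 0,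
      if_pos (Finset.mem_range.2 hn), ← mul_assoc, inv_mul_cancel₀ heQ, one_mul]

/-- every `g ∈ Γ₀` multiplies `β` by a power of `ζ`. -/
theorem exists_map_root {ζ : Qb} (hζ : IsPrimitiveRoot ζ P.ℓ) {β : Qb} (hβ0 : β ≠ 0)
    (hβ : β ^ P.ℓ ∈ KK P lam) {g : GQ} (hg : g ∈ G0 P lam) : ∃ k : ℕ, g β = ζ ^ k * β := by
  have h1 : (g β / β) ^ P.ℓ = 1 := by
    rw [div_pow, ← map_pow, (IntermediateField.mem_fixedField_iff _ _).1 hβ g hg]
    exact div_self (pow_ne_zero _ hβ0)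
  have : NeZero P.ℓ := ⟨P.prime.ne_zero⟩
  obtain ⟨k, -, hk⟩ := hζ.eq_pow_of_pow_eq_one h1
  exact ⟨k, by rw [hk]; field_simp⟩

/-- Kummer decomposition: every `x ∈ L` is `∑_{i<ℓ} c_i β^i`, `c_i ∈ K`
(`c_i β^i = (1/ℓ) ∑_t ζ^(-it) s₀^t x` if `s₀ ∈ Γ₀`, `s₀ β = ζ β`; if there is no such `s₀` then `Γ₀` fixes `β`,
`x ∈ K`). -/
theorem exists_kummer_expansion {ζ : Qb} (hζ : IsPrimitiveRoot ζ P.ℓ) (hζK : ζ ∈ KK P lam) {β : Qb}
    (hβ0 : β ≠ 0) (hβ : β ^ P.ℓ ∈ KK P lam) {x : Qb} (hx : x ∈ fixedField (stab (G0 P lam) β)) :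
    ∃ c : ℕ → Qb, (∀ i, c i ∈ KK P lam) ∧ x = ∑ i ∈ Finset.range P.ℓ, c i * β ^ i := by
  have hℓ : 0 < P.ℓ := P.prime.pos
  have hfixζ : ∀ s ∈ G0 P lam, s ζ = ζ := fun s hs =>
    (IntermediateField.mem_fixedField_iff _ _).1 hζK s hs
  have hpow : ∀ (g : GQ) (k : ℕ), g ∈ G0 P lam → g β = ζ ^ k * β →
      ∀ m : ℕ, (g ^ m) β = ζ ^ (k * m) * β := by
    intro g k hg hgk m
    induction m with
    | zero => simp
    | succ m ih =>
      rw [pow_succ', AlgEquiv.mul_apply, ih, map_mul, map_pow, hfixζ g hg, hgk, Nat.mul_succ, pow_add]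
      ring
  by_cases hcase : ∀ g ∈ G0 P lam, g β = β
  · -- `x ∈ K`
    refine ⟨fun i => if i = 0 then x else 0, fun i => ?_, ?_⟩
    · show (if i = 0 then x else 0) ∈ KK P lam
      split_ifs
      · rw [IntermediateField.mem_fixedField_iff] at hx ⊢
        exact fun g hg => hx g ⟨hg, hcase g hg⟩
      · exact zero_mem _
    · have h1 : ∀ i ∈ Finset.range P.ℓ, (if i = 0 then x else 0) * β ^ i = if i = 0 then x else 0 := by
        intro i _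
        split_ifs with h0
        · subst h0; simp
        · simp
      rw [Finset.sum_congr rfl h1, Finset.sum_ite_eq' (Finset.range P.ℓ) 0,
        if_pos (Finset.mem_range.2 hℓ)]
  · push Not at hcase
    obtain ⟨g, hg, hgβ⟩ := hcase
    obtain ⟨k, hk⟩ := exists_map_root P hζ hβ0 hβ hg
    have hkℓ : ¬ P.ℓ ∣ k := by
      intro hd
      apply hgβ
      rw [hk, (hζ.pow_eq_one_iff_dvd k).2 hd, one_mul]
    -- `k m ≡ 1 mod ℓ`
    have hcop : Nat.Coprime k P.ℓ := ((Nat.Prime.coprime_iff_not_dvd P.prime).2 hkℓ).symm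
    obtain ⟨m, -, hm⟩ := Nat.exists_mul_mod_eq_one_of_coprime hcop P.prime.one_lt
    have hζkm : ζ ^ (k * m) = ζ := by
      rw [← Nat.div_add_mod (k * m) P.ℓ, hm, pow_add, pow_mul, hζ.pow_eq_one, one_pow, one_mul,
        pow_one]
    have hs₀ : g ^ m ∈ G0 P lam := (G0 P lam).pow_mem hg m
    have hs₀β : (g ^ m) β = ζ * β := by rw [hpow g k hg hk m, hζkm]
    refine DepthExp_fourier hℓ hζ hβ0 hfixζ hs₀ hs₀β (fun s hs => ?_) hx
    obtain ⟨j, hj⟩ := exists_map_root P hζ hβ0 hβ hs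
    refine ⟨j, (G0 P lam).mul_mem ((G0 P lam).inv_mem ((G0 P lam).pow_mem hs₀ j)) hs, ?_⟩
    have h1 : ((g ^ m) ^ j) β = ζ ^ j * β := by
      have := hpow (g ^ m) 1 hs₀ (by rw [pow_one]; exact hs₀β) j
      rwa [one_mul] at this
    rw [AlgEquiv.mul_apply, hj, ← h1]
    exact ((g ^ m) ^ j).symm_apply_apply β

end Fermat.Agent.S56.F.LF
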