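/-
S56 F-B (B6, tools): binomial estimates for `(1 + w)^ℓ`.
-/
import Fermat.Agent.S56.F.LF.LamAll

set_option autoImplicit false

open Fermat.Agent.PT.Local IntermediateField

namespace Fermat.Agent.S56.F.LF

variable (P : Plc)

theorem Binom_expand (w : Qb) (n : ℕ) :
    (1 + w) ^ (n + 1) - 1 - w ^ (n + 1)
      = ∑ m ∈ Finset.range n, w ^ (m + 1) * ((n + 1).choose (m + 1) : Qb) := by
  rw [add_comm 1 w, add_pow, Finset.sum_range_succ, Finset.sum_range_succ']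
  simp only [one_pow, mul_one, pow_zero, Nat.choose_zero_right, Nat.cast_one, Nat.choose_self]
  ring

theorem Binom_v_natCast_le_one (c : ℕ) : P.v (c : Qb) ≤ 1 :=
  (P.A.valuation_le_one_iff _).2 (natCast_mem P.A c)

/-- the general term. -/
theorem Binom_v_term {w : Qb} (hw : P.v w ≤ 1) {k r : ℕ} (hk0 : k ≠ 0) (hk : k < P.ℓ)
    (hr : r ≤ k) : P.v (w ^ k * (P.ℓ.choose k : Qb)) ≤ P.v (P.ℓ : Qb) * P.v w ^ r := by
  obtain ⟨c, hc⟩ := P.prime.dvd_choose_self hk0 hk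
  rw [hc, Nat.cast_mul, map_mul, map_mul, map_pow, mul_comm]
  calc P.v (P.ℓ : Qb) * P.v (c : Qb) * P.v w ^ k
      ≤ P.v (P.ℓ : Qb) * 1 * P.v w ^ r := by
        refine mul_le_mul' (mul_le_mul' le_rfl (Binom_v_natCast_le_one P c)) ?_
        exact pow_le_pow_of_le_one zero_le hw hr
    _ = P.v (P.ℓ : Qb) * P.v w ^ r := by rw [mul_one]

/-- `(1+w)^ℓ = 1 + w^ℓ + ℓ w (integral)`. -/
theorem v_one_add_pow_sub {w : Qb} (hw : P.v w ≤ 1) :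
    P.v ((1 + w) ^ P.ℓ - 1 - w ^ P.ℓ) ≤ P.v (P.ℓ : Qb) * P.v w := by
  obtain ⟨n, hn⟩ : ∃ n, P.ℓ = n + 1 := ⟨P.ℓ - 1, (Nat.succ_pred_eq_of_pos P.prime.pos).symm⟩
  have h1 := Binom_expand w n
  rw [← hn] at h1
  rw [h1]
  refine Valuation.map_sum_le _ fun m hm => ?_
  have hm' := Finset.mem_range.1 hm
  have h2 := Binom_v_term P hw (k := m + 1) (r := 1) (Nat.succ_ne_zero m) (by omega) (by omega)
  rwa [pow_one] at h2

/-- `(1+w)^ℓ = 1 + w^ℓ + ℓ w + ℓ w² (integral)`. -/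
theorem v_one_add_pow_sub' {w : Qb} (hw : P.v w ≤ 1) :
    P.v ((1 + w) ^ P.ℓ - 1 - w ^ P.ℓ - P.ℓ * w) ≤ P.v (P.ℓ : Qb) * P.v w ^ 2 := by
  obtain ⟨n, hn⟩ : ∃ n, P.ℓ = n + 1 + 1 := ⟨P.ℓ - 2, by have := P.prime.two_le; omega⟩
  have h1 := Binom_expand w (n + 1)
  rw [← hn, Finset.sum_range_succ'] at h1
  have h2 : (1 + w) ^ P.ℓ - 1 - w ^ P.ℓ - P.ℓ * w
      = ∑ m ∈ Finset.range n, w ^ (m + 1 + 1) * (P.ℓ.choose (m + 1 + 1) : Qb) := by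
    rw [h1]
    simp only [zero_add, pow_one, Nat.choose_one_right]
    ring
  rw [h2]
  refine Valuation.map_sum_le _ fun m hm => ?_
  have hm' := Finset.mem_range.1 hm
  exact Binom_v_term P hw (k := m + 1 + 1) (r := 2) (Nat.succ_ne_zero _) (by omega) (by omega)

/-- comparison of exponents: `v(lam)^a ≤ v(lam)^b ↔ b ≤ a`. -/
theorem IsLam.v_pow_le_iff {e : ℕ} {lam : Qb} (h : IsLam P e lam) {a b : ℕ} :
    P.v lam ^ a ≤ P.v lam ^ b ↔ b ≤ a :=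
  pow_le_pow_iff_right_of_lt_one₀ (zero_lt_iff.2 (IsLam.v_ne_zero P h)) (IsLam.v_lt_one P h)

theorem IsLam.v_pow_lt_iff {e : ℕ} {lam : Qb} (h : IsLam P e lam) {a b : ℕ} :
    P.v lam ^ a < P.v lam ^ b ↔ b < a :=
  pow_lt_pow_iff_right_of_lt_one₀ (zero_lt_iff.2 (IsLam.v_ne_zero P h)) (IsLam.v_lt_one P h)

/-- in `K`, `v x < v(lam)^j` implies `v x ≤ v(lam)^(j+1)`. -/
theorem IsLam.v_le_succ {e : ℕ} {lam : Qb} (h : IsLam P e lam) {x : Qb} (hx : x ∈ KK P lam) {j : ℕ}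
    (hlt : P.v x < P.v lam ^ j) : P.v x ≤ P.v lam ^ (j + 1) := by
  have h0 : 0 < P.v lam := zero_lt_iff.2 (IsLam.v_ne_zero P h)
  have h1 : P.v lam < 1 := IsLam.v_lt_one P h
  by_cases hx0 : x = 0
  · rw [hx0, map_zero]
    exact zero_le
  obtain ⟨n, hn⟩ := IsLam.v_KK P h hx hx0
  rw [hn, ← zpow_natCast, zpow_lt_zpow_iff_right_of_lt_one₀ h0 h1] at hlt
  rw [hn, ← zpow_natCast, zpow_le_zpow_iff_right_of_lt_one₀ h0 h1]
  push_cast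
  omega

/-- the Hensel threshold: `ℓ e < j (ℓ-1)` implies `v(lam)^j < v(1-ζ)^ℓ`. -/
theorem IsLam.v_pow_lt_threshold {e : ℕ} {lam : Qb} (h : IsLam P e lam) {ζ : Qb}
    (hζ : IsPrimitiveRoot ζ P.ℓ) {j : ℕ} (hj : P.ℓ * e < j * (P.ℓ - 1)) :
    P.v lam ^ j < P.v (1 - ζ) ^ P.ℓ := by
  have hl : P.ℓ - 1 ≠ 0 := by have := P.prime.two_le; omega
  have e1 : (P.v (1 - ζ) ^ P.ℓ) ^ (P.ℓ - 1) = P.v lam ^ (P.ℓ * e) := by
    rw [← pow_mul, mul_comm P.ℓ (P.ℓ - 1), pow_mul, ← v_p_eq P P.prime hζ, ← IsLam.v_pow P h,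
      ← pow_mul, mul_comm e]
  rw [← pow_lt_pow_iff_left₀ zero_le zero_le hl, e1, ← pow_mul, IsLam.v_pow_lt_iff P h]
  exact hj

end Fermat.Agent.S56.F.LF
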