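/-
S56 F-B (B6): the filtration `Fil j` of `K^× / K^{×ℓ}` and the leading coefficients `LC j`: formal properties.
`K = KK P lam`, `lam^e = -ℓ`, `ℓ ∤ e`.
-/
import Fermat.Agent.S56.F.LF.Binom

set_option autoImplicit false

open Fermat.Agent.PT.Local IntermediateField

namespace Fermat.Agent.S56.F.LF

variable (P : Plc) {e : ℕ} {lam : Qb}

theorem FilBasic_pow_pos (h : IsLam P e lam) (j : ℕ) : 0 < P.v lam ^ j :=
  zero_lt_iff.2 (pow_ne_zero _ (IsLam.v_ne_zero P h))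

theorem FilBasic_pow_lt_one (h : IsLam P e lam) {j : ℕ} (hj : 0 < j) : P.v lam ^ j < 1 := by
  have h1 := (IsLam.v_pow_lt_iff P h (a := j) (b := 0)).2 hj
  rwa [pow_zero] at h1

theorem FilBasic_v_mul_pow_le {t : Qb} (ht : P.v t ≤ 1) (j : ℕ) :
    P.v (t * lam ^ j) ≤ P.v lam ^ j := by
  rw [map_mul, map_pow]
  exact mul_le_of_le_one_left' ht

theorem Fil.mono {j j' : ℕ} (hjj : j' ≤ j) (h : IsLam P e lam) {u : Qb} (hu : Fil P lam j u) :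
    Fil P lam j' u := by
  obtain ⟨y, hy, hy0, hv⟩ := hu
  exact ⟨y, hy, hy0, hv.trans ((IsLam.v_pow_le_iff P h).2 hjj)⟩

theorem Fil.mul_pow {j : ℕ} {u y : Qb} (hu : Fil P lam j u) (hy : y ∈ KK P lam) (hy0 : y ≠ 0) :
    Fil P lam j (u * y ^ P.ℓ) := by
  obtain ⟨y₀, hy₀, hy₀0, hv⟩ := hu
  refine ⟨y₀ / y, div_mem hy₀ hy, div_ne_zero hy₀0 hy0, ?_⟩
  have h1 : u * y ^ P.ℓ * (y₀ / y) ^ P.ℓ = u * y₀ ^ P.ℓ := by
    rw [div_pow]
    have : y ^ P.ℓ ≠ 0 := pow_ne_zero _ hy0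
    field_simp
  rw [h1]
  exact hv

theorem LC.mul_pow {j : ℕ} {u y : Qb} {a : FF P} (hu : LC P lam j u a) (hy : y ∈ KK P lam)
    (hy0 : y ≠ 0) : LC P lam j (u * y ^ P.ℓ) a := by
  obtain ⟨y₀, hy₀, hy₀0, t, ht, hta, hv⟩ := hu
  refine ⟨y₀ / y, div_mem hy₀ hy, div_ne_zero hy₀0 hy0, t, ht, hta, ?_⟩
  have h1 : u * y ^ P.ℓ * (y₀ / y) ^ P.ℓ = u * y₀ ^ P.ℓ := by
    rw [div_pow]
    have : y ^ P.ℓ ≠ 0 := pow_ne_zero _ hy0
    field_simp
  rw [h1]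
  exact hv

theorem LC.fil {j : ℕ} {u : Qb} {a : FF P} (hu : LC P lam j u a) : Fil P lam j u := by
  obtain ⟨y, hy, hy0, t, ht, -, hv⟩ := hu
  refine ⟨y, hy, hy0, ?_⟩
  have h1 : u * y ^ P.ℓ - 1 = (u * y ^ P.ℓ - 1 - t * lam ^ j) + t * lam ^ j := by ring
  rw [h1]
  exact (P.v.map_add _ _).trans (max_le hv.le (FilBasic_v_mul_pow_le P ht j))

/-- (L2) -/
theorem Fil.exists_LC (h : IsLam P e lam) {j : ℕ} {u : Qb} (hu : Fil P lam j u) :
    ∃ a, LC P lam j u a := by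
  obtain ⟨y, hy, hy0, hv⟩ := hu
  have hl : lam ^ j ≠ 0 := pow_ne_zero _ (IsLam.ne_zero P h)
  refine ⟨_, y, hy, hy0, (u * y ^ P.ℓ - 1) / lam ^ j, ?_, rfl, ?_⟩
  · rw [map_div₀, map_pow]
    exact div_le_one_of_le₀ hv zero_le
  · rw [div_mul_cancel₀ _ hl, sub_self, map_zero]
    exact FilBasic_pow_pos P h j

/-- (L3) -/
theorem LC_zero_iff (h : IsLam P e lam) {j : ℕ} {u : Qb} (huK : u ∈ KK P lam) :
    LC P lam j u 0 ↔ Fil P lam (j + 1) u := by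
  constructor
  · rintro ⟨y, hy, hy0, t, ht, hta, hv⟩
    refine ⟨y, hy, hy0, ?_⟩
    refine IsLam.v_le_succ P h (sub_mem (mul_mem huK (pow_mem hy _)) (one_mem _)) ?_
    have h1 : u * y ^ P.ℓ - 1 = (u * y ^ P.ℓ - 1 - t * lam ^ j) + t * lam ^ j := by ring
    rw [h1]
    refine P.v.map_add_lt hv ?_
    rw [map_mul, map_pow]
    have h2 : P.v t < 1 := (rs_eq_zero_iff P ht).1 hta
    calc P.v t * P.v lam ^ j < 1 * P.v lam ^ j :=
          mul_lt_mul_of_pos_right h2 (FilBasic_pow_pos P h j)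
      _ = _ := one_mul _
  · rintro ⟨y, hy, hy0, hv⟩
    refine ⟨y, hy, hy0, 0, by simp, rs_zero P, ?_⟩
    rw [zero_mul, sub_zero]
    exact lt_of_le_of_lt hv ((IsLam.v_pow_lt_iff P h).2 (Nat.lt_succ_self j))

/-- (L5) additivity (`j ≥ 1`). -/
theorem LC.mul (h : IsLam P e lam) {j : ℕ} (hj : 0 < j) {u u' : Qb} {a a' : FF P}
    (hu : LC P lam j u a) (hu' : LC P lam j u' a') : LC P lam j (u * u') (a + a') := by
  have hf := LC.fil P hu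
  obtain ⟨y, hy, hy0, t, ht, hta, hv⟩ := hu
  obtain ⟨y', hy', hy0', t', ht', hta', hv'⟩ := hu'
  refine ⟨y * y', mul_mem hy hy', mul_ne_zero hy0 hy0', t + t',
    (P.v.map_add _ _).trans (max_le ht ht'), by rw [rs_add P ht ht', hta, hta'], ?_⟩
  have hs : P.v (u * y ^ P.ℓ - 1) ≤ P.v lam ^ j := by
    have h1 : u * y ^ P.ℓ - 1 = (u * y ^ P.ℓ - 1 - t * lam ^ j) + t * lam ^ j := by ring
    rw [h1]
    exact (P.v.map_add _ _).trans (max_le hv.le (FilBasic_v_mul_pow_le P ht j))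
  have hs' : P.v (u' * y' ^ P.ℓ - 1) ≤ P.v lam ^ j := by
    have h1 : u' * y' ^ P.ℓ - 1 = (u' * y' ^ P.ℓ - 1 - t' * lam ^ j) + t' * lam ^ j := by ring
    rw [h1]
    exact (P.v.map_add _ _).trans (max_le hv'.le (FilBasic_v_mul_pow_le P ht' j))
  have h1 : u * u' * (y * y') ^ P.ℓ - 1 - (t + t') * lam ^ j =
      (u * y ^ P.ℓ - 1 - t * lam ^ j) + (u' * y' ^ P.ℓ - 1 - t' * lam ^ j) +
        (u * y ^ P.ℓ - 1) * (u' * y' ^ P.ℓ - 1) := by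
    rw [_root_.mul_pow]
    ring
  rw [h1]
  refine P.v.map_add_lt (P.v.map_add_lt hv hv') ?_
  rw [map_mul]
  calc P.v (u * y ^ P.ℓ - 1) * P.v (u' * y' ^ P.ℓ - 1) ≤ P.v lam ^ j * P.v lam ^ j :=
        mul_le_mul' hs hs'
    _ < P.v lam ^ j * 1 :=
        mul_lt_mul_of_pos_left (FilBasic_pow_lt_one P h hj) (FilBasic_pow_pos P h j)
    _ = _ := mul_one _

theorem LC.pow (h : IsLam P e lam) {j : ℕ} (hj : 0 < j) {u : Qb} {a : FF P}
    (hu : LC P lam j u a) (n : ℕ) : LC P lam j (u ^ n) (n * a) := by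
  induction n with
  | zero =>
    refine ⟨1, one_mem _, one_ne_zero, 0, by simp, by rw [rs_zero]; simp, ?_⟩
    simp only [pow_zero, one_pow, mul_one, sub_self, zero_mul, map_zero]
    exact FilBasic_pow_pos P h j
  | succ n ih =>
    have h1 := LC.mul P h hj ih hu
    rw [pow_succ]
    convert h1 using 1
    push_cast
    ring

theorem LC.inv (h : IsLam P e lam) {j : ℕ} (hj : 0 < j) {u : Qb} {a : FF P}
    (hu : LC P lam j u a) : LC P lam j u⁻¹ (-a) := by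
  obtain ⟨y, hy, hy0, t, ht, hta, hv⟩ := hu
  refine ⟨y⁻¹, inv_mem hy, inv_ne_zero hy0, -t, by rwa [Valuation.map_neg],
    by rw [rs_neg, hta], ?_⟩
  have hs : P.v (u * y ^ P.ℓ - 1) ≤ P.v lam ^ j := by
    have h1 : u * y ^ P.ℓ - 1 = (u * y ^ P.ℓ - 1 - t * lam ^ j) + t * lam ^ j := by ring
    rw [h1]
    exact (P.v.map_add _ _).trans (max_le hv.le (FilBasic_v_mul_pow_le P ht j))
  have hs1 : P.v (u * y ^ P.ℓ - 1) < 1 := lt_of_le_of_lt hs (FilBasic_pow_lt_one P h hj)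
  have hw : P.v (u * y ^ P.ℓ) = 1 := by
    have h1 : u * y ^ P.ℓ = 1 + (u * y ^ P.ℓ - 1) := by ring
    rw [h1]
    exact Valuation.map_one_add_of_lt _ hs1
  have hw0 : u * y ^ P.ℓ ≠ 0 := by
    intro h0
    rw [h0, map_zero] at hw
    exact zero_ne_one hw
  have h1 : u⁻¹ * y⁻¹ ^ P.ℓ - 1 - -t * lam ^ j =
      (-(u * y ^ P.ℓ - 1 - t * lam ^ j) + t * lam ^ j * (u * y ^ P.ℓ - 1)) * (u * y ^ P.ℓ)⁻¹ := by
    rw [inv_pow, ← mul_inv]
    generalize u * y ^ P.ℓ = w at hw0 ⊢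
    field_simp
    ring
  rw [h1, map_mul, map_inv₀, hw, inv_one, mul_one]
  refine P.v.map_add_lt (by rwa [Valuation.map_neg]) ?_
  rw [map_mul]
  calc P.v (t * lam ^ j) * P.v (u * y ^ P.ℓ - 1) ≤ P.v lam ^ j * P.v (u * y ^ P.ℓ - 1) :=
        mul_le_mul_left (FilBasic_v_mul_pow_le P ht j) _
    _ < P.v lam ^ j * 1 := mul_lt_mul_of_pos_left hs1 (FilBasic_pow_pos P h j)
    _ = _ := mul_one _

/-- the model elements. -/
theorem LC_one_add (h : IsLam P e lam) {j : ℕ} {t : Qb} (ht : P.v t ≤ 1) :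
    LC P lam j (1 + t * lam ^ j) (rs P t) := by
  refine ⟨1, one_mem _, one_ne_zero, t, ht, rfl, ?_⟩
  have h1 : (1 + t * lam ^ j) * 1 ^ P.ℓ - 1 - t * lam ^ j = 0 := by
    rw [one_pow]
    ring
  rw [h1, map_zero]
  exact FilBasic_pow_pos P h j

end Fermat.Agent.S56.F.LF
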