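/-
S56 F-B (B7b): the depth lemma at a level `j`.
-/
import Fermat.Agent.S56.F.LF.DepthExp
import Fermat.Agent.S56.F.LF.FilBasic

set_option autoImplicit false

open Fermat.Agent.PT.Local IntermediateField

namespace Fermat.Agent.S56.F.LF

variable (P : Plc) {e : ℕ} {lam : Qb}

/-- `v(β^ℓ - 1) = v(lam)^j` and `v β = 1`. -/
theorem DepthLevel_v_root (h : IsLam P e lam) {j : ℕ} (hj0 : 0 < j)
    {β t : Qb} (ht : P.v t = 1) (hβ : P.v (β ^ P.ℓ - 1 - t * lam ^ j) < P.v lam ^ j) :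
    P.v (β ^ P.ℓ - 1) = P.v lam ^ j ∧ P.v β = 1 := by
  have hℓ : 0 < P.ℓ := P.prime.pos
  have hl1 : P.v lam < 1 := h.v_lt_one P
  have h1 : P.v (β ^ P.ℓ - 1) = P.v lam ^ j := by
    have e1 : β ^ P.ℓ - 1 = (β ^ P.ℓ - 1 - t * lam ^ j) + t * lam ^ j := by ring
    have e2 : P.v (t * lam ^ j) = P.v lam ^ j := by rw [map_mul, ht, one_mul, map_pow]
    rw [e1, Valuation.map_add_eq_of_lt_right _ (by rw [e2]; exact hβ), e2]
  have hLlt : P.v lam ^ j < 1 := pow_lt_one₀ zero_le hl1 hj0.ne'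
  have h2 : P.v (β ^ P.ℓ) = 1 := by
    have e1 : β ^ P.ℓ = (β ^ P.ℓ - 1) + 1 := by ring
    rw [e1, Valuation.map_add_eq_of_lt_right _ (by rw [map_one, h1]; exact hLlt), map_one]
  refine ⟨h1, ?_⟩
  rw [map_pow] at h2
  exact (pow_eq_one_iff_of_nonneg zero_le hℓ.ne').1 h2

/-- valuation of `b = β - 1` when `β^ℓ = 1 + t lam^j + ..`, `t` a unit, `j < ℓ e/(ℓ-1)`. -/
theorem v_root_sub_one (h : IsLam P e lam) {j : ℕ} (hj0 : 0 < j) (hlt : j * (P.ℓ - 1) < P.ℓ * e)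
    {β t : Qb} (ht : P.v t = 1) (hβ : P.v (β ^ P.ℓ - 1 - t * lam ^ j) < P.v lam ^ j) :
    P.v (β - 1) ^ P.ℓ = P.v lam ^ j := by
  have hℓ : 0 < P.ℓ := P.prime.pos
  have hl0 : P.v lam ≠ 0 := h.v_ne_zero P
  obtain ⟨h1, h3⟩ := DepthLevel_v_root P h hj0 ht hβ
  set w := β - 1 with hw
  have hw1 : P.v w ≤ 1 := (P.v.map_sub β 1).trans (by simp [h3])
  have hb : β = 1 + w := by rw [hw]; ring
  have h4 := v_one_add_pow_sub P hw1
  rw [← hb] at h4
  have e1 : β ^ P.ℓ - 1 = (β ^ P.ℓ - 1 - w ^ P.ℓ) + w ^ P.ℓ := by ring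
  rcases lt_or_ge (P.v (P.ℓ : Qb) * P.v w) (P.v w ^ P.ℓ) with hc | hc
  · rw [← h1, e1, Valuation.map_add_eq_of_lt_right _
      (by rw [map_pow]; exact lt_of_le_of_lt h4 hc), map_pow]
  · exfalso
    have h5 : P.v lam ^ j ≤ P.v (P.ℓ : Qb) * P.v w := by
      rw [← h1, e1]
      exact (P.v.map_add _ _).trans (max_le h4 (by rw [map_pow]; exact hc))
    have ha0 : P.v w ≠ 0 := by
      intro h0
      rw [h0, mul_zero] at h5
      exact (pow_ne_zero j hl0) (le_antisymm h5 zero_le)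
    have h6 : P.v w ^ (P.ℓ - 1) ≤ P.v (P.ℓ : Qb) := by
      have : P.v w ^ (P.ℓ - 1) * P.v w ≤ P.v (P.ℓ : Qb) * P.v w := by
        rw [← pow_succ, Nat.sub_add_cancel hℓ]; exact hc
      exact (mul_le_mul_iff_left₀ (zero_lt_iff.mpr ha0)).mp this
    have h7 : (P.v lam ^ j) ^ (P.ℓ - 1) ≤ P.v (P.ℓ : Qb) ^ P.ℓ := by
      calc (P.v lam ^ j) ^ (P.ℓ - 1) ≤ (P.v (P.ℓ : Qb) * P.v w) ^ (P.ℓ - 1) :=
            pow_le_pow_left₀ zero_le h5 _
        _ = P.v (P.ℓ : Qb) ^ (P.ℓ - 1) * P.v w ^ (P.ℓ - 1) := mul_pow _ _ _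
        _ ≤ P.v (P.ℓ : Qb) ^ (P.ℓ - 1) * P.v (P.ℓ : Qb) := by gcongr
        _ = P.v (P.ℓ : Qb) ^ P.ℓ := by rw [← pow_succ, Nat.sub_add_cancel hℓ]
    rw [← h.v_pow P, ← pow_mul, ← pow_mul, h.v_pow_le_iff P] at h7
    rw [mul_comm e] at h7
    omega

/-- in a sum whose nonzero terms have pairwise distinct valuations every term is bounded by the sum. -/
theorem DepthLevel_term_le {ι : Type*} (s : Finset ι) (f : ι → Qb)
    (hd : ∀ i ∈ s, ∀ i' ∈ s, i ≠ i' → f i ≠ 0 → f i' ≠ 0 → P.v (f i) ≠ P.v (f i')) :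
    ∀ i ∈ s, P.v (f i) ≤ P.v (∑ i ∈ s, f i) := by
  classical
  intro i hi
  obtain ⟨m, hm, hmax⟩ := Finset.exists_max_image s (fun i => P.v (f i)) ⟨i, hi⟩
  by_cases h0 : f m = 0
  · have := hmax i hi
    simp only [h0, map_zero] at this
    exact this.trans zero_le
  · rw [Valuation.map_sum_eq_of_lt _ hm]
    · exact hmax i hi
    · intro i' hi'
      rw [Finset.mem_sdiff, Finset.mem_singleton] at hi'
      by_cases h0' : f i' = 0
      · rw [h0', map_zero]; exact zero_lt_iff.mpr ((Valuation.ne_zero_iff _).mpr h0)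
      · exact lt_of_le_of_ne (hmax i' hi'.1) (hd i' hi'.1 m hm hi'.2 h0' h0)

/-- re-expansion of a polynomial expression in `b + 1` in powers of `b`. -/
theorem DepthLevel_reexpand (K : Fld) (N : ℕ) (c : ℕ → Qb) (hc : ∀ i, c i ∈ K) (b : Qb) :
    ∃ a : ℕ → Qb, (∀ m, a m ∈ K) ∧
      ∑ i ∈ Finset.range N, c i * (b + 1) ^ i = ∑ m ∈ Finset.range N, a m * b ^ m := by
  refine ⟨fun m => ∑ i ∈ Finset.range N, c i * (i.choose m : Qb), fun m => ?_, ?_⟩
  · exact sum_mem fun i _ => K.mul_mem (hc i) (_root_.natCast_mem K _)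
  · have h1 : ∀ i ∈ Finset.range N, c i * (b + 1) ^ i
        = ∑ m ∈ Finset.range N, c i * (i.choose m : Qb) * b ^ m := by
      intro i hi
      rw [Finset.mem_range] at hi
      rw [add_pow, Finset.mul_sum]
      have hsub : Finset.range (i + 1) ⊆ Finset.range N := by
        intro m hm
        rw [Finset.mem_range] at hm ⊢
        omega
      rw [← Finset.sum_subset hsub]
      · refine Finset.sum_congr rfl fun m _ => ?_
        rw [one_pow]; ring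
      · intro m _ hm
        rw [Finset.mem_range, not_lt] at hm
        rw [Nat.choose_eq_zero_of_lt (by omega)]
        simp
    rw [Finset.sum_congr rfl h1, Finset.sum_comm]
    refine Finset.sum_congr rfl fun m _ => ?_
    rw [Finset.sum_mul]

/-- **(B7b)** `β^ℓ = 1 + t lam^j + ..`, `j` a level, `b = β - 1`.  Every integral `x ∈ L` is `∑ a_i b^i`, `a_i ∈ K`, with
all terms integral (`v(b^i)`, `i < ℓ`, are distinct modulo `v(K^×)`), and `g b = b + (ζ^k - 1) β`, so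
`(ζ - 1)/b` divides `g x - x`. -/
theorem depth_level (h : IsLam P e lam) {ζ : Qb} (hζ : IsPrimitiveRoot ζ P.ℓ) (hζK : ζ ∈ KK P lam)
    {j : ℕ} (hj : IsLevel P e j) {β t : Qb} (hβK : β ^ P.ℓ ∈ KK P lam) (ht : P.v t = 1)
    (hβ : P.v (β ^ P.ℓ - 1 - t * lam ^ j) < P.v lam ^ j) {g : GQ} (hg : g ∈ G0 P lam) {x : Qb}
    (hx : x ∈ fixedField (stab (G0 P lam) β)) (hx1 : P.v x ≤ 1) :
    P.v (g x - x) * P.v (β - 1) ≤ P.v (ζ - 1) := by
  obtain ⟨hj0, hjℓ, hjlt⟩ := hj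
  have hℓ : 0 < P.ℓ := P.prime.pos
  have hlam0 : lam ≠ 0 := h.ne_zero P
  have hl1 : P.v lam < 1 := h.v_lt_one P
  obtain ⟨-, hvβ⟩ := DepthLevel_v_root P h hj0 ht hβ
  have hβ0 : β ≠ 0 := by
    rintro rfl
    simp at hvβ
  have hvb := v_root_sub_one P h hj0 hjlt ht hβ
  set b := β - 1 with hb
  have hβb : β = b + 1 := by rw [hb]; ring
  obtain ⟨c, hc, hxc⟩ := exists_kummer_expansion P hζ hζK hβ0 hβK hx
  obtain ⟨k, hk⟩ := exists_map_root P hζ hβ0 hβK hg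
  rw [hβb] at hxc
  obtain ⟨a, ha, hxa⟩ := DepthLevel_reexpand (KK P lam) P.ℓ c hc b
  rw [hxa] at hxc
  -- all the terms are integral
  have hterm : ∀ m ∈ Finset.range P.ℓ, P.v (a m * b ^ m) ≤ 1 := by
    intro m hm
    refine le_trans ?_ hx1
    rw [hxc]
    refine DepthLevel_term_le P (Finset.range P.ℓ) (fun m => a m * b ^ m) ?_ m hm
    intro m hm m' hm' hne h0 h0' heq
    rw [Finset.mem_range] at hm hm'
    have ha0 : a m ≠ 0 := left_ne_zero_of_mul h0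
    have ha0' : a m' ≠ 0 := left_ne_zero_of_mul h0'
    obtain ⟨n, hn⟩ := h.v_KK P (ha m) ha0
    obtain ⟨n', hn'⟩ := h.v_KK P (ha m') ha0'
    have key : ∀ (m : ℕ) (n : ℤ), P.v (a m) = P.v lam ^ n →
        P.v (a m * b ^ m) ^ P.ℓ = P.v lam ^ ((P.ℓ : ℤ) * n + j * m) := by
      intro m n hn
      rw [map_mul, map_pow, mul_pow, ← pow_mul, mul_comm m, pow_mul, hvb, hn,
        zpow_add₀ (h.v_ne_zero P), mul_comm (P.ℓ : ℤ), zpow_mul, zpow_natCast, ← pow_mul]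
      congr 1
    have h2 : P.v (a m * b ^ m) ^ P.ℓ = P.v (a m' * b ^ m') ^ P.ℓ := by rw [heq]
    rw [key m n hn, key m' n' hn'] at h2
    have h3 := v_zpow_injective P hlam0 hl1 h2
    have h4 : (P.ℓ : ℤ) ∣ (j : ℤ) * ((m : ℤ) - m') := ⟨n' - n, by linear_combination h3⟩
    have hpz : Prime (P.ℓ : ℤ) := Nat.prime_iff_prime_int.mp P.prime
    rcases hpz.dvd_or_dvd h4 with h5 | h5
    · exact hjℓ (Int.natCast_dvd_natCast.mp h5)
    · apply hne
      have := Int.eq_zero_of_abs_lt_dvd h5 (by rw [abs_lt]; constructor <;> omega)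
      omega
  -- the action of `g`
  have hgdec : g ∈ P.dec := ine_le_dec P hg.1
  have hgb : g b - b = (ζ ^ k - 1) * β := by
    rw [hb, map_sub, map_one, hk]; ring
  have hvgb : P.v (g b) = P.v b := v_map P hgdec b
  have hζ1 : P.v ζ = 1 := hensel_v_eq_one_of_pow_eq_one P P.prime.ne_zero hζ.pow_eq_one
  have hdiff : P.v (g b - b) ≤ P.v (ζ - 1) := by
    rw [hgb, map_mul, hvβ, mul_one, Valuation.map_sub_swap, Valuation.map_sub_swap _ ζ]
    exact hensel_v_one_sub_pow_le P hζ1.le k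
  have hga : ∀ m, g (a m) = a m := fun m =>
    (IntermediateField.mem_fixedField_iff _ _).mp (ha m) g hg
  have hgx : (g x - x) * b = ∑ m ∈ Finset.range P.ℓ, a m * ((g b) ^ m - b ^ m) * b := by
    rw [hxc, map_sum, ← Finset.sum_sub_distrib, Finset.sum_mul]
    refine Finset.sum_congr rfl fun m _ => ?_
    rw [map_mul, map_pow, hga]; ring
  rw [← map_mul, hgx]
  refine Valuation.map_sum_le _ fun m hm => ?_
  rcases Nat.eq_zero_or_pos m with rfl | hm0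
  · simp
  have h8 : P.v ((g b) ^ m - b ^ m) ≤ P.v b ^ (m - 1) * P.v (ζ - 1) := by
    rw [← geom_sum₂_mul, map_mul]
    refine mul_le_mul' (Valuation.map_sum_le _ fun i hi => ?_) hdiff
    rw [Finset.mem_range] at hi
    rw [map_mul, map_pow, map_pow, hvgb, ← pow_add]
    exact le_of_eq (by congr 1; omega)
  calc P.v (a m * ((g b) ^ m - b ^ m) * b)
      = P.v (a m) * P.v ((g b) ^ m - b ^ m) * P.v b := by rw [map_mul, map_mul]
    _ ≤ P.v (a m) * (P.v b ^ (m - 1) * P.v (ζ - 1)) * P.v b := by gcongr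
    _ = P.v (a m * b ^ m) * P.v (ζ - 1) := by
        have e1 : P.v b ^ m = P.v b ^ (m - 1) * P.v b := by
          rw [← pow_succ, Nat.sub_add_cancel hm0]
        rw [map_mul, map_pow, e1]
        ac_rfl
    _ ≤ 1 * P.v (ζ - 1) := by gcongr; exact hterm m hm
    _ = P.v (ζ - 1) := one_mul _

/-- (B7b) in terms of `LC`: for any root `β` of `u` with `LC j u a`, `a ≠ 0`:
there is `b` with `v(b)^ℓ = v(lam)^j` and `(ζ-1)/b ∣ g x - x` for all integral `x ∈ Qb^{Stab_{Γ₀} β}`. -/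
theorem depth_of_LC (h : IsLam P e lam) {ζ : Qb} (hζ : IsPrimitiveRoot ζ P.ℓ) (hζK : ζ ∈ KK P lam)
    {j : ℕ} (hj : IsLevel P e j) {u : Qb} (huK : u ∈ KK P lam) {a : FF P} (ha : a ≠ 0)
    (hu : LC P lam j u a) {β : Qb} (hβ : β ^ P.ℓ = u) :
    ∃ b : Qb, P.v b ^ P.ℓ = P.v lam ^ j ∧ ∀ g ∈ G0 P lam, ∀ x ∈ fixedField (stab (G0 P lam) β),
      P.v x ≤ 1 → P.v (g x - x) * P.v b ≤ P.v (ζ - 1) := by
  obtain ⟨y, hy, hy0, t, ht1, hta, hlt⟩ := hu
  have ht : P.v t = 1 := by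
    refine le_antisymm ht1 (not_lt.mp fun hlt1 => ha ?_)
    rw [← hta]
    exact (rs_eq_zero_iff P ht1).2 hlt1
  have hpow : (β * y) ^ P.ℓ = u * y ^ P.ℓ := by rw [mul_pow, hβ]
  have hK : (β * y) ^ P.ℓ ∈ KK P lam := by
    rw [hpow]
    exact (KK P lam).mul_mem huK (_root_.pow_mem hy _)
  have hlt' : P.v ((β * y) ^ P.ℓ - 1 - t * lam ^ j) < P.v lam ^ j := by rw [hpow]; exact hlt
  have hstab : stab (G0 P lam) (β * y) = stab (G0 P lam) β := by
    ext s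
    rw [mem_stab, mem_stab]
    refine and_congr_right fun hs => ?_
    have hsy : s y = y := (IntermediateField.mem_fixedField_iff _ _).mp hy s hs
    rw [map_mul, hsy]
    exact mul_left_inj' hy0
  refine ⟨β * y - 1, v_root_sub_one P h hj.1 hj.2.2 ht hlt', fun g hg x hx hx1 => ?_⟩
  rw [← hstab] at hx
  exact depth_level P h hζ hζK hj hK ht hlt' hg hx hx1

end Fermat.Agent.S56.F.LF
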