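/-
S56 F-B (B7a): the depth lemma in the "tres ramifie" case.
-/
import Fermat.Agent.S56.F.LF.DepthExp

set_option autoImplicit false

open Fermat.Agent.PT.Local IntermediateField

namespace Fermat.Agent.S56.F.LF

variable (P : Plc) {e : ℕ} {lam : Qb}

/-- in a sum whose nonzero terms have pairwise distinct valuations every term is bounded by the sum. -/
theorem DepthTres_term_le {ι : Type*} (s : Finset ι) (f : ι → Qb)
    (hd : ∀ i ∈ s, ∀ i' ∈ s, i ≠ i' → f i ≠ 0 → f i' ≠ 0 → P.v (f i) ≠ P.v (f i')) :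
    ∀ i ∈ s, P.v (f i) ≤ P.v (∑ i ∈ s, f i) := by
  classical
  intro i hi
  obtain ⟨m, hm, hmax⟩ := Finset.exists_max_image s (fun i => P.v (f i)) ⟨i, hi⟩
  by_cases h0 : f m = 0
  · have := hmax i hi
    simp only [h0, map_zero] at this
    exact this.trans zero_le
  · rw [Valuation.map_sum_eq_of_lt _ hm]
    · exact hmax i hi
    · intro i' hi'
      rw [Finset.mem_sdiff, Finset.mem_singleton] at hi'
      by_cases h0' : f i' = 0
      · rw [h0', map_zero]; exact zero_lt_iff.mpr ((Valuation.ne_zero_iff _).mpr h0)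
      · exact lt_of_le_of_ne (hmax i' hi'.1) (hd i' hi'.1 m hm hi'.2 h0' h0)

/-- a bound for the `N`-th powers of the valuations of the terms bounds the `N`-th power of the valuation
of the sum. -/
theorem DepthTres_sum_pow_le {ι : Type*} (s : Finset ι) (f : ι → Qb) (N : ℕ) (B : P.A.ValueGroup)
    (hf : ∀ i ∈ s, P.v (f i) ^ N ≤ B) (hN : N ≠ 0) : P.v (∑ i ∈ s, f i) ^ N ≤ B := by
  rcases s.eq_empty_or_nonempty with rfl | hne
  · simp [hN]
  · obtain ⟨m, hm, hmax⟩ := Finset.exists_max_image s (fun i => P.v (f i)) hne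
    exact (pow_le_pow_left₀ zero_le (Valuation.map_sum_le _ hmax) N).trans (hf m hm)

/-- **(B7a)** tres ramifie case: `v(u) = v(lam)^n`, `ℓ ∤ n`.  All terms `c_i β^i` of an integral `x` are integral
(their valuations are pairwise distinct: exponents `ℓ m_i + i n` after raising to the `ℓ`-th power), those with
`i ≥ 1` satisfy `v(c_i β^i)^ℓ ≤ v(lam)`; `g x - x = ∑_{i ≥ 1} c_i β^i (ζ^(ik) - 1)`. -/
theorem depth_tres (h : IsLam P e lam) {ζ : Qb} (hζ : IsPrimitiveRoot ζ P.ℓ) (hζK : ζ ∈ KK P lam)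
    {β : Qb} (hβ : β ^ P.ℓ ∈ KK P lam) {n : ℤ} (hn : ¬ (P.ℓ : ℤ) ∣ n)
    (hv : P.v (β ^ P.ℓ) = P.v lam ^ n) {g : GQ} (hg : g ∈ G0 P lam) {x : Qb}
    (hx : x ∈ fixedField (stab (G0 P lam) β)) (hx1 : P.v x ≤ 1) :
    P.v (g x - x) ^ P.ℓ ≤ P.v (ζ - 1) ^ P.ℓ * P.v lam := by
  have hℓ : 0 < P.ℓ := P.prime.pos
  have hlam0 : lam ≠ 0 := h.ne_zero P
  have hl1 : P.v lam < 1 := h.v_lt_one P
  have hl0 : P.v lam ≠ 0 := h.v_ne_zero P
  have hpz : Prime (P.ℓ : ℤ) := Nat.prime_iff_prime_int.mp P.prime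
  have hβ0 : β ≠ 0 := by
    rintro rfl
    rw [zero_pow hℓ.ne', map_zero] at hv
    exact (zpow_ne_zero n hl0) hv.symm
  rw [map_pow] at hv
  obtain ⟨c, hc, hxc⟩ := exists_kummer_expansion P hζ hζK hβ0 hβ hx
  obtain ⟨k, hk⟩ := exists_map_root P hζ hβ0 hβ hg
  have key : ∀ (i : ℕ) (m : ℤ), P.v (c i) = P.v lam ^ m →
      P.v (c i * β ^ i) ^ P.ℓ = P.v lam ^ ((P.ℓ : ℤ) * m + n * i) := by
    intro i m hm
    rw [map_mul, map_pow, mul_pow, ← pow_mul, mul_comm i, pow_mul, hv, hm,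
      zpow_add₀ hl0, mul_comm (P.ℓ : ℤ), zpow_mul, zpow_natCast, zpow_mul, zpow_natCast]
  -- all the terms are integral
  have hterm : ∀ i ∈ Finset.range P.ℓ, P.v (c i * β ^ i) ≤ 1 := by
    intro i hi
    refine le_trans ?_ hx1
    rw [hxc]
    refine DepthTres_term_le P (Finset.range P.ℓ) (fun i => c i * β ^ i) ?_ i hi
    intro i hi i' hi' hne h0 h0' heq
    rw [Finset.mem_range] at hi hi'
    obtain ⟨m, hm⟩ := h.v_KK P (hc i) (left_ne_zero_of_mul h0)
    obtain ⟨m', hm'⟩ := h.v_KK P (hc i') (left_ne_zero_of_mul h0')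
    have h2 : P.v (c i * β ^ i) ^ P.ℓ = P.v (c i' * β ^ i') ^ P.ℓ := by rw [heq]
    rw [key i m hm, key i' m' hm'] at h2
    have h3 := v_zpow_injective P hlam0 hl1 h2
    have h4 : (P.ℓ : ℤ) ∣ n * ((i : ℤ) - i') := ⟨m' - m, by linear_combination h3⟩
    rcases hpz.dvd_or_dvd h4 with h5 | h5
    · exact hn h5
    · apply hne
      have := Int.eq_zero_of_abs_lt_dvd h5 (by rw [abs_lt]; constructor <;> omega)
      omega
  -- the terms with `i ≥ 1`
  have hterm' : ∀ i ∈ Finset.range P.ℓ, 0 < i → P.v (c i * β ^ i) ^ P.ℓ ≤ P.v lam := by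
    intro i hi hi0
    by_cases h0 : c i = 0
    · rw [h0, zero_mul, map_zero, zero_pow hℓ.ne']
      exact zero_le
    obtain ⟨m, hm⟩ := h.v_KK P (hc i) h0
    have h1 : P.v (c i * β ^ i) ^ P.ℓ ≤ 1 := pow_le_one₀ zero_le (hterm i hi)
    rw [key i m hm] at h1 ⊢
    rw [← zpow_zero (P.v lam), v_zpow_le_iff P hlam0 hl1] at h1
    conv_rhs => rw [← zpow_one (P.v lam)]
    rw [v_zpow_le_iff P hlam0 hl1]
    rw [Finset.mem_range] at hi
    have hne : (P.ℓ : ℤ) * m + n * i ≠ 0 := by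
      intro h2
      have h4 : (P.ℓ : ℤ) ∣ n * (i : ℤ) := ⟨-m, by linear_combination h2⟩
      rcases hpz.dvd_or_dvd h4 with h5 | h5
      · exact hn h5
      · have := Int.eq_zero_of_abs_lt_dvd h5 (by rw [abs_lt]; constructor <;> omega)
        omega
    omega
  -- the action of `g`
  have hζ1 : P.v ζ = 1 := hensel_v_eq_one_of_pow_eq_one P P.prime.ne_zero hζ.pow_eq_one
  have hgc : ∀ i, g (c i) = c i := fun i =>
    (IntermediateField.mem_fixedField_iff _ _).mp (hc i) g hg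
  have hgx : g x - x = ∑ i ∈ Finset.range P.ℓ, c i * β ^ i * (ζ ^ (k * i) - 1) := by
    conv_lhs => rw [hxc]
    rw [map_sum, ← Finset.sum_sub_distrib]
    refine Finset.sum_congr rfl fun i _ => ?_
    rw [map_mul, map_pow, hgc, hk, pow_mul]; ring
  rw [hgx]
  refine DepthTres_sum_pow_le P _ _ _ _ (fun i hi => ?_) hℓ.ne'
  rcases Nat.eq_zero_or_pos i with rfl | hi0
  · simp [hℓ.ne']
  have h8 : P.v (ζ ^ (k * i) - 1) ≤ P.v (ζ - 1) := by
    rw [Valuation.map_sub_swap, Valuation.map_sub_swap _ ζ]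
    exact hensel_v_one_sub_pow_le P hζ1.le _
  rw [map_mul, mul_pow, mul_comm]
  exact mul_le_mul' (pow_le_pow_left₀ zero_le h8 _) (hterm' i hi hi0)

end Fermat.Agent.S56.F.LF
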