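-- S56 F-B: aggregator for the depth lemmas (B7) (helper55's API, ns `Fermat.Agent.S56.F.LF`).
import Fermat.Agent.S56.F.LF.DepthExp
import Fermat.Agent.S56.F.LF.DepthTres
import Fermat.Agent.S56.F.LF.DepthLevel
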