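/-
S56 F-B (B6, key estimate): `ℓ`-th powers of `K` close to `1`.
-/
import Fermat.Agent.S56.F.LF.Binom

set_option autoImplicit false

open Fermat.Agent.PT.Local IntermediateField

namespace Fermat.Agent.S56.F.LF

variable (P : Plc)

/-- **`ℓ`-th powers close to `1`.**  `z ∈ K`, `z ≠ 0`, `IsLevel e j`, `v(z^ℓ - 1) ≤ v(lam)^j`.  Then
`v(z^ℓ - 1) < v(lam)^j`.  [`z = τ(1+w)`, `τ` Teichmueller (`IsLam.lead`), `τ^ℓ ≡ 1` so `τ = 1`; `v(w) = v(lam)^i`,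
`i ≥ 1`; `(1+w)^ℓ - 1 = w^ℓ + ℓ w(1 + ..)`: exact valuation `ℓ i` if `ℓ i < e + i`, `e + i` if `ℓ i > e + i`,
`≥ ℓ i` if equal; `ℓ i ≠ j`, and in the last two cases the exponent is `≥ ℓ e/(ℓ-1) > j`.] -/
theorem IsLam.v_pow_sub_one_lt {e : ℕ} {lam : Qb} (h : IsLam P e lam) {j : ℕ} (hj : IsLevel P e j)
    {z : Qb} (hz : z ∈ KK P lam) (hz0 : z ≠ 0) (hle : P.v (z ^ P.ℓ - 1) ≤ P.v lam ^ j) :
    P.v (z ^ P.ℓ - 1) < P.v lam ^ j := by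
  have hℓ : P.ℓ ≠ 0 := P.prime.ne_zero
  have hπ1 : P.v lam < 1 := IsLam.v_lt_one P h
  have hπ0 : 0 < P.v lam := zero_lt_iff.2 (IsLam.v_ne_zero P h)
  have hvℓ : P.v (P.ℓ : Qb) = P.v lam ^ e := (IsLam.v_pow P h).symm
  have hj1 : P.v lam ^ j < 1 := pow_lt_one₀ zero_le hπ1 hj.1.ne'
  have hz1 : P.v z ≤ 1 := by
    have h1 : P.v (z ^ P.ℓ) ≤ 1 := by
      have h2 : z ^ P.ℓ = (z ^ P.ℓ - 1) + 1 := by ring
      rw [h2]
      refine (P.v.map_add _ _).trans (max_le (hle.trans hj1.le) ?_)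
      rw [map_one]
    rw [map_pow] at h1
    by_contra hcon
    exact absurd h1 (not_le.2 (one_lt_pow₀ (not_le.1 hcon) hℓ))
  obtain ⟨w, hwdef⟩ : ∃ w : Qb, w = z - 1 := ⟨_, rfl⟩
  have hzw : z = 1 + w := by rw [hwdef]; ring
  have hw1 : P.v w ≤ 1 := by
    rw [hwdef]
    refine (P.v.map_sub _ _).trans (max_le hz1 ?_)
    rw [map_one]
  have hwK : w ∈ KK P lam := by
    rw [hwdef]
    exact sub_mem hz (one_mem _)
  have hB := v_one_add_pow_sub P hw1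
  rw [← hzw, hvℓ] at hB
  have hwlt : P.v w < 1 := by
    have h1 : P.v (w ^ P.ℓ) < 1 := by
      have h2 : w ^ P.ℓ = (z ^ P.ℓ - 1) - (z ^ P.ℓ - 1 - w ^ P.ℓ) := by ring
      rw [h2]
      refine lt_of_le_of_lt (P.v.map_sub _ _) (max_lt (lt_of_le_of_lt hle hj1) ?_)
      refine lt_of_le_of_lt hB ?_
      calc P.v lam ^ e * P.v w ≤ P.v lam ^ e * 1 := by gcongr
        _ = P.v lam ^ e := mul_one _
        _ < 1 := pow_lt_one₀ zero_le hπ1 (IsLam.pos P h).ne'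
    rw [map_pow] at h1
    by_contra hcon
    exact absurd h1 (not_lt.2 (one_le_pow₀ (not_lt.1 hcon)))
  by_cases hw0 : w = 0
  · have h1 : z ^ P.ℓ - 1 = 0 := by rw [hzw, hw0, add_zero, one_pow, sub_self]
    rw [h1, map_zero]
    exact pow_pos hπ0 j
  obtain ⟨n, hn⟩ := IsLam.v_KK P h hwK hw0
  have hn0 : 0 < n := by
    rw [hn] at hwlt
    exact (zpow_lt_one_iff_right_of_lt_one₀ hπ0 hπ1).1 hwlt
  obtain ⟨i, rfl⟩ := Int.eq_ofNat_of_zero_le hn0.le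
  rw [zpow_natCast] at hn
  have hi0 : 0 < i := by exact_mod_cast hn0
  rw [hn, ← pow_add] at hB
  have hA : P.v (w ^ P.ℓ) = P.v lam ^ (P.ℓ * i) := by
    rw [map_pow, hn, ← pow_mul, mul_comm]
  have hsum : z ^ P.ℓ - 1 = w ^ P.ℓ + (z ^ P.ℓ - 1 - w ^ P.ℓ) := by ring
  by_cases hcase : P.ℓ * i < e + i
  · have h1 : P.v (z ^ P.ℓ - 1 - w ^ P.ℓ) < P.v (w ^ P.ℓ) := by
      rw [hA]
      exact lt_of_le_of_lt hB ((IsLam.v_pow_lt_iff P h).2 hcase)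
    have h2 : P.v (z ^ P.ℓ - 1) = P.v lam ^ (P.ℓ * i) := by
      rw [hsum, Valuation.map_add_eq_of_lt_left _ h1, hA]
    rw [h2] at hle ⊢
    have h3 : j ≤ P.ℓ * i := (IsLam.v_pow_le_iff P h).1 hle
    have h4 : j ≠ P.ℓ * i := fun h5 => hj.2.1 (h5 ▸ Dvd.intro i rfl)
    exact (IsLam.v_pow_lt_iff P h).2 (lt_of_le_of_ne h3 h4)
  · have hcase' : e + i ≤ P.ℓ * i := not_lt.1 hcase
    have h1 : P.v (z ^ P.ℓ - 1) ≤ P.v lam ^ (e + i) := by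
      rw [hsum]
      refine (P.v.map_add _ _).trans (max_le ?_ hB)
      rw [hA]
      exact (IsLam.v_pow_le_iff P h).2 hcase'
    refine lt_of_le_of_lt h1 ((IsLam.v_pow_lt_iff P h).2 ?_)
    obtain ⟨m, hm⟩ : ∃ m, P.ℓ = m + 1 := Nat.exists_eq_succ_of_ne_zero hℓ
    have hlev := hj.2.2
    rw [hm] at hcase' hlev
    rw [Nat.add_sub_cancel] at hlev
    by_contra hcon
    have h2 : e + i ≤ j := not_lt.1 hcon
    have h3 : (e + i) * m ≤ j * m := Nat.mul_le_mul_right m h2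
    nlinarith

end Fermat.Agent.S56.F.LF
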