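/-
S56 F-B (B6): uniqueness of the leading coefficient and of the level; `Fil 1`.
-/
import Fermat.Agent.S56.F.LF.FilBasic
import Fermat.Agent.S56.F.LF.PowClose

set_option autoImplicit false

open Fermat.Agent.PT.Local IntermediateField

namespace Fermat.Agent.S56.F.LF

variable (P : Plc) {e : ℕ} {lam : Qb}

/-- `v(lam)^j < 1` for `j > 0`. -/
theorem IsLam.v_pow_lt_one (h : IsLam P e lam) {j : ℕ} (hj : 0 < j) : P.v lam ^ j < 1 :=
  pow_lt_one₀ zero_le (IsLam.v_lt_one P h) hj.ne'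

/-- (L4) uniqueness of the leading coefficient at a level (`IsLam.v_pow_sub_one_lt`). -/
theorem LC.unique (h : IsLam P e lam) {j : ℕ} (hj : IsLevel P e j) {u : Qb} {a a' : FF P}
    (hu : LC P lam j u a) (hu' : LC P lam j u a') : a = a' := by
  obtain ⟨y, hy, hy0, t, ht, rfl, hlt⟩ := hu
  obtain ⟨y', hy', hy0', t', ht', rfl, hlt'⟩ := hu'
  have hl1 : P.v lam ^ j < 1 := IsLam.v_pow_lt_one P h hj.1
  have hlj0 : P.v lam ^ j ≠ 0 := pow_ne_zero _ (IsLam.v_ne_zero P h)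
  -- `v (u y^ℓ) = 1`
  have hone : ∀ (y t : Qb), P.v t ≤ 1 → P.v (u * y ^ P.ℓ - 1 - t * lam ^ j) < P.v lam ^ j →
      P.v (u * y ^ P.ℓ) = 1 := by
    intro y t ht hlt
    have h1 : P.v (t * lam ^ j) < 1 := by
      rw [map_mul, map_pow]
      exact lt_of_le_of_lt (mul_le_of_le_one_left zero_le ht) hl1
    have h2 : u * y ^ P.ℓ = 1 + ((u * y ^ P.ℓ - 1 - t * lam ^ j) + t * lam ^ j) := by ring
    rw [h2]
    apply Valuation.map_one_add_of_lt
    exact lt_of_le_of_lt (P.v.map_add _ _) (max_lt (hlt.trans hl1) h1)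
  have hv1 := hone y t ht hlt
  have hv1' := hone y' t' ht' hlt'
  have huy0 : u * y ^ P.ℓ ≠ 0 := by
    intro h0
    rw [h0, map_zero] at hv1
    exact zero_ne_one hv1
  have hu0 : u ≠ 0 := left_ne_zero_of_mul huy0
  set z : Qb := y' / y with hz
  have hzK : z ∈ KK P lam := div_mem hy' hy
  have hz0 : z ≠ 0 := div_ne_zero hy0' hy0
  have hzl : z ^ P.ℓ - 1 = (u * y' ^ P.ℓ - u * y ^ P.ℓ) / (u * y ^ P.ℓ) := by
    rw [hz, div_pow]
    have : y ^ P.ℓ ≠ 0 := pow_ne_zero _ hy0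
    field_simp
  have hvz : P.v (z ^ P.ℓ - 1) = P.v (u * y' ^ P.ℓ - u * y ^ P.ℓ) := by
    rw [hzl, map_div₀, hv1, div_one]
  have hdiff : u * y' ^ P.ℓ - u * y ^ P.ℓ = (t' - t) * lam ^ j +
      ((u * y' ^ P.ℓ - 1 - t' * lam ^ j) - (u * y ^ P.ℓ - 1 - t * lam ^ j)) := by ring
  have hr : P.v ((u * y' ^ P.ℓ - 1 - t' * lam ^ j) - (u * y ^ P.ℓ - 1 - t * lam ^ j))
      < P.v lam ^ j := lt_of_le_of_lt (P.v.map_sub _ _) (max_lt hlt' hlt)
  have htt : P.v (t' - t) ≤ 1 := (P.v.map_sub _ _).trans (max_le ht' ht)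
  have hle : P.v (z ^ P.ℓ - 1) ≤ P.v lam ^ j := by
    rw [hvz, hdiff]
    refine (P.v.map_add _ _).trans (max_le ?_ hr.le)
    rw [map_mul, map_pow]
    exact mul_le_of_le_one_left zero_le htt
  have hlt2 := IsLam.v_pow_sub_one_lt P h hj hzK hz0 hle
  rw [hvz] at hlt2
  have h3 : (t' - t) * lam ^ j = (u * y' ^ P.ℓ - u * y ^ P.ℓ) -
      ((u * y' ^ P.ℓ - 1 - t' * lam ^ j) - (u * y ^ P.ℓ - 1 - t * lam ^ j)) := by ring
  have h4 : P.v ((t' - t) * lam ^ j) < P.v lam ^ j := by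
    rw [h3]
    exact lt_of_le_of_lt (P.v.map_sub _ _) (max_lt hlt2 hr)
  rw [map_mul, map_pow] at h4
  have h5 : P.v (t' - t) < 1 := by
    by_contra hcon
    have h6 : 1 ≤ P.v (t' - t) := not_lt.1 hcon
    have h7 : P.v lam ^ j ≤ P.v (t' - t) * P.v lam ^ j := le_mul_of_one_le_left zero_le h6
    exact absurd h4 (not_lt.2 h7)
  exact ((rs_eq_iff P ht' ht).2 h5).symm

/-- (L1) a `u ∈ K^×` whose valuation is an `ℓ`-th power is in `Fil 1`
(`u lam^(-ℓ n)` is a unit `= τ (1 + ..)`, `τ` Teichmueller is an `ℓ`-th power). -/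
theorem fil_one_of_v (h : IsLam P e lam) {u : Qb} (huK : u ∈ KK P lam) {n : ℤ}
    (hv : P.v u = P.v lam ^ ((P.ℓ : ℤ) * n)) : Fil P lam 1 u := by
  have hl0 : lam ≠ 0 := IsLam.ne_zero P h
  have hvl0 : P.v lam ≠ 0 := IsLam.v_ne_zero P h
  have hlK : lam ∈ KK P lam := lam_mem_KK P
  set x : Qb := u * (lam ^ (-n)) ^ P.ℓ with hx
  have hvx : P.v x = 1 := by
    rw [hx, map_mul, map_pow, map_zpow₀, hv, ← zpow_natCast, ← zpow_mul, ← zpow_add₀ hvl0]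
    have : (P.ℓ : ℤ) * n + -n * (P.ℓ : ℤ) = 0 := by ring
    rw [this, zpow_zero]
  obtain ⟨τ, hτ, hlt⟩ := exists_teich_close P hvx
  obtain ⟨τ', hτ', hττ⟩ := IsTeich.exists_root P hτ
  have hτ0 : τ ≠ 0 := IsTeich.ne_zero P hτ
  have hτ0' : τ' ≠ 0 := IsTeich.ne_zero P hτ'
  have hτK : τ' ∈ KK P lam := IsTeich.mem_fixedField P hτ' (stab_le P.ine lam)
  have hyK : lam ^ (-n) / τ' ∈ KK P lam := div_mem (zpow_mem hlK _) hτK
  refine ⟨lam ^ (-n) / τ', hyK, div_ne_zero (zpow_ne_zero _ hl0) hτ0', ?_⟩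
  have h1 : u * (lam ^ (-n) / τ') ^ P.ℓ - 1 = (x - τ) / τ := by
    rw [div_pow, hττ, hx]
    field_simp
  have h2 : P.v (u * (lam ^ (-n) / τ') ^ P.ℓ - 1) < P.v lam ^ 0 := by
    rw [h1, map_div₀, IsTeich.v_eq_one P hτ, div_one, pow_zero]
    exact hlt
  have h3 : u * (lam ^ (-n) / τ') ^ P.ℓ - 1 ∈ KK P lam :=
    sub_mem (mul_mem huK (pow_mem hyK _)) (one_mem _)
  exact IsLam.v_le_succ P h h3 h2

/-- the level is unique: auxiliary asymmetric form. -/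
theorem level_unique_aux (h : IsLam P e lam) {u : Qb} {j j' : ℕ} (hj : IsLevel P e j)
    {a a' : FF P} (ha : a ≠ 0) (hu : LC P lam j u a)
    (hu' : LC P lam j' u a') : j' ≤ j := by
  by_contra hcon
  have hlt : j < j' := not_le.1 hcon
  apply ha
  apply LC.unique P h hj hu
  obtain ⟨y, hy, hy0, t, ht, -, hlt'⟩ := hu'
  refine ⟨y, hy, hy0, 0, by simp, rs_zero P, ?_⟩
  rw [zero_mul, sub_zero]
  have h1 : P.v lam ^ j' < P.v lam ^ j := (IsLam.v_pow_lt_iff P h).2 hlt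
  have h2 : u * y ^ P.ℓ - 1 = (u * y ^ P.ℓ - 1 - t * lam ^ j') + t * lam ^ j' := by ring
  rw [h2]
  refine lt_of_le_of_lt (P.v.map_add _ _) (max_lt (hlt'.trans h1) ?_)
  rw [map_mul, map_pow]
  exact lt_of_le_of_lt (mul_le_of_le_one_left zero_le ht) h1

/-- the level is unique. -/
theorem level_unique (h : IsLam P e lam) {u : Qb} {j j' : ℕ} (hj : IsLevel P e j)
    (hj' : IsLevel P e j') {a a' : FF P} (ha : a ≠ 0) (ha' : a' ≠ 0) (hu : LC P lam j u a)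
    (hu' : LC P lam j' u a') : j = j' :=
  le_antisymm (level_unique_aux P h hj' ha' hu' hu) (level_unique_aux P h hj ha hu hu')

/-- an element of `Fil 1` is not "tres ramifie". -/
theorem Fil.dvd_of_v (h : IsLam P e lam) {u : Qb} (hu : Fil P lam 1 u) {n : ℤ}
    (hv : P.v u = P.v lam ^ n) : (P.ℓ : ℤ) ∣ n := by
  obtain ⟨y, hy, hy0, hle⟩ := hu
  have hvl0 : P.v lam ≠ 0 := IsLam.v_ne_zero P h
  rw [pow_one] at hle
  have h1 : P.v (u * y ^ P.ℓ) = 1 := by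
    have h2 : u * y ^ P.ℓ = 1 + (u * y ^ P.ℓ - 1) := by ring
    rw [h2]
    exact Valuation.map_one_add_of_lt _ (lt_of_le_of_lt hle (IsLam.v_lt_one P h))
  obtain ⟨m, hm⟩ := IsLam.v_KK P h hy hy0
  rw [map_mul, map_pow, hv, hm, ← zpow_natCast, ← zpow_mul, ← zpow_add₀ hvl0] at h1
  have h3 : P.v lam ^ (n + m * (P.ℓ : ℤ)) = P.v lam ^ (0 : ℤ) := by
    rw [h1, zpow_zero]
  have h4 := v_zpow_injective P (IsLam.ne_zero P h) (IsLam.v_lt_one P h) h3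
  exact ⟨-m, by linarith⟩

/-- an `ℓ`-th power has trivial leading coefficients at all levels. -/
theorem LC.eq_zero_of_pow (h : IsLam P e lam) {j : ℕ} (hj : IsLevel P e j) {y : Qb}
    (hy : y ∈ KK P lam) (hy0 : y ≠ 0) {a : FF P} (hu : LC P lam j (y ^ P.ℓ) a) : a = 0 := by
  apply LC.unique P h hj hu
  refine ⟨y⁻¹, inv_mem hy, inv_ne_zero hy0, 0, by simp, rs_zero P, ?_⟩
  have h1 : y ^ P.ℓ * y⁻¹ ^ P.ℓ - 1 - 0 * lam ^ j = 0 := by
    rw [← _root_.mul_pow, mul_inv_cancel₀ hy0, one_pow]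
    ring
  rw [h1, map_zero]
  exact zero_lt_iff.2 (pow_ne_zero _ (IsLam.v_ne_zero P h))

end Fermat.Agent.S56.F.LF
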