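/-
S56 F-B (B6): no jumps at multiples of `ℓ`; everything is an `ℓ`-th power from the threshold on.
-/
import Fermat.Agent.S56.F.LF.FilBasic

set_option autoImplicit false

open Fermat.Agent.PT.Local IntermediateField

namespace Fermat.Agent.S56.F.LF

variable (P : Plc) {e : ℕ} {lam : Qb}

theorem FilArith2_exists_rep (lam : Qb) (c : FF P) :
    ∃ x ∈ KK P lam, P.v x ≤ 1 ∧ rs P x = c := by
  by_cases hc : c = 0
  · exact ⟨0, zero_mem _, by simp, by rw [hc, rs_zero]⟩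
  · obtain ⟨t, ht, htc⟩ := exists_teich P hc
    exact ⟨t, IsTeich.mem_fixedField P ht (stab_le _ _), (IsTeich.v_eq_one P ht).le, htc⟩

theorem FilArith2_kill (h : IsLam P e lam) {j : ℕ} (hj : 0 < j) {u z : Qb} {a : FF P}
    (huK : u ∈ KK P lam) (hu : LC P lam j u a) (hz : z ∈ KK P lam) (hz0 : z ≠ 0)
    (hzl : LC P lam j (z ^ P.ℓ) (-a)) : Fil P lam (j + 1) u := by
  have h1 := LC.mul P h hj hu hzl
  rw [add_neg_cancel] at h1
  have h2 := LC.mul_pow P h1 (inv_mem hz) (inv_ne_zero hz0)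
  have h3 : u * z ^ P.ℓ * z⁻¹ ^ P.ℓ = u := by
    rw [mul_assoc, ← mul_pow, mul_inv_cancel₀ hz0, one_pow, mul_one]
  rw [h3] at h2
  exact (LC_zero_iff P h huK).mp h2

theorem FilArith2_one_add (h : IsLam P e lam) {i : ℕ} (hi : 0 < i) {x : Qb}
    (hxK : x ∈ KK P lam) (hx : P.v x ≤ 1) :
    1 + x * lam ^ i ∈ KK P lam ∧ 1 + x * lam ^ i ≠ 0 ∧ P.v (x * lam ^ i) ≤ P.v lam ^ i ∧
      P.v (x * lam ^ i) ≤ 1 := by
  have h1 : P.v (x * lam ^ i) ≤ P.v lam ^ i := by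
    rw [map_mul, map_pow]
    calc P.v x * P.v lam ^ i ≤ 1 * P.v lam ^ i := mul_le_mul' hx le_rfl
      _ = P.v lam ^ i := one_mul _
  have h2 : P.v lam ^ i < 1 := pow_lt_one₀ zero_le (IsLam.v_lt_one P h) hi.ne'
  refine ⟨add_mem (one_mem _) (mul_mem hxK (pow_mem (lam_mem_KK P) i)), ?_, h1,
    (h1.trans_lt h2).le⟩
  intro h0
  have h3 : x * lam ^ i = -1 := by linear_combination h0
  rw [h3, Valuation.map_neg, map_one] at h1
  exact absurd (h1.trans_lt h2) (lt_irrefl _)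

/-- (L6) no jump at `j = ℓ i < ℓ e/(ℓ-1)`: divide by `(1 + x lam^i)^ℓ`, `x^ℓ ≡ t`. -/
theorem Fil.succ_of_dvd (h : IsLam P e lam) {j : ℕ} (hj0 : 0 < j) (hj : P.ℓ ∣ j)
    (hlt : j * (P.ℓ - 1) < P.ℓ * e) {u : Qb} (huK : u ∈ KK P lam) (hu : Fil P lam j u) :
    Fil P lam (j + 1) u := by
  obtain ⟨i, rfl⟩ := hj
  have hℓ := P.prime.two_le
  have hi : 0 < i := Nat.pos_of_ne_zero (by
    rintro rfl
    simp at hj0)
  obtain ⟨a, ha⟩ := Fil.exists_LC P h hu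
  obtain ⟨c, hc⟩ := IsAlgClosed.exists_pow_nat_eq (-a) P.prime.pos
  obtain ⟨x, hxK, hx, hxc⟩ := FilArith2_exists_rep P lam c
  obtain ⟨hzK, hz0, hw, hw1⟩ := FilArith2_one_add P h hi hxK hx
  refine FilArith2_kill P h hj0 huK ha hzK hz0 ?_
  refine ⟨1, one_mem _, one_ne_zero, x ^ P.ℓ, ?_, ?_, ?_⟩
  · rw [map_pow]
    exact pow_le_one₀ zero_le hx
  · rw [rs_pow P hx, hxc, hc]
  · have h1 := v_one_add_pow_sub P hw1
    have h2 : (1 + x * lam ^ i) ^ P.ℓ * 1 ^ P.ℓ - 1 - x ^ P.ℓ * lam ^ (P.ℓ * i)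
        = (1 + x * lam ^ i) ^ P.ℓ - 1 - (x * lam ^ i) ^ P.ℓ := by
      rw [one_pow, mul_one, _root_.mul_pow, ← pow_mul, mul_comm i]
    rw [h2]
    refine lt_of_le_of_lt h1 ?_
    have harith : P.ℓ * i < e + i := by
      have h3 : i * (P.ℓ - 1) < e := by
        rw [mul_assoc] at hlt
        exact Nat.lt_of_mul_lt_mul_left hlt
      obtain ⟨m, hm⟩ : ∃ m, P.ℓ = m + 1 := ⟨P.ℓ - 1, by omega⟩
      rw [hm] at h3 ⊢
      rw [Nat.add_sub_cancel] at h3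
      nlinarith
    calc P.v (P.ℓ : Qb) * P.v (x * lam ^ i) ≤ P.v lam ^ e * P.v lam ^ i := by
          rw [IsLam.v_pow P h]
          exact mul_le_mul' le_rfl hw
      _ = P.v lam ^ (e + i) := (pow_add _ _ _).symm
      _ < P.v lam ^ (P.ℓ * i) := (IsLam.v_pow_lt_iff P h).mpr harith

/-- (L7a) above the threshold everything is an `ℓ`-th power (`PT.Local.exists_pth_root`). -/
theorem Fil.isPow_of_lt (h : IsLam P e lam) {j : ℕ} (hlt : P.ℓ * e < j * (P.ℓ - 1)) {u : Qb}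
    (huK : u ∈ KK P lam) (hu : Fil P lam j u) : ∃ y ∈ KK P lam, y ^ P.ℓ = u := by
  obtain ⟨y₀, hy₀K, hy₀, hv⟩ := hu
  have : NeZero ((P.ℓ : ℕ) : ℚ) := ⟨by exact_mod_cast P.prime.ne_zero⟩
  obtain ⟨ζ, hζ⟩ := HasEnoughRootsOfUnity.exists_primitiveRoot Qb P.ℓ
  have hE : G0 P lam ≤ P.dec := (stab_le _ _).trans (ine_le_dec P)
  obtain ⟨y₁, hy₁K, hy₁, -⟩ := exists_pth_root P hE P.prime hζ
    (x := u * y₀ ^ P.ℓ) (mul_mem huK (pow_mem hy₀K _))
    (hv.trans_lt (IsLam.v_pow_lt_threshold P h hζ hlt))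
  refine ⟨y₁ / y₀, div_mem hy₁K hy₀K, ?_⟩
  rw [div_pow, hy₁, mul_div_assoc, div_self (pow_ne_zero _ hy₀), mul_one]

/-- (L7b) at the threshold `j (ℓ-1) = ℓ e`: Artin-Schreier, `(1 + x lam^i)^ℓ = 1 + (x^ℓ - x) lam^j + ..`,
`i = e/(ℓ-1)`, `FF` algebraically closed. -/
theorem Fil.succ_of_eq (h : IsLam P e lam) {j : ℕ} (heq : j * (P.ℓ - 1) = P.ℓ * e) {u : Qb}
    (huK : u ∈ KK P lam) (hu : Fil P lam j u) : Fil P lam (j + 1) u := by
  have hℓ := P.prime.two_le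
  have hdvd : P.ℓ ∣ j := by
    have h1 : P.ℓ ∣ j * (P.ℓ - 1) := heq ▸ dvd_mul_right _ _
    rcases (Nat.Prime.dvd_mul P.prime).mp h1 with h2 | h2
    · exact h2
    · exfalso
      have := Nat.le_of_dvd (by omega) h2
      omega
  obtain ⟨i, rfl⟩ := hdvd
  have hie : i * (P.ℓ - 1) = e := by
    rw [mul_assoc] at heq
    exact Nat.eq_of_mul_eq_mul_left P.prime.pos heq
  have hi : 0 < i := by
    rcases Nat.eq_zero_or_pos i with h0 | h0
    · exfalso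
      rw [h0, zero_mul] at hie
      exact (IsLam.pos P h).ne hie
    · exact h0
  have hj : P.ℓ * i = e + i := by
    obtain ⟨m, hm⟩ : ∃ m, P.ℓ = m + 1 := ⟨P.ℓ - 1, by omega⟩
    rw [hm] at hie ⊢
    rw [Nat.add_sub_cancel] at hie
    rw [← hie]
    ring
  have hj0 : 0 < P.ℓ * i := Nat.mul_pos P.prime.pos hi
  obtain ⟨a, ha⟩ := Fil.exists_LC P h hu
  obtain ⟨c, hc⟩ : ∃ c : FF P, c ^ P.ℓ - c = -a := by
    have hnd : (Polynomial.X ^ P.ℓ - Polynomial.X + Polynomial.C a :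
        Polynomial (FF P)).natDegree = P.ℓ := by
      rw [Polynomial.natDegree_add_C]
      exact FiniteField.X_pow_card_sub_X_natDegree_eq (FF P) P.prime.one_lt
    have hdeg : (Polynomial.X ^ P.ℓ - Polynomial.X + Polynomial.C a :
        Polynomial (FF P)).degree ≠ 0 := by
      apply Polynomial.degree_ne_of_natDegree_ne
      rw [hnd]
      exact P.prime.ne_zero
    obtain ⟨c, hc⟩ := IsAlgClosed.exists_root _ hdeg
    refine ⟨c, ?_⟩
    simp only [Polynomial.IsRoot, Polynomial.eval_add, Polynomial.eval_sub, Polynomial.eval_pow,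
      Polynomial.eval_X, Polynomial.eval_C] at hc
    linear_combination hc
  obtain ⟨x, hxK, hx, hxc⟩ := FilArith2_exists_rep P lam c
  obtain ⟨hzK, hz0, hw, hw1⟩ := FilArith2_one_add P h hi hxK hx
  have hxl : P.v (x ^ P.ℓ) ≤ 1 := by
    rw [map_pow]
    exact pow_le_one₀ zero_le hx
  refine FilArith2_kill P h hj0 huK ha hzK hz0 ?_
  refine ⟨1, one_mem _, one_ne_zero, x ^ P.ℓ - x, ?_, ?_, ?_⟩
  · exact (P.v.map_sub _ _).trans (max_le hxl hx)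
  · rw [rs_sub P hxl hx, rs_pow P hx, hxc, hc]
  · have h1 := v_one_add_pow_sub' P hw1
    have h2 : (1 + x * lam ^ i) ^ P.ℓ * 1 ^ P.ℓ - 1 - (x ^ P.ℓ - x) * lam ^ (P.ℓ * i)
        = (1 + x * lam ^ i) ^ P.ℓ - 1 - (x * lam ^ i) ^ P.ℓ - P.ℓ * (x * lam ^ i) := by
      have h3 : (P.ℓ : Qb) = - lam ^ e := by rw [h.pow, neg_neg]
      have h4 : (x * lam ^ i) ^ P.ℓ = x ^ P.ℓ * lam ^ (P.ℓ * i) := by
        rw [_root_.mul_pow, ← pow_mul, mul_comm i]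
      have h5 : lam ^ (P.ℓ * i) = lam ^ e * lam ^ i := by rw [hj, pow_add]
      rw [one_pow, mul_one, h4]
      conv_rhs => rw [h3]
      rw [h5]
      ring
    rw [h2]
    refine lt_of_le_of_lt h1 ?_
    calc P.v (P.ℓ : Qb) * P.v (x * lam ^ i) ^ 2 ≤ P.v lam ^ e * (P.v lam ^ i) ^ 2 := by
          rw [IsLam.v_pow P h]
          exact mul_le_mul' le_rfl (pow_le_pow_left₀ zero_le hw 2)
      _ = P.v lam ^ (e + i * 2) := by rw [← pow_mul, pow_add]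
      _ < P.v lam ^ (P.ℓ * i) := (IsLam.v_pow_lt_iff P h).mpr (by omega)

/-- (L7) -/
theorem Fil.isPow (h : IsLam P e lam) {j : ℕ} (hle : P.ℓ * e ≤ j * (P.ℓ - 1)) {u : Qb}
    (huK : u ∈ KK P lam) (hu : Fil P lam j u) : ∃ y ∈ KK P lam, y ^ P.ℓ = u := by
  rcases lt_or_eq_of_le hle with hlt | heq
  · exact Fil.isPow_of_lt P h hlt huK hu
  · have h1 := Fil.succ_of_eq P h heq.symm huK hu
    refine Fil.isPow_of_lt P h ?_ huK h1
    have hℓ := P.prime.two_le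
    rw [heq, add_mul]
    omega

end Fermat.Agent.S56.F.LF
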