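/-
S56 F-B (B6): Galois action on the leading coefficients.
-/
import Fermat.Agent.S56.F.LF.FilBasic

set_option autoImplicit false

open Fermat.Agent.PT.Local IntermediateField

namespace Fermat.Agent.S56.F.LF

variable (P : Plc) {e : ℕ} {lam : Qb}

/-- (L8) inertia acts on the level `j` piece through `theta lam ^ j`. -/
theorem LC.map_ine (h : IsLam P e lam) {j : ℕ} {u : Qb} {a : FF P} (hu : LC P lam j u a) {d : GQ}
    (hd : d ∈ P.ine) : LC P lam j (d u) (theta P lam d ^ j * a) := by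
  obtain ⟨y, hyK, hy0, t, ht, hta, hlt⟩ := hu
  have hdd : d ∈ P.dec := ine_le_dec P hd
  obtain ⟨ξ, hξ, hξl⟩ := IsLam.exists_map P h d
  have hvξ : P.v ξ = 1 := hensel_v_eq_one_of_pow_eq_one P (IsLam.pos P h).ne' hξ
  have hθ : theta P lam d = rs P ξ := theta_eq_rs P (IsLam.ne_zero P h) hξl
  have hdt : P.v (d t) ≤ 1 := by
    rw [v_map P hdd]
    exact ht
  have hξj : P.v (ξ ^ j) ≤ 1 := by
    rw [map_pow, hvξ, one_pow]
  refine ⟨d y, IsLam.map_mem_KK P h hdd hyK, (map_ne_zero d).2 hy0, ξ ^ j * d t, ?_, ?_, ?_⟩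
  · rw [map_mul]
    exact mul_le_one₀ hξj zero_le hdt
  · rw [rs_mul P hξj hdt, rs_pow P hvξ.le, rs_map_ine P hd ht, hta, hθ]
  · have e1 : d u * d y ^ P.ℓ - 1 - ξ ^ j * d t * lam ^ j = d (u * y ^ P.ℓ - 1 - t * lam ^ j) := by
      rw [map_sub, map_sub, map_mul, map_mul, map_pow, map_pow, map_one, hξl, _root_.mul_pow]
      ring
    rw [e1, v_map P hdd]
    exact hlt

/-- (L9) a Frobenius fixing `lam` acts by `a ↦ a^q`. -/
theorem LC.map_frob (h : IsLam P e lam) {j : ℕ} {u : Qb} {a : FF P} (hu : LC P lam j u a) {q : ℕ}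
    {φ : GQ} (hφ : IsFrob P q φ) (hφl : φ lam = lam) : LC P lam j (φ u) (a ^ q) := by
  obtain ⟨y, hyK, hy0, t, ht, hta, hlt⟩ := hu
  have hdd : φ ∈ P.dec := hφ.1
  refine ⟨φ y, IsLam.map_mem_KK P h hdd hyK, (map_ne_zero φ).2 hy0, φ t, ?_, ?_, ?_⟩
  · rw [v_map P hdd]
    exact ht
  · rw [rs_map_frob P hφ ht, hta]
  · have e1 : φ u * φ y ^ P.ℓ - 1 - φ t * lam ^ j = φ (u * y ^ P.ℓ - 1 - t * lam ^ j) := by
      rw [map_sub, map_sub, map_mul, map_mul, map_pow, map_pow, map_one, hφl]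
    rw [e1, v_map P hdd]
    exact hlt

theorem Fil.map_dec (h : IsLam P e lam) {j : ℕ} {u : Qb} (hu : Fil P lam j u) {d : GQ}
    (hd : d ∈ P.dec) : Fil P lam j (d u) := by
  obtain ⟨y, hyK, hy0, hle⟩ := hu
  refine ⟨d y, IsLam.map_mem_KK P h hd hyK, (map_ne_zero d).2 hy0, ?_⟩
  have e1 : d u * d y ^ P.ℓ - 1 = d (u * y ^ P.ℓ - 1) := by
    rw [map_sub, map_mul, map_pow, map_one]
  rw [e1, v_map P hd]
  exact hle

end Fermat.Agent.S56.F.LF
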