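/-
S56 F-B (B6): the normal form of `K^× / K^{×ℓ}`.
-/
import Fermat.Agent.S56.F.LF.FilArith1
import Fermat.Agent.S56.F.LF.FilArith2

set_option autoImplicit false

open Fermat.Agent.PT.Local IntermediateField

namespace Fermat.Agent.S56.F.LF

variable (P : Plc) {e : ℕ} {lam : Qb}

/-- **(B6) normal form.**  Every `u ∈ K^×` is, modulo `ℓ`-th powers, "tres ramifie", or of a unique level `j`
with a nonzero leading coefficient, or trivial. -/
theorem normal_form (h : IsLam P e lam) {u : Qb} (huK : u ∈ KK P lam) (hu0 : u ≠ 0) :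
    (∃ n : ℤ, ¬ (P.ℓ : ℤ) ∣ n ∧ P.v u = P.v lam ^ n) ∨
    (∃ j, IsLevel P e j ∧ ∃ a, a ≠ 0 ∧ LC P lam j u a) ∨
    (∃ y ∈ KK P lam, y ^ P.ℓ = u) := by
  obtain ⟨n, hn⟩ := IsLam.v_KK P h huK hu0
  by_cases hdvd : (P.ℓ : ℤ) ∣ n
  swap
  · exact Or.inl ⟨n, hdvd, hn⟩
  right
  obtain ⟨m, rfl⟩ := hdvd
  have h1 : Fil P lam 1 u := fil_one_of_v P h huK hn
  have hℓ := P.prime.two_le
  have key : ∀ k j : ℕ, 0 < j → P.ℓ * e ≤ j + k → Fil P lam j u →
      (∃ j, IsLevel P e j ∧ ∃ a, a ≠ 0 ∧ LC P lam j u a) ∨ (∃ y ∈ KK P lam, y ^ P.ℓ = u) := by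
    intro k
    induction k with
    | zero =>
      intro j _ hle hF
      refine Or.inr (Fil.isPow P h ?_ huK hF)
      calc P.ℓ * e ≤ j * 1 := by omega
        _ ≤ j * (P.ℓ - 1) := Nat.mul_le_mul_left _ (by omega)
    | succ k ih =>
      intro j hj hle hF
      by_cases hthr : P.ℓ * e ≤ j * (P.ℓ - 1)
      · exact Or.inr (Fil.isPow P h hthr huK hF)
      · rw [not_le] at hthr
        by_cases hd : P.ℓ ∣ j
        · exact ih (j + 1) (Nat.succ_pos _) (by omega) (Fil.succ_of_dvd P h hj hd hthr huK hF)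
        · obtain ⟨a, ha⟩ := Fil.exists_LC P h hF
          by_cases ha0 : a = 0
          · subst ha0
            exact ih (j + 1) (Nat.succ_pos _) (by omega) ((LC_zero_iff P h huK).mp ha)
          · exact Or.inl ⟨j, ⟨hj, hd, hthr⟩, a, ha0, ha⟩
  exact key (P.ℓ * e) 1 one_pos (by omega) h1

end Fermat.Agent.S56.F.LF
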