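/- S56 F-B: aggregator for (B6). -/
import Fermat.Agent.S56.F.LF.FilBasic
import Fermat.Agent.S56.F.LF.FilGal
import Fermat.Agent.S56.F.LF.FilArith1
import Fermat.Agent.S56.F.LF.FilArith2
import Fermat.Agent.S56.F.LF.NormalForm
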