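/-
S56 F-B (B8): fixed points of a `q`-semilinear operator (pure algebra, Mathlib only).
-/
import Mathlib
import Fermat.Agent.S56.F.Semilin

set_option autoImplicit false

open Module

namespace Fermat.Agent.S56.F.LF

/-- Let `x_1..x_m` be a maximal `F`-linearly independent family in `Fix Φ` (`m ≤ d`).  Every `x ∈ Fix Φ` is `∑ c_i x_i`;
applying `Φ` gives `c_i^q = c_i`, and `X^q - X` has at most `q` roots.  Hence
`# Fix Φ ≤ q^d`. -/
theorem card_fix_le {F : Type*} [Field F] {W : Type*} [AddCommGroup W] [Module F W]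
    [Module.Finite F W] {q : ℕ} (hq : 1 < q) (Φ : W →+ W) (hΦ : ∀ (c : F) (x : W), Φ (c • x) = c ^ q • Φ x) :
    {x : W | Φ x = x}.Finite ∧ {x : W | Φ x = x}.ncard ≤ q ^ finrank F W :=
  Fermat.Agent.S56.F.card_fix_le hq Φ hΦ

end Fermat.Agent.S56.F.LF
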