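/- S56 F-B "LOCAL FIELDS": everything. -/
import Fermat.Agent.S56.F.LF.LamAll
import Fermat.Agent.S56.F.LF.Kummer
import Fermat.Agent.S56.F.LF.Fil
import Fermat.Agent.S56.F.LF.DepthAll
import Fermat.Agent.S56.F.LF.Semilin
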