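/-
S56 block (F), local fields (F-B), file 1: the residue field `FF P` of a place `P` of `Qb` and the residue map
`res P : Qb → FF P` (extended by `0` outside the valuation ring).
-/
import Fermat.Agent.S36R.K0.BlockL
import Fermat.Agent.GAL.INJ.ResAlgClosed
import Fermat.Agent.PT.Local.Hensel
import Fermat.Agent.PT.Local.Frob
import Fermat.Agent.S56.F.Order.Defs

set_option autoImplicit false

open Fermat.Agent.PT.Local
open scoped Classical

noncomputable section

namespace Fermat.Agent.S56.F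

/-- The residue field of the place `P` (an algebraic closure of `𝔽_ℓ`). -/
abbrev FF (P : Plc) : Type := IsLocalRing.ResidueField P.A

instance instIsAlgClosedFF (P : Plc) : IsAlgClosed (FF P) :=
  Fermat.Agent.GAL.INJ.isAlgClosed_residueField P.A

instance instFactPrimeEll (P : Plc) : Fact P.ℓ.Prime := ⟨P.prime⟩

/-- The residue map, extended by `0`. -/
def res (P : Plc) (x : Qb) : FF P :=
  if h : x ∈ P.A then IsLocalRing.residue P.A ⟨x, h⟩ else 0

variable (P : Plc)

theorem res_of_le {x : Qb} (hx : P.v x ≤ 1) :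
    res P x = IsLocalRing.residue P.A ⟨x, (P.A.valuation_le_one_iff x).1 hx⟩ := by
  rw [res, dif_pos]

@[simp] theorem res_zero : res P 0 = 0 := by
  rw [res_of_le P (by simp)]
  exact map_zero (IsLocalRing.residue P.A)

@[simp] theorem res_one : res P 1 = 1 := by
  rw [res_of_le P (by simp)]
  exact map_one (IsLocalRing.residue P.A)

theorem res_add {x y : Qb} (hx : P.v x ≤ 1) (hy : P.v y ≤ 1) : res P (x + y) = res P x + res P y := by
  have hxy : P.v (x + y) ≤ 1 := (P.v.map_add x y).trans (max_le hx hy)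
  rw [res_of_le P hx, res_of_le P hy, res_of_le P hxy, ← map_add]
  rfl

theorem res_mul {x y : Qb} (hx : P.v x ≤ 1) (hy : P.v y ≤ 1) : res P (x * y) = res P x * res P y := by
  have hxy : P.v (x * y) ≤ 1 := by rw [map_mul]; exact mul_le_one' hx hy
  rw [res_of_le P hx, res_of_le P hy, res_of_le P hxy, ← map_mul]
  rfl

theorem res_neg (x : Qb) : res P (-x) = -res P x := by
  by_cases hx : P.v x ≤ 1
  · have hx' : P.v (-x) ≤ 1 := by rwa [Valuation.map_neg]
    rw [res_of_le P hx, res_of_le P hx', ← map_neg]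
    rfl
  · have h1 : x ∉ P.A := fun h => hx ((P.A.valuation_le_one_iff x).2 h)
    have h2 : -x ∉ P.A := fun h => h1 (by simpa using P.A.neg_mem _ h)
    rw [res, res, dif_neg h1, dif_neg h2, neg_zero]

theorem res_sub {x y : Qb} (hx : P.v x ≤ 1) (hy : P.v y ≤ 1) : res P (x - y) = res P x - res P y := by
  rw [sub_eq_add_neg, res_add P hx (by rwa [Valuation.map_neg]), res_neg, ← sub_eq_add_neg]

theorem res_pow {x : Qb} (hx : P.v x ≤ 1) (n : ℕ) : res P (x ^ n) = res P x ^ n := by
  induction n with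
  | zero => simp
  | succ n ih =>
    rw [pow_succ, pow_succ, res_mul P (by rw [map_pow]; exact pow_le_one' hx n) hx, ih]

theorem res_eq_zero_iff {x : Qb} (hx : P.v x ≤ 1) : res P x = 0 ↔ P.v x < 1 := by
  rw [res_of_le P hx, IsLocalRing.residue_eq_zero_iff]
  exact P.A.valuation_lt_one_iff _

theorem res_eq_iff {x y : Qb} (hx : P.v x ≤ 1) (hy : P.v y ≤ 1) : res P x = res P y ↔ P.v (x - y) < 1 := by
  have hxy : P.v (x - y) ≤ 1 := (P.v.map_sub x y).trans (max_le hx hy)
  rw [← sub_eq_zero, ← res_sub P hx hy, res_eq_zero_iff P hxy]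

theorem res_surjective (a : FF P) : ∃ x : Qb, P.v x ≤ 1 ∧ res P x = a := by
  obtain ⟨x, rfl⟩ := IsLocalRing.residue_surjective a
  have hx : P.v (x : Qb) ≤ 1 := (P.A.valuation_le_one_iff _).2 x.2
  exact ⟨x, hx, res_of_le P hx⟩

theorem res_natCast (n : ℕ) : res P (n : Qb) = (n : FF P) := by
  induction n with
  | zero => simp
  | succ n ih =>
    have hn : P.v (n : Qb) ≤ 1 := v_le_one_of_isIntegral P (by simpa using isIntegral_algebraMap (R := ℤ) (A := Qb) (x := (n : ℤ)))
    rw [Nat.cast_succ, Nat.cast_succ, res_add P hn (by simp), ih, res_one]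

theorem res_ell : res P (P.ℓ : Qb) = 0 :=
  (res_eq_zero_iff P (v_ell_lt_one P).le).2 (v_ell_lt_one P)

instance instCharPFF : CharP (FF P) P.ℓ := by
  have h : (P.ℓ : FF P) = 0 := by rw [← res_natCast, res_ell]
  exact (CharP.charP_iff_prime_eq_zero P.prime).2 h

/-- the residue of a unit -/
theorem res_ne_zero {x : Qb} (hx : P.v x = 1) : res P x ≠ 0 := by
  rw [Ne, res_eq_zero_iff P hx.le, hx]
  exact lt_irrefl _

theorem res_inv {x : Qb} (hx : P.v x = 1) : res P x⁻¹ = (res P x)⁻¹ := by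
  have hx0 : x ≠ 0 := by
    rintro rfl
    simp at hx
  have h1 : P.v x⁻¹ ≤ 1 := by rw [map_inv₀, hx, inv_one]
  have h2 := res_mul P hx.le h1
  rw [mul_inv_cancel₀ hx0, res_one] at h2
  exact eq_inv_of_mul_eq_one_right h2.symm

theorem res_div {x y : Qb} (hx : P.v x ≤ 1) (hy : P.v y = 1) : res P (x / y) = res P x / res P y := by
  rw [div_eq_mul_inv, div_eq_mul_inv, res_mul P hx (by rw [map_inv₀, hy, inv_one]), res_inv P hy]

/-- inertia acts trivially on the residue field -/
theorem res_ine {s : GQ} (hs : s ∈ P.ine) {x : Qb} (hx : P.v x ≤ 1) : res P (s x) = res P x := by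
  have h := (mem_ine_iff P s).1 hs
  rw [res_eq_iff P (by rwa [v_map P h.1]) hx]
  exact h.2 x ((P.A.valuation_le_one_iff x).1 hx)

/-- Frobenius elements -/
theorem res_frob {q : ℕ} {φ : GQ} (hφ : IsFrob P q φ) {x : Qb} (hx : P.v x ≤ 1) :
    res P (φ x) = res P x ^ q := by
  rw [← res_pow P hx, res_eq_iff P (by rwa [v_map P hφ.1]) (by rw [map_pow]; exact pow_le_one' hx q)]
  exact hφ.2 x ((P.A.valuation_le_one_iff x).1 hx)

/-- Every residue class has a representative fixed by inertia. -/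
theorem exists_res_eq_fixed (a : FF P) :
    ∃ x : Qb, P.v x ≤ 1 ∧ (∀ s ∈ P.ine, s x = x) ∧ res P x = a := by
  obtain ⟨y, hy, rfl⟩ := res_surjective P a
  obtain ⟨b, hb, hb1, hyb⟩ := Fermat.Agent.S36R.K0L.exists_rep P hy
  exact ⟨b, hb1, (Fermat.Agent.S36R.K0L.mem_K0_iff P b).1 hb, ((res_eq_iff P hy hb1).2 hyb).symm⟩

end Fermat.Agent.S56.F

end
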