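/-
S56 block (F), local fields (F-B), file 2: the tame extension `K = Qb^I(λ)`, `λ^(p²-1) = -p`.

`C : LamCtx P` fixes `λ`, a primitive `p`-th root of unity `ζ`, an element `d0` of the inertia group `I` such that
`ξ0 = d0 λ / λ` is a primitive `(p²-1)`-th root of unity, and a Frobenius element `φ`.
`Gam0 = Stab_I(λ)`;  `K` = fixed field of `Gam0` (predicate `C.InK`).
Additive notation in the comments: `v(p) = 1`, `ν = v(λ) = 1/(p²-1)`, `v(ζ-1) = (p+1) ν`.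
-/
import Fermat.Agent.S56.F.LF.Res
import Fermat.Agent.S56.F.LF.LamAll

set_option autoImplicit false

open Fermat.Agent.PT.Local

noncomputable section

namespace Fermat.Agent.S56.F

/-- The data `(λ, ζ, d0, φ)`. -/
structure LamCtx (P : Plc) where
  /-- `λ ^ (p² - 1) = -p` -/
  lam : Qb
  /-- a primitive `p`-th root of unity -/
  zeta : Qb
  /-- a generator of `I / Stab_I(λ)` -/
  d0 : GQ
  /-- a Frobenius element -/
  phi : GQ
  hodd : P.ℓ ≠ 2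
  hlam : lam ^ (P.ℓ ^ 2 - 1) = -(P.ℓ : Qb)
  hzeta : IsPrimitiveRoot zeta P.ℓ
  hd0 : d0 ∈ P.ine
  hprim : IsPrimitiveRoot (d0 lam / lam) (P.ℓ ^ 2 - 1)
  hphi : IsFrob P P.ℓ phi

/-- There is a Frobenius element for `q = ℓ` (`exists_frob P ⊥`, and `rq P ⊥ = ℓ`: `rq P ⊥` is a power `ℓ^f`, `f > 0`
(`exists_rq_eq`) and `rq P ⊥ ≤ ℓ` by `rq_le_of_forall`: every integral `x ∈ lf P ⊥` is congruent to an element of `𝓞 ⊥`
(`exists_residue_rep`), i.e. to a rational integer, and `a ^ ℓ ≡ a`). -/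
theorem exists_frob_ell (P : Plc) : ∃ φ : GQ, IsFrob P P.ℓ φ :=
  LF.exists_frob_ell P

/-- `D = ⟨I, φ⟩` modulo any open subgroup (`frob_gen` for `K = ⊥`, `K0L.lg_bot`, `K0L.li_bot`; two Frobenius elements differ by
inertia: `IsFrob.inv_mul_mem`; `rq P ⊥ = ℓ`). -/
theorem frob_gen_ell (P : Plc) {φ : GQ} (hφ : IsFrob P P.ℓ φ) (N : Fld) [FiniteDimensional ℚ N] {σ : GQ}
    (hσ : σ ∈ P.dec) :
    ∃ j : ℕ, ∃ τ ∈ P.ine, ∃ u ∈ P.dec, (∀ x ∈ N, u x = x) ∧ σ = φ ^ j * τ * u :=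
  LF.dec_gen P hφ N hσ

/-- B3 (irreducibility of `X^e + p` over `Qb^I`): the inertia group permutes the roots `ξ λ` of `X^(p²-1) + p` transitively.
PROOF.  The orbit `{s λ | s ∈ I}` is a finite set `T` of `d` elements, all of the form `ξ λ`, `ξ^(p²-1) = 1`.  `∏_{y ∈ T} y` is fixed by `I`,
so its valuation `v(λ)^d` is an integral power of `v(p) = v(λ)^(p²-1)` (`K0L.exists_zpow`): `(p²-1) ∣ d`.  So `T` = all roots. -/
theorem exists_ine_lam (P : Plc) {lam ξ : Qb} (hlam : lam ^ (P.ℓ ^ 2 - 1) = -(P.ℓ : Qb))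
    (hξ : ξ ^ (P.ℓ ^ 2 - 1) = 1) : ∃ s ∈ P.ine, s lam = ξ * lam := by
  have hcop : ¬ P.ℓ ∣ P.ℓ ^ 2 - 1 := by
    intro h
    have h1 : P.ℓ ∣ P.ℓ ^ 2 := dvd_pow_self _ (by norm_num)
    have h2 : 1 < P.ℓ ^ 2 := Nat.one_lt_pow (by norm_num) P.prime.one_lt
    have h3 : P.ℓ ∣ P.ℓ ^ 2 - (P.ℓ ^ 2 - 1) := Nat.dvd_sub h1 h
    have h4 : P.ℓ ^ 2 - (P.ℓ ^ 2 - 1) = 1 := by omega
    rw [h4] at h3
    exact P.prime.one_lt.ne' (Nat.dvd_one.1 h3)
  exact LF.IsLam.exists_ine P ⟨hcop, hlam⟩ hξ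

theorem nonempty_lamCtx (P : Plc) (hodd : P.ℓ ≠ 2) : Nonempty (LamCtx P) := by
  have hp := P.prime
  have he : 0 < P.ℓ ^ 2 - 1 := by
    have : 1 < P.ℓ ^ 2 := Nat.one_lt_pow (by norm_num) hp.one_lt
    omega
  obtain ⟨lam, hlam⟩ := IsAlgClosed.exists_pow_nat_eq (-(P.ℓ : Qb)) he
  obtain ⟨zeta, hzeta⟩ := Unram_exists_prim hp.pos
  obtain ⟨ξ, hξ⟩ := Unram_exists_prim he
  obtain ⟨d0, hd0, hd0l⟩ := exists_ine_lam P hlam hξ.pow_eq_one
  obtain ⟨phi, hphi⟩ := exists_frob_ell P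
  have hlam0 : lam ≠ 0 := by
    rintro rfl
    rw [zero_pow he.ne'] at hlam
    have : (P.ℓ : Qb) = 0 := by
      have h := hlam
      rw [eq_comm, neg_eq_zero] at h
      exact h
    exact hp.ne_zero (by exact_mod_cast this)
  exact ⟨⟨lam, zeta, d0, phi, hodd, hlam, hzeta, hd0, by rwa [hd0l, mul_div_cancel_right₀ _ hlam0], hphi⟩⟩

namespace LamCtx

variable {P : Plc} (C : LamCtx P)

/-- `e = p² - 1` -/
abbrev e (_C : LamCtx P) : ℕ := P.ℓ ^ 2 - 1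

include C in
theorem three_le : 3 ≤ P.ℓ := by
  have h2 := P.prime.two_le
  have := C.hodd
  omega

theorem e_pos : 0 < C.e := by
  have : 1 < P.ℓ ^ 2 := Nat.one_lt_pow (by norm_num) P.prime.one_lt
  unfold e
  omega

theorem not_dvd_e : ¬ P.ℓ ∣ C.e := by
  intro h
  have h1 : P.ℓ ∣ P.ℓ ^ 2 := dvd_pow_self _ (by norm_num)
  have h2 := C.e_pos
  have h3 : P.ℓ ∣ P.ℓ ^ 2 - C.e := Nat.dvd_sub h1 h
  have h4 : P.ℓ ^ 2 - C.e = 1 := by unfold e at *; omega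
  rw [h4] at h3
  exact P.prime.one_lt.ne' (Nat.dvd_one.1 h3)

theorem lam_ne_zero : C.lam ≠ 0 := by
  intro h
  have h1 := C.hlam
  rw [h, zero_pow C.e_pos.ne', eq_comm, neg_eq_zero] at h1
  exact P.prime.ne_zero (by exact_mod_cast h1)

theorem v_lam_pow : P.v C.lam ^ C.e = P.v (P.ℓ : Qb) := by
  rw [← map_pow, C.hlam, Valuation.map_neg]

theorem v_lam_lt_one : P.v C.lam < 1 := by
  by_contra h
  have h1 : 1 ≤ P.v C.lam ^ C.e := one_le_pow₀ (not_lt.1 h)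
  rw [C.v_lam_pow] at h1
  exact absurd (v_ell_lt_one P) (not_lt.2 h1)

theorem v_lam_ne_zero : P.v C.lam ≠ 0 := by
  rw [Ne, map_eq_zero]
  exact C.lam_ne_zero

/-- powers of `v λ` are ordered as expected -/
theorem v_lam_pow_le_iff {a b : ℕ} : P.v C.lam ^ a ≤ P.v C.lam ^ b ↔ b ≤ a := by
  have := v_zpow_le_iff P C.lam_ne_zero C.v_lam_lt_one (a := (a : ℤ)) (b := (b : ℤ))
  simpa using this

theorem v_lam_zpow_inj {a b : ℤ} (h : P.v C.lam ^ a = P.v C.lam ^ b) : a = b :=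
  v_zpow_injective P C.lam_ne_zero C.v_lam_lt_one h

/-- dictionary with helper55's API (`LF/LamAll.lean`). -/
theorem isLam : LF.IsLam P C.e C.lam := ⟨C.not_dvd_e, C.hlam⟩

theorem e_eq : C.e = (P.ℓ - 1) * (P.ℓ + 1) := by
  obtain ⟨k, hk⟩ : ∃ k, P.ℓ = k + 1 := ⟨P.ℓ - 1, (Nat.succ_pred_eq_of_pos P.prime.pos).symm⟩
  unfold e
  rw [hk]
  have h1 : (k + 1) ^ 2 = k * (k + 1 + 1) + 1 := by ring
  rw [h1]
  simp

theorem isLam' : LF.IsLam P ((P.ℓ - 1) * (P.ℓ + 1)) C.lam := by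
  rw [← C.e_eq]
  exact C.isLam

/-- `v(ζ - 1) = (p+1) ν`  (`v_p_eq`, `v_lam_pow`, `e = (p+1)(p-1)`, injectivity of `x ↦ x^(p-1)`). -/
theorem v_zeta_sub_one : P.v (C.zeta - 1) = P.v C.lam ^ (P.ℓ + 1) :=
  LF.IsLam.v_zeta_sub_one P C.isLam' C.hzeta

/-- the root of unity `ξ(σ) = σ λ / λ` -/
def xi (σ : GQ) : Qb := σ C.lam / C.lam

theorem apply_lam (σ : GQ) : σ C.lam = C.xi σ * C.lam := by
  rw [xi, div_mul_cancel₀ _ C.lam_ne_zero]

theorem xi_pow (σ : GQ) : C.xi σ ^ C.e = 1 := by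
  rw [xi, div_pow, ← map_pow, C.hlam, map_neg, map_natCast, div_self]
  rw [Ne, neg_eq_zero]
  exact_mod_cast P.prime.ne_zero

theorem v_xi (σ : GQ) : P.v (C.xi σ) = 1 :=
  hensel_v_eq_one_of_pow_eq_one P C.e_pos.ne' (C.xi_pow σ)

/-- inertia fixes the roots of unity of order prime to `p` -/
theorem ine_xi {s : GQ} (hs : s ∈ P.ine) (σ : GQ) : s (C.xi σ) = C.xi σ :=
  (Fermat.Agent.S36R.K0L.mem_K0_iff P _).1
    (Fermat.Agent.S36R.K0L.root_mem_K0 P C.not_dvd_e (C.xi_pow σ)) s hs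

/-- `ξ(s t) = ξ(s) ξ(t)` for `s ∈ I`. -/
theorem xi_mul {s : GQ} (hs : s ∈ P.ine) (t : GQ) : C.xi (s * t) = C.xi s * C.xi t := by
  have h : (s * t) C.lam = s (t C.lam) := rfl
  rw [xi, h, C.apply_lam t, map_mul, C.ine_xi hs, C.apply_lam s, mul_div_assoc, mul_div_assoc,
    div_self C.lam_ne_zero]
  ring

/-- `θ(λ, σ) = ξ(σ) mod m`. -/
def theta (σ : GQ) : FF P := res P (C.xi σ)

/-- `g0 = θ(λ, d0)`, a primitive `(p²-1)`-th root of unity of the residue field. -/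
def g0 : FF P := C.theta C.d0

/-- (reduction is injective on the roots of unity of order prime to `p`: `eq_of_v_sub_lt_one`, `res_eq_iff`, `res_pow`). -/
theorem g0_prim : IsPrimitiveRoot C.g0 C.e := by
  have hv := C.v_xi C.d0
  have hprim : IsPrimitiveRoot (C.xi C.d0) C.e := C.hprim
  rw [IsPrimitiveRoot.iff_def]
  constructor
  · show res P (C.xi C.d0) ^ C.e = 1
    rw [← res_pow P hv.le, C.xi_pow, res_one]
  · intro l hl
    have hl' : res P (C.xi C.d0 ^ l) = res P 1 := by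
      rw [res_pow P hv.le, res_one]
      exact hl
    have h1 : P.v (C.xi C.d0 ^ l) ≤ 1 := by rw [map_pow, hv, one_pow]
    have h2 := (res_eq_iff P h1 (by simp)).1 hl'
    have h3 : C.xi C.d0 ^ l = 1 := eq_of_v_sub_lt_one P C.not_dvd_e
      (by rw [← pow_mul, mul_comm, pow_mul, C.xi_pow, one_pow]) (one_pow _) h2
    exact (hprim.pow_eq_one_iff_dvd l).1 h3

/-- `Gam0 = Stab_I(λ)`. -/
def Gam0 : Subgroup GQ where
  carrier := {s | s ∈ P.ine ∧ s C.lam = C.lam}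
  mul_mem' := by
    rintro a b ⟨ha, ha'⟩ ⟨hb, hb'⟩
    exact ⟨P.ine.mul_mem ha hb, by rw [AlgEquiv.mul_apply, hb', ha']⟩
  one_mem' := ⟨P.ine.one_mem, rfl⟩
  inv_mem' := by
    rintro a ⟨ha, ha'⟩
    refine ⟨P.ine.inv_mem ha, ?_⟩
    conv_lhs => rw [← ha']
    exact a.symm_apply_apply _

theorem mem_Gam0 {s : GQ} : s ∈ C.Gam0 ↔ s ∈ P.ine ∧ s C.lam = C.lam := Iff.rfl

theorem Gam0_le_ine : C.Gam0 ≤ P.ine := fun _ h => h.1

theorem Gam0_le_dec : C.Gam0 ≤ P.dec := fun _ h => ine_le_dec P h.1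

/-- `s ∈ I` lies in `Gam0` iff `θ(λ,s) = 1`. -/
theorem mem_Gam0_iff_theta {s : GQ} (hs : s ∈ P.ine) : s ∈ C.Gam0 ↔ C.theta s = 1 := by
  rw [mem_Gam0]
  constructor
  · intro h
    exact (LF.IsLam.theta_eq_one_iff P C.isLam hs).2 h.2
  · intro h
    exact ⟨hs, (LF.IsLam.theta_eq_one_iff P C.isLam hs).1 h⟩

/-- `Gam0` is normal in the decomposition group (`d⁻¹ λ = ξ λ` and `s ∈ I` fixes `ξ`; `ine_normal`). -/
theorem conj_mem_Gam0 {d s : GQ} (hd : d ∈ P.dec) (hs : s ∈ C.Gam0) : d * s * d⁻¹ ∈ C.Gam0 :=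
  LF.IsLam.G0_normal P C.isLam hd hs

theorem conj_mem_Gam0' {d s : GQ} (hd : d ∈ P.dec) (hs : s ∈ C.Gam0) : d⁻¹ * s * d ∈ C.Gam0 := by
  have := C.conj_mem_Gam0 (P.dec.inv_mem hd) hs
  rwa [inv_inv] at this

theorem d0_pow_apply_lam (n : ℕ) : (C.d0 ^ n) C.lam = C.xi C.d0 ^ n * C.lam := by
  induction n with
  | zero => simp
  | succ n ih =>
    rw [pow_succ', AlgEquiv.mul_apply, ih, map_mul, map_pow, C.ine_xi C.hd0, C.apply_lam C.d0,
      pow_succ]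
    ring

/-- `I = ⟨d0⟩ Gam0`  (`ξ(s)` is a power of the primitive root `ξ(d0)`). -/
theorem exists_pow_mul {s : GQ} (hs : s ∈ P.ine) : ∃ n : ℕ, ∃ s0 ∈ C.Gam0, s = C.d0 ^ n * s0 := by
  have hprim : IsPrimitiveRoot (C.xi C.d0) C.e := C.hprim
  haveI : NeZero C.e := ⟨C.e_pos.ne'⟩
  obtain ⟨n, -, hn⟩ := hprim.eq_pow_of_pow_eq_one (C.xi_pow s)
  refine ⟨n, (C.d0 ^ n)⁻¹ * s, ⟨P.ine.mul_mem (P.ine.inv_mem (P.ine.pow_mem C.hd0 n)) hs, ?_⟩,
    by group⟩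
  rw [AlgEquiv.mul_apply, C.apply_lam s, ← hn, ← C.d0_pow_apply_lam n]
  exact (C.d0 ^ n).symm_apply_apply _

theorem d0_pow_e_mem : C.d0 ^ C.e ∈ C.Gam0 :=
  ⟨P.ine.pow_mem C.hd0 _, by rw [C.d0_pow_apply_lam, C.xi_pow, one_mul]⟩

/-- membership in the field `K = Qb^Gam0` -/
def InK (x : Qb) : Prop := ∀ s ∈ C.Gam0, s x = x

theorem inK_iff (x : Qb) : C.InK x ↔ x ∈ IntermediateField.fixedField C.Gam0 := by
  rw [IntermediateField.mem_fixedField_iff]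
  rfl

theorem inK_lam : C.InK C.lam := fun _ hs => hs.2

theorem InK.add {x y : Qb} (hx : C.InK x) (hy : C.InK y) : C.InK (x + y) :=
  fun s hs => by rw [map_add, hx s hs, hy s hs]

theorem InK.mul {x y : Qb} (hx : C.InK x) (hy : C.InK y) : C.InK (x * y) :=
  fun s hs => by rw [map_mul, hx s hs, hy s hs]

theorem InK.sub {x y : Qb} (hx : C.InK x) (hy : C.InK y) : C.InK (x - y) :=
  fun s hs => by rw [map_sub, hx s hs, hy s hs]

theorem InK.inv {x : Qb} (hx : C.InK x) : C.InK x⁻¹ :=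
  fun s hs => by rw [map_inv₀, hx s hs]

theorem InK.div {x y : Qb} (hx : C.InK x) (hy : C.InK y) : C.InK (x / y) :=
  fun s hs => by rw [map_div₀, hx s hs, hy s hs]

theorem InK.pow {x : Qb} (hx : C.InK x) (n : ℕ) : C.InK (x ^ n) :=
  fun s hs => by rw [map_pow, hx s hs]

theorem inK_one : C.InK 1 := fun s _ => map_one s

theorem inK_of_ine {x : Qb} (hx : ∀ s ∈ P.ine, s x = x) : C.InK x := fun s hs => hx s hs.1

/-- `K` is stable under the decomposition group. -/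
theorem InK.map {x : Qb} (hx : C.InK x) {d : GQ} (hd : d ∈ P.dec) : C.InK (d x) := by
  intro s hs
  have h := hx _ (C.conj_mem_Gam0' hd hs)
  have h2 : (d⁻¹ * s * d) x = d⁻¹ (s (d x)) := rfl
  rw [h2] at h
  have h3 := congrArg d h
  rwa [show d (d⁻¹ (s (d x))) = s (d x) from d.apply_symm_apply _] at h3

/-- **The cyclotomic character on inertia is `θ(λ,·)^(p+1)`.**
PROOF. `ζ - 1 = λ^(p+1) w` with `v w = 1` (`v_zeta_sub_one`).  `d (ζ-1)/(ζ-1) = ξ(d)^(p+1) (d w / w)`, whose residue is `θ(λ,d)^(p+1)`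
(`res_ine`).  On the other hand `(ζ^n - 1)/(ζ - 1) = ∑_{i<n} ζ^i` has residue `n` (`res ζ = 1` since `v (ζ - 1) < 1`). -/
theorem natCast_eq_theta_pow {d : GQ} (hd : d ∈ P.ine) {n : ℕ} (hn : d C.zeta = C.zeta ^ n) :
    (n : FF P) = C.theta d ^ (P.ℓ + 1) :=
  (LF.IsLam.theta_pow_eq P C.isLam' C.hzeta hd hn).symm

/-- `ζ ∈ K`  (`d ζ = ζ^n` for some `n`; `natCast_eq_theta_pow` gives `n ≡ 1 mod p`). -/
theorem inK_zeta : C.InK C.zeta :=
  (IntermediateField.mem_fixedField_iff _ _).1 (LF.IsLam.zeta_mem P C.isLam' C.hzeta)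

/-- **Value group of `K`.**  PROOF: `N x = ∏_{i < e} d0^i x` is fixed by `I` (`exists_pow_mul`, `conj_mem_Gam0`, `d0_pow_e_mem`: an
element `s = d0^n s0` permutes the factors), so `v(x)^e = v(N x) = v(p)^m = v(λ)^(e m)` (`K0L.exists_zpow`, `v_map`), hence `v x = v(λ)^m`. -/
theorem InK.exists_zpow {x : Qb} (hx : C.InK x) (hx0 : x ≠ 0) : ∃ m : ℤ, P.v x = P.v C.lam ^ m :=
  LF.IsLam.v_KK P C.isLam ((IntermediateField.mem_fixedField_iff _ _).2 hx) hx0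

theorem InK.v_le_of_lt_one {x : Qb} (hx : C.InK x) (h : P.v x < 1) : P.v x ≤ P.v C.lam := by
  rcases eq_or_ne x 0 with rfl | hx0
  · simp
  obtain ⟨m, hm⟩ := InK.exists_zpow C hx hx0
  rw [hm] at h ⊢
  have h1 : P.v C.lam ^ m < P.v C.lam ^ (0 : ℤ) := by simpa using h
  have h2 : ¬ (m ≤ 0) := by
    intro hle
    have := (v_zpow_le_iff P C.lam_ne_zero C.v_lam_lt_one (a := 0) (b := m)).2 hle
    exact absurd h1 (not_lt.2 this)
  have h3 := (v_zpow_le_iff P C.lam_ne_zero C.v_lam_lt_one (a := m) (b := 1)).2 (by omega)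
  simpa using h3

/-- residue classes have representatives in `K` (even in `Qb^I`). -/
theorem exists_inK_res (a : FF P) : ∃ x : Qb, P.v x ≤ 1 ∧ C.InK x ∧ res P x = a := by
  obtain ⟨x, hx, hx', hxa⟩ := exists_res_eq_fixed P a
  exact ⟨x, hx, C.inK_of_ine hx', hxa⟩

end LamCtx

end Fermat.Agent.S56.F

end
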