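/-
S56 block (F), local fields (F-B), file 3 (B6): the unit filtration `U^(j) = 1 + λ^j O` and the leading coefficient
`lc_j u = (u - 1)/λ^j mod m`;  `p`-th powers of `K = Qb^Gam0` in the filtration.
Additive notation in the comments: `ν = v(λ)`, `v(p) = (p²-1) ν`, `v(ζ-1) = (p+1) ν`.
-/
import Fermat.Agent.S56.F.LF.Lam
import Fermat.Agent.S56.F.LF.PowClose
import Fermat.Agent.S56.F.LF.FilArith1
import Fermat.Agent.S56.F.LF.FilArith2

set_option autoImplicit false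

open Fermat.Agent.PT.Local

noncomputable section

namespace Fermat.Agent.S56.F

namespace LamCtx

variable {P : Plc} (C : LamCtx P)

/-- `u ∈ U^(j)`, i.e. `v(u - 1) ≥ j ν`. -/
def U (j : ℕ) (u : Qb) : Prop := P.v (u - 1) ≤ P.v C.lam ^ j

/-- the leading coefficient -/
def lc (j : ℕ) (u : Qb) : FF P := res P ((u - 1) / C.lam ^ j)

theorem U.mono {j j' : ℕ} (h : j' ≤ j) {u : Qb} (hu : C.U j u) : C.U j' u :=
  le_trans hu (C.v_lam_pow_le_iff.2 h)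

theorem U_one (j : ℕ) : C.U j 1 := by simp [U]

theorem lc_one (j : ℕ) : C.lc j 1 = 0 := by simp [lc]

/-- `u = 1 + λ^j y` with `y` integral. -/
theorem U_iff (j : ℕ) (u : Qb) : C.U j u ↔ ∃ y : Qb, P.v y ≤ 1 ∧ u = 1 + C.lam ^ j * y := by
  have h0 : C.lam ^ j ≠ 0 := pow_ne_zero _ C.lam_ne_zero
  have hpos : 0 < P.v C.lam ^ j := pow_pos (zero_lt_iff.2 C.v_lam_ne_zero) j
  constructor
  · intro hu
    refine ⟨(u - 1) / C.lam ^ j, ?_, ?_⟩
    · rw [map_div₀, map_pow, div_le_one₀ hpos]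
      exact hu
    · rw [mul_div_cancel₀ _ h0]
      ring
  · rintro ⟨y, hy, rfl⟩
    rw [U, add_sub_cancel_left, map_mul, map_pow]
    exact mul_le_of_le_one_right' hy

theorem lc_eq (j : ℕ) (y : Qb) : C.lc j (1 + C.lam ^ j * y) = res P y := by
  rw [lc, add_sub_cancel_left, mul_div_cancel_left₀ _ (pow_ne_zero _ C.lam_ne_zero)]

theorem v_lam_pow_lt_one {j : ℕ} (hj : 1 ≤ j) : P.v C.lam ^ j < 1 :=
  pow_lt_one₀ zero_le C.v_lam_lt_one (by omega)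

theorem U.v_eq_one {j : ℕ} (hj : 1 ≤ j) {u : Qb} (hu : C.U j u) : P.v u = 1 := by
  have h1 : P.v (u - 1) < 1 := lt_of_le_of_lt hu (C.v_lam_pow_lt_one hj)
  have h2 := Valuation.map_one_add_of_lt P.v h1
  rwa [add_sub_cancel] at h2

theorem U.ne_zero {j : ℕ} (hj : 1 ≤ j) {u : Qb} (hu : C.U j u) : u ≠ 0 := by
  intro h
  have := U.v_eq_one C hj hu
  rw [h, map_zero] at this
  exact zero_ne_one this

theorem v_lam_pow_mul_lt_one {j : ℕ} (hj : 1 ≤ j) {y : Qb} (hy : P.v y ≤ 1) :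
    P.v (C.lam ^ j * y) < 1 := by
  rw [map_mul, map_pow]
  exact lt_of_le_of_lt (mul_le_of_le_one_right' hy) (C.v_lam_pow_lt_one hj)

theorem U.mul {j : ℕ} {u u' : Qb} (hj : 1 ≤ j) (hu : C.U j u) (hu' : C.U j u') : C.U j (u * u') := by
  obtain ⟨y, hy, rfl⟩ := (C.U_iff j u).1 hu
  obtain ⟨y', hy', rfl⟩ := (C.U_iff j u').1 hu'
  refine (C.U_iff j _).2 ⟨y + y' + C.lam ^ j * (y * y'), ?_, by ring⟩
  have hyy : P.v (y * y') ≤ 1 := by rw [map_mul]; exact mul_le_one' hy hy'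
  exact (P.v.map_add _ _).trans (max_le ((P.v.map_add _ _).trans (max_le hy hy'))
    (C.v_lam_pow_mul_lt_one hj hyy).le)

/-- `(1 + λ^j y)(1 + λ^j y') = 1 + λ^j (y + y' + λ^j y y')`. -/
theorem lc_mul {j : ℕ} {u u' : Qb} (hj : 1 ≤ j) (hu : C.U j u) (hu' : C.U j u') :
    C.lc j (u * u') = C.lc j u + C.lc j u' := by
  obtain ⟨y, hy, rfl⟩ := (C.U_iff j u).1 hu
  obtain ⟨y', hy', rfl⟩ := (C.U_iff j u').1 hu'
  have hyy : P.v (y * y') ≤ 1 := by rw [map_mul]; exact mul_le_one' hy hy'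
  have h3 := C.v_lam_pow_mul_lt_one hj hyy
  have h : (1 + C.lam ^ j * y) * (1 + C.lam ^ j * y')
      = 1 + C.lam ^ j * (y + y' + C.lam ^ j * (y * y')) := by ring
  rw [h, lc_eq, lc_eq, lc_eq, res_add P ((P.v.map_add _ _).trans (max_le hy hy')) h3.le,
    res_add P hy hy', (res_eq_zero_iff P h3.le).2 h3, add_zero]

theorem U.inv {j : ℕ} {u : Qb} (hj : 1 ≤ j) (hu : C.U j u) : C.U j u⁻¹ := by
  have h1 := U.v_eq_one C hj hu
  have h0 := U.ne_zero C hj hu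
  have h : u⁻¹ - 1 = -(u - 1) / u := by
    field_simp
    ring
  rw [U, h, map_div₀, Valuation.map_neg, h1, div_one]
  exact hu

theorem lc_inv {j : ℕ} {u : Qb} (hj : 1 ≤ j) (hu : C.U j u) : C.lc j u⁻¹ = -C.lc j u := by
  have h0 := U.ne_zero C hj hu
  have h := C.lc_mul hj hu (U.inv C hj hu)
  rw [mul_inv_cancel₀ h0, lc_one] at h
  exact (neg_eq_of_add_eq_zero_right h.symm).symm

theorem U.pow {j : ℕ} {u : Qb} (hj : 1 ≤ j) (hu : C.U j u) (n : ℕ) : C.U j (u ^ n) := by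
  induction n with
  | zero => simpa using C.U_one j
  | succ n ih => rw [pow_succ]; exact U.mul C hj ih hu

theorem lc_pow {j : ℕ} {u : Qb} (hj : 1 ≤ j) (hu : C.U j u) (n : ℕ) : C.lc j (u ^ n) = n * C.lc j u := by
  induction n with
  | zero => simp [lc_one]
  | succ n ih => rw [pow_succ, C.lc_mul hj (U.pow C hj hu n) hu, ih]; push_cast; ring

theorem U.div {j : ℕ} {u u' : Qb} (hj : 1 ≤ j) (hu : C.U j u) (hu' : C.U j u') : C.U j (u / u') := by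
  rw [div_eq_mul_inv]
  exact U.mul C hj hu (U.inv C hj hu')

theorem lc_div {j : ℕ} {u u' : Qb} (hj : 1 ≤ j) (hu : C.U j u) (hu' : C.U j u') :
    C.lc j (u / u') = C.lc j u - C.lc j u' := by
  rw [div_eq_mul_inv, C.lc_mul hj hu (U.inv C hj hu'), C.lc_inv hj hu', sub_eq_add_neg]

/-- for `u ∈ K`: `lc_j u = 0 ↔ u ∈ U^(j+1)` (`InK.v_le_of_lt_one`). -/
theorem lc_eq_zero_iff {j : ℕ} {u : Qb} (hK : C.InK u) (hu : C.U j u) : C.lc j u = 0 ↔ C.U (j + 1) u := by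
  have hpos : 0 < P.v C.lam ^ j := pow_pos (zero_lt_iff.2 C.v_lam_ne_zero) j
  have hyK : C.InK ((u - 1) / C.lam ^ j) :=
    InK.div C (InK.sub C hK C.inK_one) (InK.pow C C.inK_lam j)
  have hy : P.v ((u - 1) / C.lam ^ j) ≤ 1 := by
    rw [map_div₀, map_pow, div_le_one₀ hpos]
    exact hu
  rw [lc, res_eq_zero_iff P hy, U]
  constructor
  · intro h
    have h1 := InK.v_le_of_lt_one C hyK h
    rw [map_div₀, map_pow, div_le_iff₀ hpos] at h1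
    rw [pow_succ, mul_comm]
    exact h1
  · intro h
    rw [map_div₀, map_pow, div_lt_one₀ hpos]
    refine lt_of_le_of_lt h ?_
    rw [pow_succ]
    exact mul_lt_of_lt_one_right hpos C.v_lam_lt_one

/-- for `u ∈ K`: either `u ∈ U^(j+1)` or `v (u - 1) = j ν` exactly. -/
theorem U.succ_or_eq {j : ℕ} {u : Qb} (hK : C.InK u) (hu : C.U j u) :
    C.U (j + 1) u ∨ P.v (u - 1) = P.v C.lam ^ j := by
  rcases lt_or_eq_of_le hu with h | h
  · left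
    rw [← C.lc_eq_zero_iff hK hu]
    have hpos : 0 < P.v C.lam ^ j := pow_pos (zero_lt_iff.2 C.v_lam_ne_zero) j
    have hy : P.v ((u - 1) / C.lam ^ j) < 1 := by
      rw [map_div₀, map_pow, div_lt_one₀ hpos]
      exact h
    rw [lc, res_eq_zero_iff P hy.le]
    exact hy
  · exact Or.inr h

/-- the decomposition group preserves the filtration -/
theorem U.map {j : ℕ} {u : Qb} (hu : C.U j u) {d : GQ} (hd : d ∈ P.dec) : C.U j (d u) := by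
  have h : d u - 1 = d (u - 1) := by rw [map_sub, map_one]
  rw [U, h, v_map P hd]
  exact hu

/-- action of inertia on the graded pieces: `d (1 + λ^j y) = 1 + ξ(d)^j λ^j d(y)`, `d y ≡ y`. -/
theorem lc_ine {j : ℕ} {u : Qb} (hu : C.U j u) {d : GQ} (hd : d ∈ P.ine) :
    C.lc j (d u) = C.theta d ^ j * C.lc j u := by
  obtain ⟨y, hy, rfl⟩ := (C.U_iff j u).1 hu
  have hdy : P.v (d y) ≤ 1 := by rwa [v_map P (ine_le_dec P hd)]
  have h : d (1 + C.lam ^ j * y) = 1 + C.lam ^ j * (C.xi d ^ j * d y) := by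
    rw [map_add, map_one, map_mul, map_pow, C.apply_lam d]
    ring
  rw [h, lc_eq, lc_eq, res_mul P (by rw [map_pow, C.v_xi, one_pow]) hdy,
    res_pow P (C.v_xi d).le, res_ine P hd hy, theta]

/-- action of a Frobenius element (for `q`) on the graded pieces. -/
theorem lc_frob {j : ℕ} {u : Qb} (hu : C.U j u) {q : ℕ} {φ : GQ} (hφ : IsFrob P q φ) :
    C.lc j (φ u) = C.theta φ ^ j * C.lc j u ^ q := by
  obtain ⟨y, hy, rfl⟩ := (C.U_iff j u).1 hu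
  have hdy : P.v (φ y) ≤ 1 := by rwa [v_map P hφ.1]
  have h : φ (1 + C.lam ^ j * y) = 1 + C.lam ^ j * (C.xi φ ^ j * φ y) := by
    rw [map_add, map_one, map_mul, map_pow, C.apply_lam φ]
    ring
  rw [h, lc_eq, lc_eq, res_mul P (by rw [map_pow, C.v_xi, one_pow]) hdy,
    res_pow P (C.v_xi φ).le, res_frob P hφ hy, theta]

/-! ### `p`-th powers -/

/-- dictionary with helper55's API. -/
theorem U.fil {j : ℕ} {u : Qb} (hu : C.U j u) : LF.Fil P C.lam j u :=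
  ⟨1, one_mem _, one_ne_zero, by rw [one_pow, mul_one]; exact hu⟩

theorem exists_of_fil {j : ℕ} {u : Qb} (hu : LF.Fil P C.lam j u) :
    ∃ w : Qb, C.InK w ∧ w ≠ 0 ∧ C.U j (u * w ^ P.ℓ) := by
  obtain ⟨y, hy, hy0, hle⟩ := hu
  exact ⟨y, (IntermediateField.mem_fixedField_iff _ _).1 hy, hy0, hle⟩

theorem InK.mem_KK {x : Qb} (hx : C.InK x) : x ∈ LF.KK P C.lam :=
  (IntermediateField.mem_fixedField_iff _ _).2 hx

/-- `ℓ e = (ℓ² + ℓ)(ℓ - 1)`. -/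
theorem ell_mul_e : P.ℓ * C.e = (P.ℓ ^ 2 + P.ℓ) * (P.ℓ - 1) := by
  rw [C.e_eq]
  ring

theorem mul_lt_of_lt {j : ℕ} (hj' : j < P.ℓ ^ 2 + P.ℓ) : j * (P.ℓ - 1) < P.ℓ * C.e := by
  rw [C.ell_mul_e]
  exact Nat.mul_lt_mul_of_pos_right hj' (Nat.sub_pos_of_lt P.prime.one_lt)

/-- **(U1)**  A `p`-th power of `K` in `U^(j)`, `p ∤ j`, `1 ≤ j < p² + p`, lies in `U^(j+1)`.
PROOF.  `w^p ≡ 1 mod m` gives `res w = 1`; `x = w - 1 ∈ K`, `x = 0` is trivial, otherwise `v x = i ν`, `i ≥ 1` (`InK.exists_zpow`).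
`w^p - 1 = x^p + p x (integral)`.  If `i ≥ p + 1` both terms have valuation `≥ (p²+p) ν`.  If `i ≤ p`: `p i < p² - 1 + i`, so
`v(w^p - 1) = p i ν ≥ j ν`, and `p i ≠ j`, so `p i ≥ j + 1`. -/
theorem U_succ_of_pow {j : ℕ} (hj : 1 ≤ j) (hj' : j < P.ℓ ^ 2 + P.ℓ) (hpj : ¬ P.ℓ ∣ j) {w : Qb} (hw : C.InK w)
    (hu : C.U j (w ^ P.ℓ)) : C.U (j + 1) (w ^ P.ℓ) := by
  have hwK : w ∈ LF.KK P C.lam := (IntermediateField.mem_fixedField_iff _ _).2 hw
  have hw0 : w ≠ 0 := by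
    rintro rfl
    have h1 : P.v ((0 : Qb) ^ P.ℓ - 1) ≤ P.v C.lam ^ j := hu
    rw [zero_pow P.prime.ne_zero, zero_sub, Valuation.map_neg, map_one] at h1
    have h2 : P.v C.lam ^ j < 1 := pow_lt_one₀ zero_le C.v_lam_lt_one (by omega)
    exact absurd h1 (not_le.2 h2)
  have hlev : LF.IsLevel P C.e j := by
    refine ⟨hj, hpj, ?_⟩
    rw [C.e_eq]
    have h1 : 0 < P.ℓ - 1 := by
      have := P.prime.two_le
      omega
    have h2 : P.ℓ * ((P.ℓ - 1) * (P.ℓ + 1)) = (P.ℓ ^ 2 + P.ℓ) * (P.ℓ - 1) := by ring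
    rw [h2]
    exact Nat.mul_lt_mul_of_pos_right hj' h1
  have hlt := LF.IsLam.v_pow_sub_one_lt P C.isLam hlev hwK hw0 hu
  have hxK : w ^ P.ℓ - 1 ∈ LF.KK P C.lam := sub_mem (pow_mem hwK _) (one_mem _)
  exact LF.IsLam.v_le_succ P C.isLam hxK hlt

/-- **(U2)**  `p ∣ j`, `1 ≤ j < p² + p`: `U^(j) ∩ K ⊆ U^(j+1) K^p`.
PROOF.  `u = 1 + λ^j y`, `j = p i`.  Choose `z ∈ K` integral with `res z ^ p = - res y` (`FF P` is algebraically closed, `exists_inK_res`),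
`w = 1 + λ^i z`.  `w^p = 1 + λ^j z^p + p λ^i (integral)`, and `v(p λ^i) = (p² - 1 + i) ν > j ν`.  So `u w^p ∈ U^(j)` has `lc = 0`. -/
theorem exists_mul_pow_U_succ {j : ℕ} (hj : 1 ≤ j) (hj' : j < P.ℓ ^ 2 + P.ℓ) (hpj : P.ℓ ∣ j) {u : Qb}
    (hK : C.InK u) (hu : C.U j u) : ∃ w : Qb, C.InK w ∧ w ≠ 0 ∧ C.U (j + 1) (u * w ^ P.ℓ) :=
  C.exists_of_fil (LF.Fil.succ_of_dvd P C.isLam hj hpj (C.mul_lt_of_lt hj') (InK.mem_KK C hK)
    (U.fil C hu))

/-- **(U3)**  `U^(p²+p) ∩ K ⊆ K^p`.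
PROOF.  `u = 1 + λ^(p²+p) y`.  Choose `z ∈ K` integral with `res z ^ p - res z = - res y` (Artin-Schreier, `FF P` algebraically closed),
`w = 1 + λ^(p+1) z`: `w^p = 1 + p λ^(p+1) z + ... + λ^(p²+p) z^p ≡ 1 + λ^(p²+p) (z^p - z)` modulo `λ^(p²+p+1)` (`p = -λ^(p²-1)`; the middle
terms are divisible by `p λ^(2p+2)`).  So `u w^p ∈ U^(p²+p+1)`: `v(u w^p - 1) < v(1-ζ)^p` and `exists_pth_root` (for `E = Gam0`) applies. -/
theorem exists_pow_eq_of_U {u : Qb} (hK : C.InK u) (hu : C.U (P.ℓ ^ 2 + P.ℓ) u) :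
    ∃ w : Qb, C.InK w ∧ w ^ P.ℓ = u := by
  obtain ⟨y, hy, hyu⟩ := LF.Fil.isPow P C.isLam (le_of_eq C.ell_mul_e) (InK.mem_KK C hK) (U.fil C hu)
  exact ⟨y, (IntermediateField.mem_fixedField_iff _ _).1 hy, hyu⟩

/-- **(U4)**  An element of `K` whose valuation is divisible by `p` is in `U^(1) K^p`.
PROOF. `u λ^(-p n)` is a unit of `K`; choose `z ∈ K` integral with `res z ^ p = (res (u λ^(-pn)))⁻¹`; `w = z λ^(-n)`. -/
theorem exists_mul_pow_U_one {u : Qb} (hK : C.InK u) {n : ℤ} (hu : P.v u = P.v C.lam ^ ((P.ℓ : ℤ) * n)) :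
    ∃ w : Qb, C.InK w ∧ w ≠ 0 ∧ C.U 1 (u * w ^ P.ℓ) :=
  C.exists_of_fil (LF.fil_one_of_v P C.isLam (InK.mem_KK C hK) hu)

end LamCtx

end Fermat.Agent.S56.F

end
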