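/-
S56 block (F), local fields (F-B), file 4 (B5): Kummer theory over `K = Qb^Gam0` (which contains `ζ`).
A character `ψ : Gam0 → ℤ/p` (given as a function on `GQ`) is described by a *Kummer root* `β`: `s β = ζ^(ψ s) β`; then `u = β^p ∈ K`.
-/
import Fermat.Agent.S56.F.LF.UnitFil
import Fermat.Agent.PT.B.Galois

set_option autoImplicit false

open Fermat.Agent.PT.Local

noncomputable section

namespace Fermat.Agent.S56.F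

namespace LamCtx

variable {P : Plc} (C : LamCtx P)

/-- `β` is a Kummer root of `ψ` (on `Gam0`). -/
def Kum (ψ : GQ → ZMod P.ℓ) (β : Qb) : Prop :=
  β ≠ 0 ∧ ∀ s ∈ C.Gam0, s β = C.zeta ^ (ψ s).val * β

/-- `ψ` restricted to `Gam0` is a smooth homomorphism. -/
structure IsChar (ψ : GQ → ZMod P.ℓ) : Prop where
  add : ∀ s ∈ C.Gam0, ∀ s' ∈ C.Gam0, ψ (s * s') = ψ s + ψ s'
  smooth : ∃ N : Fld, FiniteDimensional ℚ N ∧ ∀ s ∈ C.Gam0, (∀ x ∈ N, s x = x) → ψ s = 0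

variable {C} {ψ ψ' : GQ → ZMod P.ℓ} {β β' : Qb}

theorem Kum_zeta_pow_mod (m : ℕ) : C.zeta ^ (m % P.ℓ) = C.zeta ^ m := by
  conv_lhs => rw [C.hzeta.eq_orderOf]
  exact pow_mod_orderOf _ _

/-- `ζ ^ a.val` is additive in `a : ZMod p`. -/
theorem zeta_pow_val_add (a b : ZMod P.ℓ) :
    C.zeta ^ (a + b).val = C.zeta ^ a.val * C.zeta ^ b.val := by
  have : NeZero P.ℓ := ⟨P.prime.ne_zero⟩
  rw [ZMod.val_add, Kum_zeta_pow_mod, pow_add]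

theorem zeta_pow_val_eq_one_iff (a : ZMod P.ℓ) : C.zeta ^ a.val = 1 ↔ a = 0 := by
  have : NeZero P.ℓ := ⟨P.prime.ne_zero⟩
  rw [C.hzeta.pow_eq_one_iff_dvd, ← ZMod.val_eq_zero]
  constructor
  · intro h
    exact Nat.eq_zero_of_dvd_of_lt h (ZMod.val_lt a)
  · intro h
    rw [h]
    exact dvd_zero _

/-- `ζ ^ n = ζ ^ (n : ZMod p).val`. -/
theorem zeta_pow_natCast_val (n : ℕ) : C.zeta ^ ((n : ZMod P.ℓ)).val = C.zeta ^ n := by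
  rw [ZMod.val_natCast, Kum_zeta_pow_mod]

/-- **Hilbert 90**  (`PT.hilbert90_poincare` for `V = Gam0`, `L = Lall`, `c s = ζ^(ψ s)`; `Gam0` fixes `ζ` (`inK_zeta`);
smoothness: the level `N'.fixingSubgroup`, `N'` a finite normal extension containing `N`, see `PT.exists_level_fixing`). -/
theorem IsChar.exists_kum (hψ : C.IsChar ψ) : ∃ β, C.Kum ψ β := by
  have hz0 : C.zeta ≠ 0 := C.hzeta.ne_zero P.prime.ne_zero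
  obtain ⟨N, hfd, hN⟩ := hψ.smooth
  obtain ⟨N', hle, hfd', hn⟩ := PT.exists_normal_level_all N hfd
  obtain ⟨β, hβ0, hβ⟩ := PT.hilbert90_poincare (Ω := Qb) (G := GQ) PT.Lall
    (fun U hU g hg => PT.mem_level_of_fixes hU hg) C.Gam0
    (fun s => C.zeta ^ (ψ s).val)
    (fun v _ => pow_ne_zero _ hz0)
    ⟨N'.fixingSubgroup, ⟨hn, N', hfd', rfl⟩, fun v hv u hu hu' => by
      have h0 : ψ u = 0 := hN u hu' fun x hx =>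
        (IntermediateField.mem_fixingSubgroup_iff N' u).mp hu x (hle hx)
      show C.zeta ^ (ψ (v * u)).val = C.zeta ^ (ψ v).val
      rw [hψ.add v hv u hu', h0, add_zero]⟩
    (fun v hv w hw => by
      show C.zeta ^ (ψ (v * w)).val = C.zeta ^ (ψ v).val * v (C.zeta ^ (ψ w).val)
      rw [hψ.add v hv w hw, zeta_pow_val_add, map_pow, C.inK_zeta v hv])
  exact ⟨β, hβ0, fun s hs => (hβ s hs).trans (mul_comm _ _)⟩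

theorem Kum.inK_pow (h : C.Kum ψ β) : C.InK (β ^ P.ℓ) := by
  intro s hs
  rw [map_pow, h.2 s hs, mul_pow, ← pow_mul, mul_comm (ψ s).val, pow_mul, C.hzeta.pow_eq_one, one_pow, one_mul]

theorem Kum.congr (h : C.Kum ψ β) (hψ : ∀ s ∈ C.Gam0, ψ s = ψ' s) : C.Kum ψ' β :=
  ⟨h.1, fun s hs => by rw [h.2 s hs, hψ s hs]⟩

theorem Kum.mul (h : C.Kum ψ β) (h' : C.Kum ψ' β') : C.Kum (fun s => ψ s + ψ' s) (β * β') := by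
  refine ⟨mul_ne_zero h.1 h'.1, fun s hs => ?_⟩
  rw [map_mul, h.2 s hs, h'.2 s hs, zeta_pow_val_add]
  ring

theorem Kum.inv (h : C.Kum ψ β) : C.Kum (fun s => -ψ s) β⁻¹ := by
  refine ⟨inv_ne_zero h.1, fun s hs => ?_⟩
  have h1 : C.zeta ^ (-ψ s).val * C.zeta ^ (ψ s).val = 1 := by
    rw [← zeta_pow_val_add, neg_add_cancel, ZMod.val_zero, pow_zero]
  rw [map_inv₀, h.2 s hs, mul_inv, eq_inv_of_mul_eq_one_left h1]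

theorem Kum.div (h : C.Kum ψ β) (h' : C.Kum ψ' β') : C.Kum (fun s => ψ s - ψ' s) (β / β') := by
  rw [div_eq_mul_inv]
  exact (h.mul h'.inv).congr fun s _ => (sub_eq_add_neg _ _).symm

theorem Kum.pow (h : C.Kum ψ β) (n : ℕ) : C.Kum (fun s => (n : ZMod P.ℓ) * ψ s) (β ^ n) := by
  have : NeZero P.ℓ := ⟨P.prime.ne_zero⟩
  refine ⟨pow_ne_zero _ h.1, fun s hs => ?_⟩
  have h1 : (n : ZMod P.ℓ) * ψ s = ((n * (ψ s).val : ℕ) : ZMod P.ℓ) := by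
    rw [Nat.cast_mul, ZMod.natCast_zmod_val]
  show s (β ^ n) = C.zeta ^ ((n : ZMod P.ℓ) * ψ s).val * β ^ n
  rw [h1, zeta_pow_natCast_val, map_pow, h.2 s hs, mul_pow, ← pow_mul, mul_comm n]

theorem kum_of_inK {w : Qb} (hw : C.InK w) (hw0 : w ≠ 0) : C.Kum (fun _ => 0) w :=
  ⟨hw0, fun s hs => by rw [hw s hs]; simp⟩

theorem Kum.mul_inK (h : C.Kum ψ β) {w : Qb} (hw : C.InK w) (hw0 : w ≠ 0) : C.Kum ψ (β * w) :=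
  (h.mul (kum_of_inK hw hw0)).congr fun _ _ => add_zero _

theorem Kum.inK_of_zero (h : C.Kum ψ β) (h0 : ∀ s ∈ C.Gam0, ψ s = 0) : C.InK β :=
  fun s hs => by rw [h.2 s hs, h0 s hs]; simp

theorem Kum.apply_eq_iff (h : C.Kum ψ β) {s : GQ} (hs : s ∈ C.Gam0) : s β = β ↔ ψ s = 0 := by
  rw [h.2 s hs, ← zeta_pow_val_eq_one_iff (C := C)]
  exact mul_eq_right₀ h.1

theorem Kum.eq_zero_of_inK (h : C.Kum ψ β) (hK : C.InK β) : ∀ s ∈ C.Gam0, ψ s = 0 :=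
  fun s hs => (h.apply_eq_iff hs).1 (hK s hs)

/-- uniqueness: two Kummer roots of the same character differ by an element of `K`. -/
theorem Kum.div_inK (h : C.Kum ψ β) (h' : C.Kum ψ β') : C.InK (β / β') :=
  (h.div h').inK_of_zero fun _ _ => sub_self _

/-- **Conjugation.**  `d ∈ D`, `d ζ = ζ^n`: `(d⁻¹ β)^n` is a Kummer root of `s ↦ ψ (d s d⁻¹)`.
[`s (d⁻¹ β) = d⁻¹ ((d s d⁻¹) β) = (d⁻¹ ζ)^(ψ(d s d⁻¹)) d⁻¹ β` and `(d⁻¹ ζ)^n = d⁻¹ (ζ^n) = ζ`.] -/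
theorem Kum.conj (h : C.Kum ψ β) {d : GQ} (hd : d ∈ P.dec) {n : ℕ} (hn : d C.zeta = C.zeta ^ n) :
    C.Kum (fun s => ψ (d * s * d⁻¹)) ((d⁻¹ β) ^ n) := by
  have hβ0 : d⁻¹ β ≠ 0 := by
    rw [Ne, map_eq_zero_iff _ (d⁻¹).injective]
    exact h.1
  refine ⟨pow_ne_zero _ hβ0, fun s hs => ?_⟩
  have ht := h.2 _ (C.conj_mem_Gam0 hd hs)
  have h1 : s (d⁻¹ β) = d⁻¹ ((d * s * d⁻¹) β) := by
    rw [← AlgEquiv.mul_apply, ← AlgEquiv.mul_apply]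
    congr 1
    group
  have h2 : (d⁻¹ C.zeta) ^ n = C.zeta := by
    rw [← map_pow, ← hn, ← AlgEquiv.mul_apply, inv_mul_cancel]
    rfl
  show s ((d⁻¹ β) ^ n) = C.zeta ^ (ψ (d * s * d⁻¹)).val * (d⁻¹ β) ^ n
  rw [map_pow, h1, ht, map_mul, map_pow, mul_pow, ← pow_mul, mul_comm _ n, pow_mul, h2]

/-- every automorphism raises `ζ` to a power -/
theorem exists_zeta_pow (C : LamCtx P) (d : GQ) : ∃ n : ℕ, d C.zeta = C.zeta ^ n := by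
  have h : (d C.zeta) ^ P.ℓ = 1 := by rw [← map_pow, C.hzeta.pow_eq_one, map_one]
  have : NeZero P.ℓ := ⟨P.prime.ne_zero⟩
  obtain ⟨i, -, hi⟩ := C.hzeta.eq_pow_of_pow_eq_one h
  exact ⟨i, hi.symm⟩

variable (C)

/-- "`ψ` has level `≥ j`": it has a Kummer root `β` with `β^p ∈ U^(j)`. -/
def LevGE (ψ : GQ → ZMod P.ℓ) (j : ℕ) : Prop := ∃ β, C.Kum ψ β ∧ C.U j (β ^ P.ℓ)

variable {C}

theorem LevGE.mono {j j' : ℕ} (h : C.LevGE ψ j) (hj : j' ≤ j) : C.LevGE ψ j' := by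
  obtain ⟨β, hβ, hu⟩ := h
  exact ⟨β, hβ, U.mono C hj hu⟩

theorem LevGE.congr {j : ℕ} (h : C.LevGE ψ j) (hψ : ∀ s ∈ C.Gam0, ψ s = ψ' s) : C.LevGE ψ' j := by
  obtain ⟨β, hβ, hu⟩ := h
  exact ⟨β, hβ.congr hψ, hu⟩

theorem levGE_zero_fun (j : ℕ) : C.LevGE (fun _ => 0) j :=
  ⟨1, kum_of_inK C.inK_one one_ne_zero, by simpa using C.U_one j⟩

theorem LevGE.add {j : ℕ} (hj : 1 ≤ j) (h : C.LevGE ψ j) (h' : C.LevGE ψ' j) :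
    C.LevGE (fun s => ψ s + ψ' s) j := by
  obtain ⟨β, hβ, hu⟩ := h
  obtain ⟨β', hβ', hu'⟩ := h'
  exact ⟨β * β', hβ.mul hβ', by rw [mul_pow]; exact U.mul C hj hu hu'⟩

theorem LevGE.sub {j : ℕ} (hj : 1 ≤ j) (h : C.LevGE ψ j) (h' : C.LevGE ψ' j) :
    C.LevGE (fun s => ψ s - ψ' s) j := by
  obtain ⟨β, hβ, hu⟩ := h
  obtain ⟨β', hβ', hu'⟩ := h'
  exact ⟨β / β', hβ.div hβ', by rw [div_pow]; exact U.div C hj hu hu'⟩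

/-- level `≥ p² + p` means trivial (U3). -/
theorem LevGE.eq_zero (h : C.LevGE ψ (P.ℓ ^ 2 + P.ℓ)) : ∀ s ∈ C.Gam0, ψ s = 0 := by
  have : NeZero P.ℓ := ⟨P.prime.ne_zero⟩
  obtain ⟨β, hβ, hu⟩ := h
  obtain ⟨w, hwK, hw⟩ := C.exists_pow_eq_of_U hβ.inK_pow hu
  have hw0 : w ≠ 0 := by
    rintro rfl
    rw [zero_pow P.prime.ne_zero] at hw
    exact pow_ne_zero _ hβ.1 hw.symm
  have h1 : (β / w) ^ P.ℓ = 1 := by
    rw [div_pow, hw, div_self (pow_ne_zero _ hβ.1)]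
  obtain ⟨i, -, hi⟩ := C.hzeta.eq_pow_of_pow_eq_one h1
  have h2 : β = C.zeta ^ i * w := by rw [hi, div_mul_cancel₀ _ hw0]
  refine hβ.eq_zero_of_inK ?_
  rw [h2]
  exact InK.mul C (InK.pow C C.inK_zeta i) hwK

/-- **Well-definedness of the leading coefficient** (`p ∤ j`, `1 ≤ j < p²+p`): (U1) applied to `β/β' ∈ K`. -/
theorem Kum.lc_eq {j : ℕ} (hj : 1 ≤ j) (hj' : j < P.ℓ ^ 2 + P.ℓ) (hpj : ¬ P.ℓ ∣ j) (h : C.Kum ψ β) (h' : C.Kum ψ β')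
    (hu : C.U j (β ^ P.ℓ)) (hu' : C.U j (β' ^ P.ℓ)) : C.lc j (β ^ P.ℓ) = C.lc j (β' ^ P.ℓ) := by
  have hK := h.div_inK h'
  have h1 : C.U j ((β / β') ^ P.ℓ) := by rw [div_pow]; exact U.div C hj hu hu'
  have h2 := C.U_succ_of_pow hj hj' hpj hK h1
  have h3 := (C.lc_eq_zero_iff (InK.pow C hK _) h1).2 h2
  rw [div_pow, C.lc_div hj hu hu', sub_eq_zero] at h3
  exact h3

variable (C)

/-- the leading coefficient of a character of level `≥ j`. -/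
def lcOf (ψ : GQ → ZMod P.ℓ) (j : ℕ) : FF P :=
  open scoped Classical in if h : C.LevGE ψ j then C.lc j (h.choose ^ P.ℓ) else 0

variable {C}

theorem Kum.lcOf_eq {j : ℕ} (hj : 1 ≤ j) (hj' : j < P.ℓ ^ 2 + P.ℓ) (hpj : ¬ P.ℓ ∣ j) (h : C.Kum ψ β)
    (hu : C.U j (β ^ P.ℓ)) : C.lcOf ψ j = C.lc j (β ^ P.ℓ) := by
  have hL : C.LevGE ψ j := ⟨β, h, hu⟩
  rw [lcOf, dif_pos hL]
  exact Kum.lc_eq hj hj' hpj hL.choose_spec.1 h hL.choose_spec.2 hu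

theorem lcOf_congr {j : ℕ} (hj : 1 ≤ j) (hj' : j < P.ℓ ^ 2 + P.ℓ) (hpj : ¬ P.ℓ ∣ j)
    (hψ : ∀ s ∈ C.Gam0, ψ s = ψ' s) : C.lcOf ψ j = C.lcOf ψ' j := by
  by_cases h : C.LevGE ψ j
  · obtain ⟨β, hβ, hu⟩ := h
    rw [hβ.lcOf_eq hj hj' hpj hu, (hβ.congr hψ).lcOf_eq hj hj' hpj hu]
  · have h' : ¬ C.LevGE ψ' j := fun h' => h (h'.congr fun s hs => (hψ s hs).symm)
    rw [lcOf, lcOf, dif_neg h, dif_neg h']

theorem lcOf_sub {j : ℕ} (hj : 1 ≤ j) (hj' : j < P.ℓ ^ 2 + P.ℓ) (hpj : ¬ P.ℓ ∣ j) (h : C.LevGE ψ j)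
    (h' : C.LevGE ψ' j) : C.lcOf (fun s => ψ s - ψ' s) j = C.lcOf ψ j - C.lcOf ψ' j := by
  obtain ⟨β, hβ, hu⟩ := h
  obtain ⟨β', hβ', hu'⟩ := h'
  rw [hβ.lcOf_eq hj hj' hpj hu, hβ'.lcOf_eq hj hj' hpj hu',
    (hβ.div hβ').lcOf_eq hj hj' hpj (by rw [div_pow]; exact U.div C hj hu hu'), div_pow, C.lc_div hj hu hu']

theorem lcOf_natCast_mul {j : ℕ} (hj : 1 ≤ j) (hj' : j < P.ℓ ^ 2 + P.ℓ) (hpj : ¬ P.ℓ ∣ j) (h : C.LevGE ψ j) (n : ℕ) :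
    C.lcOf (fun s => (n : ZMod P.ℓ) * ψ s) j = n * C.lcOf ψ j := by
  obtain ⟨β, hβ, hu⟩ := h
  have h1 : C.U j ((β ^ n) ^ P.ℓ) := by rw [← pow_mul, mul_comm, pow_mul]; exact U.pow C hj hu n
  rw [hβ.lcOf_eq hj hj' hpj hu, (hβ.pow n).lcOf_eq hj hj' hpj h1, ← pow_mul, mul_comm n, pow_mul, C.lc_pow hj hu]

theorem LevGE.succ_of_lcOf {j : ℕ} (hj : 1 ≤ j) (hj' : j < P.ℓ ^ 2 + P.ℓ) (hpj : ¬ P.ℓ ∣ j) (h : C.LevGE ψ j)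
    (h0 : C.lcOf ψ j = 0) : C.LevGE ψ (j + 1) := by
  obtain ⟨β, hβ, hu⟩ := h
  rw [hβ.lcOf_eq hj hj' hpj hu] at h0
  exact ⟨β, hβ, (C.lc_eq_zero_iff hβ.inK_pow hu).1 h0⟩

/-- **Frobenius semilinearity.**  `φ` a Frobenius element for `q = p^f`, `φ ζ = ζ^n`, `ψ'(s) = ψ(φ s φ⁻¹)`.  Then `ψ'` has level `≥ j` and
`θ(φ)^j (lc ψ')^q = n lc ψ`.
[`β' = (φ⁻¹ β)^n` (`Kum.conj`), `u' = (φ⁻¹ u)^n`, `lc u' = n lc(φ⁻¹ u)`, `lc u = θ(φ)^j lc(φ⁻¹ u)^q` (`lc_frob`), `n^q = n` in `FF P`.] -/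
theorem LevGE.frob_conj {j : ℕ} (hj : 1 ≤ j) (hj' : j < P.ℓ ^ 2 + P.ℓ) (hpj : ¬ P.ℓ ∣ j) (h : C.LevGE ψ j)
    {f : ℕ} {φ : GQ} (hφ : IsFrob P (P.ℓ ^ f) φ) {n : ℕ} (hn : φ C.zeta = C.zeta ^ n) :
    C.LevGE (fun s => ψ (φ * s * φ⁻¹)) j ∧
      C.theta φ ^ j * C.lcOf (fun s => ψ (φ * s * φ⁻¹)) j ^ (P.ℓ ^ f) = n * C.lcOf ψ j := by
  obtain ⟨β, hβ, hu⟩ := h
  have hK' : C.Kum (fun s => ψ (φ * s * φ⁻¹)) ((φ⁻¹ β) ^ n) := hβ.conj hφ.1 hn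
  have hu1 : C.U j (φ⁻¹ (β ^ P.ℓ)) := U.map C hu (P.dec.inv_mem hφ.1)
  have e1 : ((φ⁻¹ β) ^ n) ^ P.ℓ = (φ⁻¹ (β ^ P.ℓ)) ^ n := by
    rw [map_pow, ← pow_mul, ← pow_mul, mul_comm]
  have hu' : C.U j (((φ⁻¹ β) ^ n) ^ P.ℓ) := by
    rw [e1]
    exact U.pow C hj hu1 n
  refine ⟨⟨_, hK', hu'⟩, ?_⟩
  have e2 : φ (φ⁻¹ (β ^ P.ℓ)) = β ^ P.ℓ := by
    rw [← AlgEquiv.mul_apply, mul_inv_cancel, AlgEquiv.one_apply]
  have e3 := C.lc_frob hu1 hφ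
  rw [e2] at e3
  have e4 : ((n : FF P)) ^ (P.ℓ ^ f) = n := by
    have := map_natCast (iterateFrobenius (FF P) P.ℓ f) n
    rwa [iterateFrobenius_def] at this
  rw [hK'.lcOf_eq hj hj' hpj hu', hβ.lcOf_eq hj hj' hpj hu, e1, C.lc_pow hj hu1, e3, mul_pow, e4]
  ring

end LamCtx

end Fermat.Agent.S56.F

end
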