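/-
S56 block (F), local fields (F-B), file 6 (B7 (b)): the DEPTH LEMMA for the Kummer extension `L = K(β)`, `β^p = u`, `v(u - 1) = j ν`,
`p ∤ j`, `1 ≤ j < p² + p`:  for every integral `a ∈ L` and `γ ∈ Gam0`:  `(ζ - 1)/(β - 1)` divides `γ a - a`.
-/
import Fermat.Agent.S56.F.LF.Kum
import Fermat.Agent.S56.F.LF.DepthAll

set_option autoImplicit false

open Fermat.Agent.PT.Local

noncomputable section

namespace Fermat.Agent.S56.F

/-- In a finite sum whose non zero terms have pairwise distinct valuations every term is bounded by the sum.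
(Take the index of maximal valuation; all other terms are strictly smaller, so `v (∑) = v (t i0)`:
`Valuation.map_add_eq_of_lt_left`, `Valuation.map_sum_lt`.) -/
theorem v_term_le_of_distinct (P : Plc) {ι : Type} (s : Finset ι) (t : ι → Qb)
    (h : ∀ i ∈ s, ∀ i' ∈ s, i ≠ i' → t i ≠ 0 → P.v (t i) ≠ P.v (t i')) :
    ∀ i ∈ s, P.v (t i) ≤ P.v (∑ i ∈ s, t i) :=
  LF.DepthLevel_term_le P s t fun i hi i' hi' hne h0 _ => h i hi i' hi' hne h0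

namespace LamCtx

variable {P : Plc} {C : LamCtx P} {ψ : GQ → ZMod P.ℓ} {β : Qb}

/-- A Kummer character is additive. -/
theorem Kum.add_apply (hβ : C.Kum ψ β) {s s' : GQ} (hs : s ∈ C.Gam0) (hs' : s' ∈ C.Gam0) :
    ψ (s * s') = ψ s + ψ s' := by
  have h1 := hβ.2 (s * s') (C.Gam0.mul_mem hs hs')
  rw [AlgEquiv.mul_apply, hβ.2 s' hs', map_mul, map_pow, C.inK_zeta s hs, hβ.2 s hs, ← mul_assoc,
    ← zeta_pow_val_add (C := C)] at h1
  have h2 := mul_right_cancel₀ hβ.1 h1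
  have h3 := IsPrimitiveRoot.pow_inj C.hzeta (ZMod.val_lt _) (ZMod.val_lt _) h2
  rw [← ZMod.val_injective _ h3, add_comm]

/-- `v(β - 1) = j ν / p`.
PROOF. `b = β - 1`.  `res β ^ p = res (β^p) = 1` so `v b < 1`.  `β^p - 1 = b^p + p b c` with `c` integral (`add_pow`, or
`(1+b)^p - 1 - b^p = ∑_{0<i<p} (p choose i) b^i`).  If `v(b)^p ≤ v(p) v(b)` then `v(b)^(p-1) ≤ v(p) = v(ζ-1)^(p-1)`, `v b ≤ v(ζ - 1)` and
`v(β^p - 1) ≤ v(p) v(ζ-1) = (p² + p) ν`: contradiction with `j < p² + p`.  So `v(b)^p > v(p b c)` and `v(β^p - 1) = v(b)^p`. -/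
theorem v_sub_one_pow {j : ℕ} (hj : 1 ≤ j) (hj' : j < P.ℓ ^ 2 + P.ℓ) (hu : P.v (β ^ P.ℓ - 1) = P.v C.lam ^ j) :
    P.v (β - 1) ^ P.ℓ = P.v C.lam ^ j := by
  have hl0 : C.lam ^ j ≠ 0 := pow_ne_zero _ C.lam_ne_zero
  have hvl0 : P.v C.lam ^ j ≠ 0 := pow_ne_zero _ C.v_lam_ne_zero
  refine LF.v_root_sub_one P C.isLam hj (C.mul_lt_of_lt hj') (t := (β ^ P.ℓ - 1) / C.lam ^ j) ?_ ?_
  · rw [map_div₀, hu, map_pow, div_self hvl0]
  · rw [div_mul_cancel₀ _ hl0, sub_self, map_zero]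
    exact zero_lt_iff.2 hvl0

/-- **Lagrange resolvents.**  `L = ⊕_{i<p} K β^i`.
PROOF.  If `ψ = 0` on `Gam0`, `a ∈ K`.  Otherwise choose `γ ∈ Gam0` with `ψ γ = 1` (a suitable power), so `γ β = ζ β`, `γ^p β = β`.
`a_i := p⁻¹ ∑_{m<p} ζ^(-i m) γ^m a`.  Then `∑_i a_i = a`, `γ a_i = ζ^i a_i` (uses `γ^p a = a`), and `s a_i = a_i` for `s ∈ Gam0` with
`s β = β` (`γ^(-m) s γ^m` fixes `β` because `ψ` is additive, `Kum.add_apply`).  Every `s ∈ Gam0` is `γ^m s'`, `s' β = β`; hence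
`c_i = a_i / β^i ∈ K`. -/
theorem Kum.exists_coeff (hβ : C.Kum ψ β) {a : Qb} (ha : ∀ s ∈ C.Gam0, s β = β → s a = a) :
    ∃ c : ℕ → Qb, (∀ i, C.InK (c i)) ∧ a = ∑ i ∈ Finset.range P.ℓ, c i * β ^ i := by
  obtain ⟨c, hc, hac⟩ := LF.exists_kummer_expansion P (lam := C.lam) C.hzeta (InK.mem_KK C C.inK_zeta)
    hβ.1 (InK.mem_KK C hβ.inK_pow) (x := a)
    ((IntermediateField.mem_fixedField_iff _ _).2 fun s hs => ha s hs.1 hs.2)
  exact ⟨c, fun i => (IntermediateField.mem_fixedField_iff _ _).1 (hc i), hac⟩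

/-- The same with powers of `b = β - 1`  (`β^i = ∑_m (i choose m) b^m`). -/
theorem Kum.exists_coeff_sub_one (hβ : C.Kum ψ β) {a : Qb} (ha : ∀ s ∈ C.Gam0, s β = β → s a = a) :
    ∃ c : ℕ → Qb, (∀ i, C.InK (c i)) ∧ a = ∑ i ∈ Finset.range P.ℓ, c i * (β - 1) ^ i := by
  obtain ⟨c, hc, hac⟩ := hβ.exists_coeff ha
  obtain ⟨c', hc', h⟩ := LF.DepthLevel_reexpand (LF.KK P C.lam) P.ℓ c
    (fun i => InK.mem_KK C (hc i)) (β - 1)
  refine ⟨c', fun i => (IntermediateField.mem_fixedField_iff _ _).1 (hc' i), ?_⟩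
  rw [← h, sub_add_cancel]
  exact hac

/-- the valuations of the terms `c_i b^i` are pairwise distinct: `v(c_i) ∈ ν ℤ` (`InK.exists_zpow`), `v(b)^p = j ν`, `p ∤ j`, `|i - i'| < p`
(raise to the `p`-th power and use `v_lam_zpow_inj`). -/
theorem v_term_ne {j : ℕ} (hpj : ¬ P.ℓ ∣ j) {b : Qb} (hb : P.v b ^ P.ℓ = P.v C.lam ^ j) {c c' : Qb} (hc : C.InK c)
    (hc' : C.InK c') (hc0 : c ≠ 0) {i i' : ℕ} (hi : i < P.ℓ) (hi' : i' < P.ℓ) (hii : i ≠ i') :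
    P.v (c * b ^ i) ≠ P.v (c' * b ^ i') := by
  intro heq
  have hvl0 : P.v C.lam ≠ 0 := C.v_lam_ne_zero
  have hvb0 : P.v b ≠ 0 := by
    intro h0
    rw [h0, zero_pow P.prime.ne_zero] at hb
    exact pow_ne_zero j hvl0 hb.symm
  have hb0 : b ≠ 0 := (Valuation.ne_zero_iff _).1 hvb0
  have hc0' : c' ≠ 0 := by
    rintro rfl
    rw [zero_mul, map_zero, map_eq_zero] at heq
    exact mul_ne_zero hc0 (pow_ne_zero _ hb0) heq
  obtain ⟨m, hm⟩ := InK.exists_zpow C hc hc0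
  obtain ⟨m', hm'⟩ := InK.exists_zpow C hc' hc0'
  have h1 := congrArg (fun x => x ^ P.ℓ) heq
  simp only [map_mul, map_pow, mul_pow] at h1
  rw [← pow_mul, ← pow_mul, mul_comm i, mul_comm i', pow_mul, pow_mul, hb, hm, hm', ← pow_mul,
    ← pow_mul, ← zpow_natCast, ← zpow_natCast, ← zpow_natCast, ← zpow_natCast, ← zpow_mul,
    ← zpow_mul, ← zpow_add₀ hvl0, ← zpow_add₀ hvl0] at h1
  have h2 := C.v_lam_zpow_inj h1
  push_cast at h2
  have h3 : (P.ℓ : ℤ) ∣ (j : ℤ) * ((i : ℤ) - i') := ⟨m' - m, by linarith⟩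
  have hprime : Prime (P.ℓ : ℤ) := Nat.prime_iff_prime_int.1 P.prime
  rcases hprime.dvd_or_dvd h3 with h4 | h4
  · exact hpj (Int.natCast_dvd_natCast.1 h4)
  · have h5 : (i : ℤ) - i' = 0 := by
      apply Int.eq_zero_of_abs_lt_dvd h4
      rw [abs_lt]
      constructor <;> omega
    apply hii
    omega

/-- `v((b + δ)^i - b^i) v(b) ≤ v(δ) v(b)^i` if `v δ ≤ v b`. -/
theorem v_add_pow_sub_pow_le (P : Plc) {b δ : Qb} (h : P.v δ ≤ P.v b) (i : ℕ) :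
    P.v ((b + δ) ^ i - b ^ i) * P.v b ≤ P.v δ * P.v b ^ i := by
  rcases Nat.eq_zero_or_pos i with rfl | hi
  · simp
  have h1 : (b + δ) ^ i - b ^ i = (∑ k ∈ Finset.range i, (b + δ) ^ k * b ^ (i - 1 - k)) * δ := by
    have := geom_sum₂_mul (b + δ) b i
    rw [add_sub_cancel_left] at this
    exact this.symm
  have hbd : P.v (b + δ) ≤ P.v b := (P.v.map_add _ _).trans (max_le le_rfl h)
  have h2 : P.v (∑ k ∈ Finset.range i, (b + δ) ^ k * b ^ (i - 1 - k)) ≤ P.v b ^ (i - 1) := by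
    apply Valuation.map_sum_le
    intro k hk
    have hk' : k ≤ i - 1 := by have := Finset.mem_range.1 hk; omega
    rw [map_mul, map_pow, map_pow]
    calc P.v (b + δ) ^ k * P.v b ^ (i - 1 - k) ≤ P.v b ^ k * P.v b ^ (i - 1 - k) :=
          mul_le_mul_left (pow_le_pow_left₀ zero_le hbd k) _
      _ = P.v b ^ (i - 1) := by rw [← pow_add, Nat.add_sub_cancel' hk']
  rw [h1, map_mul]
  calc P.v (∑ k ∈ Finset.range i, (b + δ) ^ k * b ^ (i - 1 - k)) * P.v δ * P.v b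
      ≤ P.v b ^ (i - 1) * P.v δ * P.v b := mul_le_mul_left (mul_le_mul_left h2 _) _
    _ = P.v δ * P.v b ^ i := by
        have h3 : P.v b ^ i = P.v b ^ (i - 1) * P.v b := by
          rw [← pow_succ, Nat.sub_add_cancel hi]
        rw [h3, mul_comm (P.v b ^ (i - 1)) (P.v δ), mul_assoc]

/-- **B7 (b), the depth lemma.**
PROOF. `a = ∑ c_i b^i` (`exists_coeff_sub_one`), all terms integral (`v_term_le_of_distinct`, `v_term_ne`, `v_sub_one_pow`).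
`γ b = b + δ`, `δ = (ζ^m - 1) β`, `v δ ≤ v(ζ - 1) ≤ v b` (`v(ζ-1)^p = (p²+p) ν`, `v(b)^p = j ν`).  `γ a - a = ∑ c_i ((b+δ)^i - b^i)` and
`v(c_i ((b+δ)^i - b^i)) v(b) ≤ v(c_i b^i) v(δ) ≤ v(ζ - 1)`. -/
theorem Kum.depth (hβ : C.Kum ψ β) {j : ℕ} (hj : 1 ≤ j) (hj' : j < P.ℓ ^ 2 + P.ℓ) (hpj : ¬ P.ℓ ∣ j)
    (hu : P.v (β ^ P.ℓ - 1) = P.v C.lam ^ j) {a : Qb} (ha1 : P.v a ≤ 1)
    (ha : ∀ s ∈ C.Gam0, s β = β → s a = a) {γ : GQ} (hγ : γ ∈ C.Gam0) :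
    Dv P ((C.zeta - 1) / (β - 1)) (γ a - a) := by
  have hl0 : C.lam ^ j ≠ 0 := pow_ne_zero _ C.lam_ne_zero
  have hvl0 : P.v C.lam ^ j ≠ 0 := pow_ne_zero _ C.v_lam_ne_zero
  have hb := v_sub_one_pow (C := C) hj hj' hu
  have hvb0 : P.v (β - 1) ≠ 0 := by
    intro h0
    rw [h0, zero_pow P.prime.ne_zero] at hb
    exact hvl0 hb.symm
  have h1 := LF.depth_level P C.isLam C.hzeta (InK.mem_KK C C.inK_zeta)
    (j := j) ⟨hj, hpj, C.mul_lt_of_lt hj'⟩ (β := β) (t := (β ^ P.ℓ - 1) / C.lam ^ j)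
    (InK.mem_KK C hβ.inK_pow) (by rw [map_div₀, hu, map_pow, div_self hvl0])
    (by
      rw [div_mul_cancel₀ _ hl0, sub_self, map_zero]
      exact zero_lt_iff.2 hvl0)
    (g := γ) hγ (x := a)
    ((IntermediateField.mem_fixedField_iff _ _).2 fun s hs => ha s hs.1 hs.2) ha1
  unfold Dv
  rw [map_div₀]
  exact (le_div_iff₀ (zero_lt_iff.2 hvb0)).2 h1

/-- numerical consequence: if `(ζ-1)/(β-1)` divides `λ^n` then `p² + p ≤ j + p n`. -/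
theorem le_of_dv {j : ℕ} (hj : 1 ≤ j) (hj' : j < P.ℓ ^ 2 + P.ℓ) (hu : P.v (β ^ P.ℓ - 1) = P.v C.lam ^ j) {n : ℕ}
    (h : Dv P ((C.zeta - 1) / (β - 1)) (C.lam ^ n)) : P.ℓ ^ 2 + P.ℓ ≤ j + P.ℓ * n := by
  have hvl0 : P.v C.lam ^ j ≠ 0 := pow_ne_zero _ C.v_lam_ne_zero
  have hb := v_sub_one_pow (C := C) hj hj' hu
  have hvb0 : P.v (β - 1) ≠ 0 := by
    intro h0
    rw [h0, zero_pow P.prime.ne_zero] at hb
    exact hvl0 hb.symm
  unfold Dv at h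
  rw [map_div₀, le_div_iff₀ (zero_lt_iff.2 hvb0), C.v_zeta_sub_one, map_pow] at h
  have h1 := pow_le_pow_left₀ zero_le h P.ℓ
  rw [mul_pow, hb, ← pow_mul, ← pow_mul, ← pow_add, C.v_lam_pow_le_iff] at h1
  nlinarith

end LamCtx

end Fermat.Agent.S56.F

end
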