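/-
S56 block (F), D1: "the character of a level".
A character `ψ : Gam0 → ℤ/p` which satisfies the relation `ψ^{d0} + ψ^{d0⁻¹} = T ψ` (`T = y + y⁻¹`, `y = g0^a`) can only have its level `j`
(`p ∤ j`, or `j = 0`: tres ramifie) at the places where `p + 1 - j ≡ ± a mod p² - 1`.
-/
import Fermat.Agent.S56.F.LF.Kum

set_option autoImplicit false

open Fermat.Agent.PT.Local

noncomputable section

namespace Fermat.Agent.S56.F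

namespace LamCtx

variable {P : Plc} (C : LamCtx P)

/-- The relation `ψ(d0 s d0⁻¹) + ψ(d0⁻¹ s d0) = T ψ(s)` on `Gam0`. -/
def Rel (T : ZMod P.ℓ) (ψ : GQ → ZMod P.ℓ) : Prop :=
  ∀ s ∈ C.Gam0, ψ (C.d0 * s * C.d0⁻¹) + ψ (C.d0⁻¹ * s * C.d0) = T * ψ s

/-- `p + 1 - j ≢ ± a mod (p² - 1)`. -/
def Good (a : ℤ) (j : ℕ) : Prop :=
  ¬ ((C.e : ℤ) ∣ ((P.ℓ : ℤ) + 1 - j - a)) ∧ ¬ ((C.e : ℤ) ∣ ((P.ℓ : ℤ) + 1 - j + a))

variable {C} {T : ZMod P.ℓ} {ψ : GQ → ZMod P.ℓ} {β : Qb}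

/-- in a field: `z + z⁻¹ = y + y⁻¹ ↔ z = y ∨ z = y⁻¹`; for powers of the primitive root `g0`. -/
theorem good_iff (a : ℤ) (j : ℕ) :
    C.Good a j ↔ C.g0 ^ ((P.ℓ : ℤ) + 1 - j) + (C.g0 ^ ((P.ℓ : ℤ) + 1 - j))⁻¹ ≠ C.g0 ^ a + (C.g0 ^ a)⁻¹ := by
  have hg : C.g0 ≠ 0 := C.g0_prim.ne_zero C.e_pos.ne'
  set m : ℤ := (P.ℓ : ℤ) + 1 - j with hm
  have hz : C.g0 ^ m ≠ 0 := zpow_ne_zero _ hg
  have hy : C.g0 ^ a ≠ 0 := zpow_ne_zero _ hg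
  have h1 : (C.e : ℤ) ∣ (m - a) ↔ C.g0 ^ m = C.g0 ^ a := by
    rw [← C.g0_prim.zpow_eq_one_iff_dvd, zpow_sub₀ hg, div_eq_one_iff_eq hy]
  have h2 : (C.e : ℤ) ∣ (m + a) ↔ C.g0 ^ m * C.g0 ^ a = 1 := by
    rw [← C.g0_prim.zpow_eq_one_iff_dvd, zpow_add₀ hg]
  have h3 : C.g0 ^ m + (C.g0 ^ m)⁻¹ = C.g0 ^ a + (C.g0 ^ a)⁻¹ ↔
      (C.g0 ^ m = C.g0 ^ a ∨ C.g0 ^ m * C.g0 ^ a = 1) := by
    generalize C.g0 ^ m = z at hz
    generalize C.g0 ^ a = y at hy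
    have key : (z + z⁻¹ - (y + y⁻¹)) * (z * y) = (z - y) * (z * y - 1) := by
      field_simp
      ring
    constructor
    · intro h
      rw [h, sub_self, zero_mul] at key
      rcases mul_eq_zero.1 key.symm with h' | h'
      · exact Or.inl (sub_eq_zero.1 h')
      · exact Or.inr (sub_eq_zero.1 h')
    · intro h
      have h0 : (z - y) * (z * y - 1) = 0 := by
        rcases h with h | h
        · rw [h, sub_self, zero_mul]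
        · rw [h, sub_self, mul_zero]
      rw [h0] at key
      rcases mul_eq_zero.1 key with h' | h'
      · exact sub_eq_zero.1 h'
      · exact absurd h' (mul_ne_zero hz hy)
  rw [Good, Ne, h3, not_or, ← hm, h1, h2]

/-- The element `w = (d0⁻¹ β)^n (d0 β)^n' / β^T` is a Kummer root of `ψ^{d0} + ψ^{d0⁻¹} - T ψ = 0`, so it lies in `K`. -/
theorem Rel.inK (hT : C.Rel T ψ) (hβ : C.Kum ψ β) {n n' : ℕ} (hn : C.d0 C.zeta = C.zeta ^ n)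
    (hn' : C.d0⁻¹ C.zeta = C.zeta ^ n') :
    C.InK ((C.d0⁻¹ β) ^ n * (C.d0 β) ^ n' / β ^ T.val) := by
  have hd : C.d0 ∈ P.dec := ine_le_dec P C.hd0
  have k1 := hβ.conj hd hn
  have k2 := hβ.conj (P.dec.inv_mem hd) hn'
  rw [inv_inv] at k2
  have k3 := hβ.pow T.val
  refine ((k1.mul k2).div k3).inK_of_zero fun s hs => ?_
  show ψ (C.d0 * s * C.d0⁻¹) + ψ (C.d0⁻¹ * s * C.d0) - ((T.val : ℕ) : ZMod P.ℓ) * ψ s = 0
  rw [hT s hs, ZMod.natCast_zmod_val, sub_self]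

/-- `θ(d0⁻¹) = g0⁻¹`. -/
theorem theta_d0_inv : C.theta C.d0⁻¹ = C.g0⁻¹ := by
  have h1 := C.xi_mul (P.ine.inv_mem C.hd0) C.d0
  have h2 : C.xi (C.d0⁻¹ * C.d0) = 1 := by
    rw [inv_mul_cancel, xi]
    exact div_self C.lam_ne_zero
  rw [h2] at h1
  have h3 : res P (C.xi C.d0⁻¹ * C.xi C.d0) = 1 := by rw [← h1, res_one]
  rw [res_mul P (C.v_xi _).le (C.v_xi _).le] at h3
  exact eq_inv_of_mul_eq_one_left h3

/-- `n = θ(d0)^(p+1) = g0^(p+1)` and `n' = g0^(-(p+1))` in the residue field (`natCast_eq_theta_pow`; `θ(d0⁻¹) = g0⁻¹` by `xi_mul`). -/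
theorem natCast_eq_g0_pow {n n' : ℕ} (hn : C.d0 C.zeta = C.zeta ^ n) (hn' : C.d0⁻¹ C.zeta = C.zeta ^ n') :
    (n : FF P) = C.g0 ^ (P.ℓ + 1) ∧ (n' : FF P) = (C.g0 ^ (P.ℓ + 1))⁻¹ := by
  refine ⟨C.natCast_eq_theta_pow C.hd0 hn, ?_⟩
  rw [C.natCast_eq_theta_pow (P.ine.inv_mem C.hd0) hn', theta_d0_inv, inv_pow]

/-- **D1, the step at `j`** (`p ∤ j`).  With `u = β^p ∈ U^(j)` and `w` as in `Rel.inK`:
`w^p = (d0⁻¹ u)^n (d0 u)^n' / u^T ∈ U^(j)`, `lc_j (w^p) = (n g0^(-j) + n' g0^j - T) lc_j u = (z + z⁻¹ - T) lc_j u`, `z = g0^(p+1-j)`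
(`lc_ine`, `lc_pow`, `lc_mul`, `lc_div`), and `lc_j (w^p) = 0` by (U1) `U_succ_of_pow` + `lc_eq_zero_iff`. -/
theorem Rel.step (hT : C.Rel T ψ) (hβ : C.Kum ψ β) {a : ℤ} (hTa : ((T.val : ℕ) : FF P) = C.g0 ^ a + (C.g0 ^ a)⁻¹)
    {j : ℕ} (hj : 1 ≤ j) (hj' : j < P.ℓ ^ 2 + P.ℓ) (hpj : ¬ P.ℓ ∣ j) (hgood : C.Good a j)
    (hu : C.U j (β ^ P.ℓ)) : C.U (j + 1) (β ^ P.ℓ) := by
  obtain ⟨n, hn⟩ := exists_zeta_pow C C.d0
  obtain ⟨n', hn'⟩ := exists_zeta_pow C C.d0⁻¹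
  obtain ⟨hnF, hnF'⟩ := natCast_eq_g0_pow hn hn'
  have hw := hT.inK hβ hn hn'
  have hd : C.d0 ∈ P.dec := ine_le_dec P C.hd0
  have hd' : C.d0⁻¹ ∈ P.dec := P.dec.inv_mem hd
  have hu1 : C.U j (C.d0⁻¹ (β ^ P.ℓ)) := U.map C hu hd'
  have hu2 : C.U j (C.d0 (β ^ P.ℓ)) := U.map C hu hd
  have hwp : ((C.d0⁻¹ β) ^ n * (C.d0 β) ^ n' / β ^ T.val) ^ P.ℓ =
      (C.d0⁻¹ (β ^ P.ℓ)) ^ n * (C.d0 (β ^ P.ℓ)) ^ n' / (β ^ P.ℓ) ^ T.val := by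
    rw [map_pow, map_pow, div_pow, mul_pow, ← pow_mul, ← pow_mul, ← pow_mul, ← pow_mul, ← pow_mul,
      ← pow_mul, mul_comm n, mul_comm n', mul_comm T.val]
  have hU1 := U.pow C hj hu1 n
  have hU2 := U.pow C hj hu2 n'
  have hU3 := U.pow C hj hu T.val
  have hU : C.U j (((C.d0⁻¹ β) ^ n * (C.d0 β) ^ n' / β ^ T.val) ^ P.ℓ) := by
    rw [hwp]
    exact U.div C hj (U.mul C hj hU1 hU2) hU3
  have h0 := (C.lc_eq_zero_iff (InK.pow C hw _) hU).2 (C.U_succ_of_pow hj hj' hpj hw hU)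
  rw [hwp, C.lc_div hj (U.mul C hj hU1 hU2) hU3, C.lc_mul hj hU1 hU2, C.lc_pow hj hu1,
    C.lc_pow hj hu2, C.lc_pow hj hu, C.lc_ine hu (P.ine.inv_mem C.hd0), C.lc_ine hu C.hd0,
    theta_d0_inv, hnF, hnF', hTa] at h0
  have hne := (good_iff a j).1 hgood
  have hg0 : C.g0 ≠ 0 := C.g0_prim.ne_zero C.e_pos.ne'
  have hz : C.g0 ^ ((P.ℓ : ℤ) + 1 - j) = C.g0 ^ (P.ℓ + 1) * (C.g0⁻¹) ^ j := by
    rw [zpow_sub₀ hg0, zpow_natCast, inv_pow, div_eq_mul_inv]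
    congr 1
    exact_mod_cast zpow_natCast C.g0 (P.ℓ + 1)
  have hz' : (C.g0 ^ ((P.ℓ : ℤ) + 1 - j))⁻¹ = (C.g0 ^ (P.ℓ + 1))⁻¹ * C.g0 ^ j := by
    rw [hz, mul_inv, inv_pow, inv_inv]
  have hθ : C.theta C.d0 = C.g0 := rfl
  rw [hθ] at h0
  have h1 : (C.g0 ^ ((P.ℓ : ℤ) + 1 - j) + (C.g0 ^ ((P.ℓ : ℤ) + 1 - j))⁻¹ -
      (C.g0 ^ a + (C.g0 ^ a)⁻¹)) * C.lc j (β ^ P.ℓ) = 0 := by
    rw [hz', hz]
    linear_combination h0
  rcases mul_eq_zero.1 h1 with h | h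
  · exact absurd (sub_eq_zero.1 h) hne
  · exact (C.lc_eq_zero_iff hβ.inK_pow hu).1 h

/-- **D1, not tres ramifie.**  `v(β^p) = m ν`; `w ∈ K` as in `Rel.inK`, `v(w) ∈ ν ℤ`, `v(w^p) = (n + n' - T) m ν`; and `n + n' - T` is prime to `p`
because its image in `FF P` is `z + z⁻¹ - (y + y⁻¹) ≠ 0`, `z = g0^(p+1)`.  So `p ∣ m`. -/
theorem Rel.step_zero (hT : C.Rel T ψ) (hβ : C.Kum ψ β) {a : ℤ}
    (hTa : ((T.val : ℕ) : FF P) = C.g0 ^ a + (C.g0 ^ a)⁻¹) (hgood : C.Good a 0) :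
    ∃ m : ℤ, P.v (β ^ P.ℓ) = P.v C.lam ^ ((P.ℓ : ℤ) * m) := by
  obtain ⟨n, hn⟩ := exists_zeta_pow C C.d0
  obtain ⟨n', hn'⟩ := exists_zeta_pow C C.d0⁻¹
  obtain ⟨hnF, hnF'⟩ := natCast_eq_g0_pow hn hn'
  have hw := hT.inK hβ hn hn'
  have hd : C.d0 ∈ P.dec := ine_le_dec P C.hd0
  have hd' : C.d0⁻¹ ∈ P.dec := P.dec.inv_mem hd
  have hβ0 := hβ.1
  have hw0 : (C.d0⁻¹ β) ^ n * (C.d0 β) ^ n' / β ^ T.val ≠ 0 :=
    div_ne_zero (mul_ne_zero (pow_ne_zero _ (by simpa using hβ0)) (pow_ne_zero _ (by simpa using hβ0)))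
      (pow_ne_zero _ hβ0)
  obtain ⟨M, hM⟩ := InK.exists_zpow C hβ.inK_pow (pow_ne_zero _ hβ0)
  obtain ⟨k, hk⟩ := InK.exists_zpow C hw hw0
  have hv : P.v β ≠ 0 := by rwa [Ne, map_eq_zero]
  have h1 : P.v ((C.d0⁻¹ β) ^ n * (C.d0 β) ^ n' / β ^ T.val) ^ P.ℓ =
      (P.v (β ^ P.ℓ)) ^ ((n : ℤ) + n' - T.val) := by
    rw [map_div₀, map_mul, map_pow, map_pow, map_pow, v_map P hd', v_map P hd, map_pow,
      zpow_sub₀ (pow_ne_zero _ hv), zpow_add₀ (pow_ne_zero _ hv), zpow_natCast, zpow_natCast,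
      zpow_natCast, div_pow, mul_pow, ← pow_mul, ← pow_mul, ← pow_mul, ← pow_mul, ← pow_mul,
      ← pow_mul, mul_comm n, mul_comm n', mul_comm T.val]
  rw [hk, hM, ← zpow_natCast, ← zpow_mul, ← zpow_mul] at h1
  have h2 : k * P.ℓ = M * ((n : ℤ) + n' - T.val) := C.v_lam_zpow_inj h1
  have h3 : ¬ (P.ℓ : ℤ) ∣ ((n : ℤ) + n' - T.val) := by
    intro hdvd
    have h4 : (((n : ℤ) + n' - T.val : ℤ) : FF P) = 0 :=
      (CharP.intCast_eq_zero_iff (FF P) P.ℓ _).2 hdvd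
    push_cast at h4
    rw [hnF, hnF', hTa] at h4
    apply (good_iff a 0).1 hgood
    have hz : C.g0 ^ ((P.ℓ : ℤ) + 1 - (0 : ℕ)) = C.g0 ^ (P.ℓ + 1) := by
      rw [Nat.cast_zero, sub_zero]
      exact_mod_cast zpow_natCast C.g0 (P.ℓ + 1)
    rw [hz]
    exact sub_eq_zero.1 h4
  have h5 : (P.ℓ : ℤ) ∣ M * ((n : ℤ) + n' - T.val) := ⟨k, by rw [← h2, mul_comm]⟩
  obtain ⟨m, rfl⟩ := ((Nat.prime_iff_prime_int.1 P.prime).dvd_or_dvd h5).resolve_right h3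
  exact ⟨m, hM⟩

theorem Rel.levGE_one (hψ : C.IsChar ψ) (hT : C.Rel T ψ) {a : ℤ}
    (hTa : ((T.val : ℕ) : FF P) = C.g0 ^ a + (C.g0 ^ a)⁻¹) (hgood : C.Good a 0) : C.LevGE ψ 1 := by
  obtain ⟨β, hβ⟩ := hψ.exists_kum
  obtain ⟨m, hm⟩ := hT.step_zero hβ hTa hgood
  obtain ⟨w, hw, hw0, hU⟩ := C.exists_mul_pow_U_one hβ.inK_pow hm
  exact ⟨β * w, hβ.mul_inK hw hw0, by rwa [mul_pow]⟩

/-- one step of the climb -/
theorem Rel.levGE_succ (hT : C.Rel T ψ) {a : ℤ} (hTa : ((T.val : ℕ) : FF P) = C.g0 ^ a + (C.g0 ^ a)⁻¹)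
    {j : ℕ} (hj : 1 ≤ j) (hj' : j < P.ℓ ^ 2 + P.ℓ) (hgood : ¬ P.ℓ ∣ j → C.Good a j) (h : C.LevGE ψ j) :
    C.LevGE ψ (j + 1) := by
  obtain ⟨β, hβ, hu⟩ := h
  by_cases hpj : P.ℓ ∣ j
  · obtain ⟨w, hw, hw0, hU⟩ := C.exists_mul_pow_U_succ hj hj' hpj hβ.inK_pow hu
    exact ⟨β * w, hβ.mul_inK hw hw0, by rwa [mul_pow]⟩
  · exact ⟨β, hβ, hT.step hβ hTa hj hj' hpj (hgood hpj) hu⟩

/-- **The climb.** -/
theorem Rel.climb (hT : C.Rel T ψ) {a : ℤ} (hTa : ((T.val : ℕ) : FF P) = C.g0 ^ a + (C.g0 ^ a)⁻¹)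
    {j1 j2 : ℕ} (h1 : 1 ≤ j1) (h12 : j1 ≤ j2) (h2 : j2 ≤ P.ℓ ^ 2 + P.ℓ)
    (hgood : ∀ j, j1 ≤ j → j < j2 → ¬ P.ℓ ∣ j → C.Good a j) (h : C.LevGE ψ j1) : C.LevGE ψ j2 := by
  induction j2, h12 using Nat.le_induction with
  | base => exact h
  | succ j hj ih =>
    exact hT.levGE_succ hTa (h1.trans hj) (by omega) (hgood j hj (Nat.lt_succ_self j))
      (ih (by omega) fun i hi hi' => hgood i hi (by omega))

/-! ### arithmetic of the jumps -/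

theorem e_cast_int : (C.e : ℤ) = (P.ℓ : ℤ) ^ 2 - 1 := by
  have h := C.e_pos
  have h1 : C.e + 1 = P.ℓ ^ 2 := by
    unfold e at *
    omega
  have h2 : ((C.e + 1 : ℕ) : ℤ) = ((P.ℓ ^ 2 : ℕ) : ℤ) := by rw [h1]
  push_cast at h2
  linarith

/-- `a = 0`: the only jump in `[0, p²+p)` is `j = p + 1`. -/
theorem good_zero {j : ℕ} (hj : j < P.ℓ ^ 2 + P.ℓ) (hne : j ≠ P.ℓ + 1) : C.Good 0 j := by
  have hp : (3 : ℤ) ≤ (P.ℓ : ℤ) := by exact_mod_cast C.three_le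
  have hj' : (j : ℤ) < (P.ℓ : ℤ) ^ 2 + P.ℓ := by exact_mod_cast hj
  have hne' : (j : ℤ) ≠ (P.ℓ : ℤ) + 1 := by exact_mod_cast hne
  have hj0 : (0 : ℤ) ≤ (j : ℤ) := Int.natCast_nonneg j
  have hpp : 3 * (P.ℓ : ℤ) ≤ (P.ℓ : ℤ) ^ 2 := by nlinarith
  have hE : (0 : ℤ) ≤ (P.ℓ : ℤ) ^ 2 - 1 := by linarith
  have key : ¬ ((C.e : ℤ) ∣ ((P.ℓ : ℤ) + 1 - j)) := by
    rw [e_cast_int]
    rintro ⟨c, hc⟩
    rcases lt_trichotomy c 0 with h | h | h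
    · have h5 : c ≤ -1 := by omega
      have h6 := mul_le_mul_of_nonneg_left h5 hE
      linarith
    · subst h
      apply hne'
      linarith
    · have h5 : 1 ≤ c := by omega
      have h6 := mul_le_mul_of_nonneg_left h5 hE
      linarith
  refine ⟨?_, ?_⟩
  · rwa [sub_zero]
  · rwa [add_zero]

/-- `a = p - 1`: the only jumps in `[0, p²+p)` are `j = 2`, `j = 2p`, `j = p² + 1`. -/
theorem good_pred {j : ℕ} (hj : j < P.ℓ ^ 2 + P.ℓ) (h2 : j ≠ 2) (h2p : j ≠ 2 * P.ℓ) (h3 : j ≠ P.ℓ ^ 2 + 1) :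
    C.Good ((P.ℓ : ℤ) - 1) j := by
  have hp : (3 : ℤ) ≤ (P.ℓ : ℤ) := by exact_mod_cast C.three_le
  have hj' : (j : ℤ) < (P.ℓ : ℤ) ^ 2 + P.ℓ := by exact_mod_cast hj
  have h2' : (j : ℤ) ≠ 2 := by exact_mod_cast h2
  have h2p' : (j : ℤ) ≠ 2 * (P.ℓ : ℤ) := by exact_mod_cast h2p
  have h3' : (j : ℤ) ≠ (P.ℓ : ℤ) ^ 2 + 1 := by exact_mod_cast h3
  have hj0 : (0 : ℤ) ≤ (j : ℤ) := Int.natCast_nonneg j
  have hpp : 3 * (P.ℓ : ℤ) ≤ (P.ℓ : ℤ) ^ 2 := by nlinarith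
  have hE : (0 : ℤ) ≤ (P.ℓ : ℤ) ^ 2 - 1 := by linarith
  refine ⟨?_, ?_⟩
  · rw [e_cast_int]
    rintro ⟨c, hc⟩
    rcases lt_trichotomy c (-1) with h | h | h
    · have h5 : c ≤ -2 := by omega
      have h6 := mul_le_mul_of_nonneg_left h5 hE
      linarith
    · subst h
      apply h3'
      linarith
    · rcases lt_trichotomy c 0 with h' | h' | h'
      · omega
      · subst h'
        apply h2'
        linarith
      · have h5 : 1 ≤ c := by omega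
        have h6 := mul_le_mul_of_nonneg_left h5 hE
        linarith
  · rw [e_cast_int]
    rintro ⟨c, hc⟩
    rcases lt_trichotomy c 0 with h | h | h
    · have h5 : c ≤ -1 := by omega
      have h6 := mul_le_mul_of_nonneg_left h5 hE
      linarith
    · subst h
      apply h2p'
      linarith
    · have h5 : 1 ≤ c := by omega
      have h6 := mul_le_mul_of_nonneg_left h5 hE
      linarith

/-! ### the two cases -/

/-- `T = 2 = g0^0 + g0^0`. -/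
theorem two_eq : (((2 : ZMod P.ℓ).val : ℕ) : FF P) = C.g0 ^ (0 : ℤ) + (C.g0 ^ (0 : ℤ))⁻¹ := by
  have hp := C.three_le
  have h : (2 : ZMod P.ℓ).val = 2 := by
    rw [ZMod.val_two_eq_two_mod, Nat.mod_eq_of_lt (by omega)]
  rw [h, zpow_zero, inv_one]
  norm_num

/-- diagonal part: level `≥ p + 1`. -/
theorem Rel.levGE_diag (hψ : C.IsChar ψ) (hT : C.Rel 2 ψ) : C.LevGE ψ (P.ℓ + 1) := by
  have hp := C.three_le
  have h1 := hT.levGE_one hψ two_eq (good_zero (by positivity) (by omega))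
  refine hT.climb two_eq le_rfl (by omega) (by nlinarith) (fun j _ hj _ => good_zero (by nlinarith) (by omega)) h1

/-- diagonal part: level `≥ p + 2` implies `ψ = 0`. -/
theorem Rel.eq_zero_diag (hT : C.Rel 2 ψ) (h : C.LevGE ψ (P.ℓ + 2)) : ∀ s ∈ C.Gam0, ψ s = 0 := by
  have hp := C.three_le
  refine LevGE.eq_zero (hT.climb two_eq (by omega) (by nlinarith) le_rfl
    (fun j hj hj' _ => good_zero hj' (by omega)) h)

/-- off-diagonal part: level `≥ 2`. -/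
theorem Rel.levGE_two (hψ : C.IsChar ψ) (hT : C.Rel T ψ)
    (hTa : ((T.val : ℕ) : FF P) = C.g0 ^ ((P.ℓ : ℤ) - 1) + (C.g0 ^ ((P.ℓ : ℤ) - 1))⁻¹) : C.LevGE ψ 2 := by
  have hp := C.three_le
  have h1 := hT.levGE_one hψ hTa (good_pred (by positivity) (by omega) (by omega) (by positivity))
  refine hT.climb hTa le_rfl (by omega) (by nlinarith) (fun j hj hj' _ => ?_) h1
  obtain rfl : j = 1 := by omega
  exact good_pred (by nlinarith) (by omega) (by omega) (by nlinarith)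

/-- off-diagonal part: level `≥ 3` implies level `≥ p² + 1`. -/
theorem Rel.levGE_of_three (hT : C.Rel T ψ)
    (hTa : ((T.val : ℕ) : FF P) = C.g0 ^ ((P.ℓ : ℤ) - 1) + (C.g0 ^ ((P.ℓ : ℤ) - 1))⁻¹) (h : C.LevGE ψ 3) :
    C.LevGE ψ (P.ℓ ^ 2 + 1) := by
  have hp := C.three_le
  refine hT.climb hTa (by omega) (by nlinarith) (by omega) (fun j hj hj' hpj => ?_) h
  refine good_pred (by omega) (by omega) ?_ (by omega)
  rintro rfl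
  exact hpj (Dvd.intro_left 2 rfl)

/-- off-diagonal part: level `≥ p² + 2` implies `ψ = 0`. -/
theorem Rel.eq_zero_of_levGE (hT : C.Rel T ψ)
    (hTa : ((T.val : ℕ) : FF P) = C.g0 ^ ((P.ℓ : ℤ) - 1) + (C.g0 ^ ((P.ℓ : ℤ) - 1))⁻¹)
    (h : C.LevGE ψ (P.ℓ ^ 2 + 2)) : ∀ s ∈ C.Gam0, ψ s = 0 := by
  have hp := C.three_le
  refine LevGE.eq_zero (hT.climb hTa (by omega) (by omega) le_rfl (fun j hj hj' hpj => ?_) h)
  refine good_pred hj' (by nlinarith) ?_ (by omega)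
  rintro rfl
  exact hpj (Dvd.intro_left 2 rfl)

end LamCtx

end Fermat.Agent.S56.F

end
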